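/-
Subgroups of a module with an action of a group `G` having no non-zero `G`-invariant
homomorphism from a stable subgroup to `ℤ/p` ("no trivial constituent"), and closure properties.
-/
import Mathlib.Algebra.Field.ZMod
import Mathlib.GroupTheory.QuotientGroup.Basic
import Mathlib.Algebra.Module.ZMod
import Mathlib.LinearAlgebra.Dual.Lemmas
import Mathlib.LinearAlgebra.Basis.VectorSpace
import Mathlib.LinearAlgebra.FreeModule.Basic
import Mathlib.RingTheory.Noetherian.Basic
import Mathlib.Algebra.Group.Subgroup.Basic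

set_option autoImplicit false

namespace Fermat.Agent.OrdinaryDatum

universe uM uN uG

variable {G : Type uG} {M : Type uM} {N : Type uN} [AddCommGroup M] [AddCommGroup N]

/-- No stable subgroup of `C` has a non-zero invariant homomorphism to `ℤ/p`. -/
def NoTriv (p : ℕ) (act : G → M →+ M) (C : AddSubgroup M) : Prop :=
  ∀ B : AddSubgroup M, B ≤ C → ∀ hB : ∀ g, ∀ x ∈ B, act g x ∈ B,
    ∀ φ : B →+ ZMod p, (∀ (g : G) (x : B), φ ⟨act g x, hB g x x.2⟩ = φ x) → φ = 0

variable {p : ℕ}

theorem NoTriv.mono {act : G → M →+ M} {C C' : AddSubgroup M} (h : NoTriv p act C)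
    (hle : C' ≤ C) : NoTriv p act C' :=
  fun B hB => h B (hB.trans hle)

/-- The image under an equivariant homomorphism. -/
theorem NoTriv.map {act : G → M →+ M} {act' : G → N →+ N} {C : AddSubgroup M}
    (h : NoTriv p act C) (hC : ∀ g, ∀ x ∈ C, act g x ∈ C) (f : M →+ N)
    (hf : ∀ g x, x ∈ C → f (act g x) = act' g (f x)) : NoTriv p act' (C.map f) := by
  intro B hBC hB φ hφ
  have hst : ∀ g, ∀ x ∈ C ⊓ B.comap f, act g x ∈ C ⊓ B.comap f := by
    rintro g x ⟨hxC, hxB⟩
    refine ⟨hC g x hxC, ?_⟩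
    show f (act g x) ∈ B
    rw [hf g x hxC]
    exact hB g _ hxB
  let ψ : (C ⊓ B.comap f : AddSubgroup M) →+ B :=
    { toFun := fun x => ⟨f (x : M), x.2.2⟩
      map_zero' := Subtype.ext (map_zero f)
      map_add' := fun x y => Subtype.ext (map_add f (x : M) (y : M)) }
  have hzero : φ.comp ψ = 0 := by
    refine h _ inf_le_left hst _ fun g x => ?_
    show φ _ = φ _
    rw [← hφ g (ψ x)]
    congr 1
    exact Subtype.ext (hf g x x.2.1)
  ext ⟨y, hy⟩
  obtain ⟨x, hxC, rfl⟩ := hBC hy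
  exact DFunLike.congr_fun hzero ⟨x, hxC, hy⟩

/-- Finite powers. -/
theorem NoTriv.pi {ι : Type*} [Finite ι] {act : G → M →+ M} {C : AddSubgroup M}
    (h : NoTriv p act C) :
    NoTriv p (fun g => AddMonoidHom.compLeft (act g) ι)
      (AddSubgroup.pi Set.univ fun _ : ι => C) := by
  classical
  have := Fintype.ofFinite ι
  suffices H : ∀ s : Finset ι, ∀ B : AddSubgroup (ι → M),
      (∀ x ∈ B, ∀ i, x i ∈ C) → (∀ x ∈ B, ∀ i ∉ s, x i = 0) →
      ∀ hB : ∀ g, ∀ x ∈ B, AddMonoidHom.compLeft (act g) ι x ∈ B,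
      ∀ φ : B →+ ZMod p,
        (∀ (g : G) (x : B), φ ⟨AddMonoidHom.compLeft (act g) ι x, hB g x x.2⟩ = φ x) → φ = 0 by
    intro B hBC hB φ hφ
    exact H Finset.univ B (fun x hx i => hBC hx i (Set.mem_univ i))
      (fun x _ i hi => absurd (Finset.mem_univ i) hi) hB φ hφ
  intro s
  induction s using Finset.induction_on with
  | empty =>
    intro B _ hzero hB φ _
    refine DFunLike.ext _ _ fun x => ?_
    have hx : x = 0 := Subtype.ext (funext fun i => hzero x x.2 i (Finset.notMem_empty i))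
    rw [hx, map_zero]
    rfl
  | @insert i s his ih =>
    intro B hBC hzero hB φ hφ
    -- on the part with vanishing `i`-th coordinate `φ` is zero
    let B₀ : AddSubgroup (ι → M) := B ⊓ (Pi.evalAddMonoidHom (fun _ : ι => M) i).ker
    have hB₀ : ∀ g, ∀ x ∈ B₀, AddMonoidHom.compLeft (act g) ι x ∈ B₀ := by
      rintro g x ⟨hx, hxi⟩
      refine ⟨hB g x hx, ?_⟩
      show act g (x i) = 0
      rw [show x i = 0 from hxi, map_zero]
    have h₀ : ∀ x : B, (x : ι → M) i = 0 → φ x = 0 := by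
      intro x hxi
      have := ih B₀ (fun y hy => hBC y hy.1) (fun y hy j hj => ?_) hB₀
        (φ.comp (AddSubgroup.inclusion inf_le_left)) (fun g y => hφ g ⟨y, y.2.1⟩)
      · exact DFunLike.congr_fun this ⟨x, x.2, hxi⟩
      · by_cases hji : j = i
        · subst hji
          exact hy.2
        · exact hzero y hy.1 j (by simp [hji, hj])
    let e : (ι → M) →+ M := Pi.evalAddMonoidHom (fun _ : ι => M) i
    let eB : B →+ B.map e := (e.comp B.subtype).codRestrict _ fun x => ⟨x, x.2, rfl⟩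
    have heB : Function.Surjective eB := by
      rintro ⟨y, x, hx, rfl⟩
      exact ⟨⟨x, hx⟩, rfl⟩
    have hker : eB.ker ≤ φ.ker := fun x hx => h₀ x (congrArg Subtype.val hx)
    let φ' : B.map e →+ ZMod p := eB.liftOfSurjective heB ⟨φ, hker⟩
    have hφ' : ∀ x : B, φ' (eB x) = φ x := fun x => by
      simp [φ']
    have hst : ∀ g, ∀ y ∈ B.map e, act g y ∈ B.map e := by
      rintro g y ⟨x, hx, rfl⟩
      exact ⟨_, hB g x hx, rfl⟩
    have hzero' : φ' = 0 := by
      refine h _ ?_ hst φ' ?_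
      · rintro y ⟨x, hx, rfl⟩
        exact hBC x hx i
      · intro g y
        obtain ⟨x, rfl⟩ := heB y
        rw [hφ' x, ← hφ g x, ← hφ']
        rfl
    refine DFunLike.ext _ _ fun x => ?_
    rw [← hφ' x, hzero']
    rfl

theorem exists_functional_ne_zero {K Q : Type*} [Field K] [AddCommGroup Q] [Module K Q] {q : Q}
    (hq : q ≠ 0) : ∃ f : Q →ₗ[K] K, f q ≠ 0 := by
  by_contra h
  push Not at h
  exact hq ((Module.forall_dual_apply_eq_zero_iff K q).1 h)

/-- An element of an abelian group killed by the prime `p` is detected by a homomorphism to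
`ℤ/p`. -/
theorem exists_hom_zmod_ne_zero {Q : Type*} [AddCommGroup Q] [Fact p.Prime]
    (hQ : ∀ x : Q, p • x = 0) {q : Q} (hq : q ≠ 0) : ∃ f : Q →+ ZMod p, f q ≠ 0 := by
  let _ : Module (ZMod p) Q := AddCommGroup.zmodModule hQ
  obtain ⟨f, hf⟩ := exists_functional_ne_zero (K := ZMod p) hq
  exact ⟨f.toAddMonoidHom, hf⟩

end Fermat.Agent.OrdinaryDatum
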