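/-
Infinitesimal groups over an absolutely unramified base have no unramified quotient.

`K` a field with an action of `G`, `A` a valuation subring of `K` such that non-zero `G`-fixed
elements have the valuation of an integral power of the prime `p ≥ 3` (in our application `G` is
the inertia group).  If a finite abelian group `C` with a `G`-action carries an algebra `H` of
equivariant integral functions which separates points, is finite over the fixed valuation ring,
is closed under translation and all of whose elements are congruent to their value at `0`, then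
every `G`-invariant homomorphism `C → ℤ/p` vanishes.

Proof: on the functions `P` factoring through the homomorphism the difference operators are
divisible by `p ^ R` whenever all values in `P` are congruent mod `p ^ R`; expanding `h (p y)`
then shows that `R` can be increased.
-/
import Fermat.Agent.OrdinaryDatum.NoTrivial
import Mathlib.RingTheory.Valuation.ValuationSubring
import Mathlib.RingTheory.LocalRing.Module
import Mathlib.RingTheory.Flat.TorsionFree
import Mathlib.RingTheory.Valuation.ValuationRing
import Mathlib.Algebra.Group.ForwardDiff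
import Mathlib.FieldTheory.Fixed
import Mathlib.Data.Nat.Choose.Dvd
import Mathlib.Algebra.BigOperators.Field

set_option autoImplicit false

noncomputable section

namespace Fermat.Agent.OrdinaryDatum

open scoped fwdDiff

universe uK uG uM

variable {K : Type uK} [Field K] (A : ValuationSubring K) (G : Type uG) [Group G]
  [MulSemiringAction G K]

/-- The valuation ring of the fixed field. -/
def fixedInt : Subring K := A.toSubring ⊓ (FixedPoints.subfield G K).toSubring

theorem mem_fixedInt {c : K} : c ∈ fixedInt A G ↔ c ∈ A ∧ ∀ g : G, g • c = c := Iff.rfl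

instance fixedInt_valuationRing : ValuationRing (fixedInt A G) := by
  rw [ValuationRing.iff_dvd_total]
  refine ⟨fun a b => ?_⟩
  by_cases ha : (a : K) = 0
  · exact Or.inr ⟨0, Subtype.ext (by simp [ha])⟩
  by_cases hb : (b : K) = 0
  · exact Or.inl ⟨0, Subtype.ext (by simp [hb])⟩
  have hfix : ∀ x y : fixedInt A G, ∀ g : G, g • ((x : K) / y) = (x : K) / y := fun x y g => by
    rw [smul_div₀', x.2.2 g, y.2.2 g]
  rcases A.mem_or_inv_mem ((b : K) / a) with h | h
  · exact Or.inl ⟨⟨_, h, hfix b a⟩, Subtype.ext (by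
      show (b : K) = a * (b / a)
      rw [mul_div_cancel₀ _ ha])⟩
  · refine Or.inr ⟨⟨_, h, fun g => ?_⟩, Subtype.ext ?_⟩
    · rw [inv_div]; exact hfix a b g
    · show (a : K) = b * ((b : K) / a)⁻¹
      rw [inv_div, mul_div_cancel₀ _ hb]

/-- An integral order of equivariant functions on `M`, closed under translation. -/
structure FunOrder (M : Type uM) [AddCommGroup M] (act : G → M →+ M) where
  /-- the functions -/
  alg : Subalgebra (fixedInt A G) (M → K)
  finite : Module.Finite (fixedInt A G) alg
  integral : ∀ h ∈ alg, ∀ x, h x ∈ A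
  equivariant : ∀ h ∈ alg, ∀ (g : G) (x : M), h (act g x) = g • h x
  separates : ∀ x y : M, (∀ h ∈ alg, h x = h y) → x = y
  translate : ∀ h ∈ alg, ∃ (r : ℕ) (a b : Fin r → (M → K)),
    (∀ i, a i ∈ alg) ∧ (∀ i, b i ∈ alg) ∧ ∀ x y : M, h (x + y) = ∑ i, a i x * b i y
  congruent : ∀ h ∈ alg, ∀ x, h x - h 0 ∈ A.nonunits

variable {A G} {M : Type uM} [AddCommGroup M] {act : G → M →+ M}

/-- Restriction to a stable subgroup. -/
def FunOrder.restrict (O : FunOrder A G M act) (B : AddSubgroup M)
    (act' : G → B →+ B) (hact : ∀ g (x : B), (act' g x : M) = act g x) :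
    FunOrder A G B act' where
  alg := O.alg.map (AlgHom.pi fun x : B => Pi.evalAlgHom (fixedInt A G) (fun _ : M => K) (x : M))
  finite := by
    have := O.finite
    let r : (M → K) →ₐ[fixedInt A G] (B → K) :=
      AlgHom.pi fun x : B => Pi.evalAlgHom (fixedInt A G) (fun _ : M => K) (x : M)
    refine Module.Finite.of_surjective
      ((r.comp O.alg.val).codRestrict (O.alg.map r) fun h =>
        Subalgebra.mem_map.2 ⟨h, h.2, rfl⟩).toLinearMap ?_
    rintro ⟨_, h, hh, rfl⟩
    exact ⟨⟨h, hh⟩, rfl⟩
  integral := by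
    rintro _ ⟨h, hh, rfl⟩ x
    exact O.integral h hh x
  equivariant := by
    rintro _ ⟨h, hh, rfl⟩ g x
    show h (act' g x : M) = g • h x
    rw [hact, O.equivariant h hh]
  separates := fun x y hxy => Subtype.ext (O.separates x y fun h hh =>
    hxy _ ⟨h, hh, rfl⟩)
  translate := by
    rintro _ ⟨h, hh, rfl⟩
    obtain ⟨r, a, b, ha, hb, hab⟩ := O.translate h hh
    exact ⟨r, fun i x => a i x, fun i x => b i x, fun i => ⟨_, ha i, rfl⟩,
      fun i => ⟨_, hb i, rfl⟩, fun x y => hab x y⟩
  congruent := by
    rintro _ ⟨h, hh, rfl⟩ x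
    exact O.congruent h hh x

namespace FunOrder

variable (O : FunOrder A G M act)

/-- linear independence over the fixed ring gives linear independence over `K` -/
theorem eq_zero_of_sum_smul_eq_zero (hsurj : ∀ g, Function.Surjective (act g))
    {ι : Type*} (e : ι → O.alg) (he : LinearIndependent (fixedInt A G) e) :
    LinearIndependent K (fun i => ((e i : O.alg) : M → K)) := by
  classical
  rw [linearIndependent_iff']
  intro s
  induction s using Finset.induction_on with
  | empty => simp
  | @insert j s hj ih =>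
    intro c hc i hi
    by_cases hcj : c j = 0
    · rw [Finset.sum_insert hj, hcj, zero_smul, zero_add] at hc
      rcases Finset.mem_insert.1 hi with rfl | hi
      · exact hcj
      · exact ih c hc i hi
    exfalso
    set d : ι → K := fun i => (c j)⁻¹ * c i with hd
    have hdj : d j = 1 := inv_mul_cancel₀ hcj
    have hdsum : ∑ i ∈ insert j s, d i • ((e i : O.alg) : M → K) = 0 := by
      simp only [hd, ← smul_smul, ← Finset.smul_sum, hc, smul_zero]
    -- the coefficients are fixed
    have hfix : ∀ g : G, ∀ i ∈ insert j s, g • d i = d i := by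
      intro g
      have hg : ∑ i ∈ insert j s, (g • d i) • ((e i : O.alg) : M → K) = 0 := by
        ext x
        obtain ⟨x, rfl⟩ := hsurj g x
        have h := congrArg (g • ·) (congrFun hdsum x)
        simp only [Finset.sum_apply, Pi.smul_apply, smul_eq_mul, Finset.smul_sum, smul_mul',
          Pi.zero_apply, smul_zero] at h
        simp only [Finset.sum_apply, Pi.smul_apply, smul_eq_mul, Pi.zero_apply]
        rw [← h]
        exact Finset.sum_congr rfl fun i _ => by rw [O.equivariant _ (e i).2]
      have hdiff : ∑ i ∈ s, (g • d i - d i) • ((e i : O.alg) : M → K) = 0 := by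
        have h := congrArg₂ (· - ·) hg hdsum
        simp only [← Finset.sum_sub_distrib, ← sub_smul, sub_zero] at h
        rwa [Finset.sum_insert hj, hdj, smul_one, sub_self, zero_smul, zero_add] at h
      intro i hi
      rcases Finset.mem_insert.1 hi with rfl | hi
      · rw [hdj, smul_one]
      · exact sub_eq_zero.1 (ih _ hdiff i hi)
    -- scale into `A`
    obtain ⟨m, hm, hmax⟩ := Finset.exists_max_image (insert j s) (fun i => A.valuation (d i))
      ⟨j, Finset.mem_insert_self _ _⟩
    have hm0 : d m ≠ 0 := fun h0 => by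
      have := hmax j (Finset.mem_insert_self _ _)
      rw [h0, hdj, map_zero, map_one] at this
      exact absurd this (not_le.2 zero_lt_one)
    have hw : ∀ i ∈ insert j s, d i / d m ∈ fixedInt A G := fun i hi => by
      refine (mem_fixedInt A G).2 ⟨(A.valuation_le_one_iff _).1 ?_, fun g => ?_⟩
      · rw [map_div₀]
        exact div_le_one_of_le₀ (hmax i hi) zero_le
      · rw [smul_div₀', hfix g i hi, hfix g m hm]
    let w : ι → fixedInt A G := fun i =>
      if hi : i ∈ insert j s then ⟨_, hw i hi⟩ else 0
    have hwsum : ∑ i ∈ insert j s, w i • e i = 0 := by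
      refine Subtype.ext ?_
      rw [AddSubmonoidClass.coe_finsetSum, ZeroMemClass.coe_zero]
      calc ∑ i ∈ insert j s, ((w i • e i : O.alg) : M → K)
          = ∑ i ∈ insert j s, (d i / d m) • ((e i : O.alg) : M → K) :=
            Finset.sum_congr rfl fun i hi => by
              ext x
              simp only [w, dif_pos hi, SetLike.val_smul, Pi.smul_apply]
              rfl
        _ = (d m)⁻¹ • ∑ i ∈ insert j s, d i • ((e i : O.alg) : M → K) := by
            rw [Finset.smul_sum]
            exact Finset.sum_congr rfl fun i _ => by rw [smul_smul, div_eq_inv_mul]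
        _ = 0 := by rw [hdsum, smul_zero]
    have h1 := congrArg Subtype.val (linearIndependent_iff'.1 he _ w hwsum m hm)
    simp only [w, dif_pos hm, div_self hm0] at h1
    exact one_ne_zero h1

/-- the `K`-span of the functions contains every function -/
theorem single_mem_span [Finite M] (x : M) :
    haveI := Classical.decEq M
    (Pi.single x (1 : K) : M → K) ∈ Submodule.span K (O.alg : Set (M → K)) := by
  classical
  haveI := Fintype.ofFinite M
  set S := Submodule.span K (O.alg : Set (M → K))
  have hmul : ∀ f ∈ S, ∀ f' ∈ S, f * f' ∈ S := by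
    intro f hf f' hf'
    have h := Submodule.mul_mem_mul hf hf'
    rw [Submodule.span_mul_span] at h
    refine Submodule.span_mono ?_ h
    rintro _ ⟨u, hu, v, hv, rfl⟩
    exact mul_mem (show u ∈ O.alg from hu) (show v ∈ O.alg from hv)
  have hone : (1 : M → K) ∈ S := Submodule.subset_span (one_mem O.alg)
  have hfac : ∀ y, y ≠ x → ∃ f ∈ S, f x = 1 ∧ f y = 0 := by
    intro y hy
    by_contra hcon
    push Not at hcon
    refine hy (O.separates y x fun h hh => ?_)
    by_contra hne
    refine hcon ((h x - h y)⁻¹ • (h - h y • (1 : M → K))) (Submodule.smul_mem _ _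
      (Submodule.sub_mem _ (Submodule.subset_span hh) (Submodule.smul_mem _ _ hone))) ?_ ?_
    · simp [inv_mul_cancel₀ (sub_ne_zero.2 (Ne.symm hne))]
    · simp
  choose f hf hfx hfy using hfac
  have hprod : ∀ s : Finset M, x ∉ s → ∃ u ∈ S, u x = 1 ∧ ∀ y ∈ s, u y = 0 := by
    intro s
    induction s using Finset.induction_on with
    | empty => exact fun _ => ⟨1, hone, rfl, by simp⟩
    | @insert y s hys ih =>
      intro hxs
      simp only [Finset.mem_insert, not_or] at hxs
      obtain ⟨u, hu, hux, hus⟩ := ih hxs.2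
      refine ⟨f y (Ne.symm hxs.1) * u, hmul _ (hf _ _) _ hu, ?_, fun z hz => ?_⟩
      · simp [hfx, hux]
      · rcases Finset.mem_insert.1 hz with rfl | hz
        · simp [hfy]
        · simp [hus z hz]
  obtain ⟨u, hu, hux, hus⟩ := hprod (Finset.univ.erase x) (Finset.notMem_erase _ _)
  convert hu using 1
  ext y
  by_cases hy : y = x
  · subst hy; simp [hux]
  · rw [Pi.single_eq_of_ne hy, hus y (Finset.mem_erase.2 ⟨hy, Finset.mem_univ _⟩)]

/-- The main lemma. -/
theorem hom_eq_zero (O : FunOrder A G M act) [Finite M] {p : ℕ} (hp : p.Prime) (hp3 : 3 ≤ p)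
    (hpK : (p : K) ≠ 0) (hpA : (p : K) ∈ A.nonunits)
    (hval : ∀ c : K, c ≠ 0 → (∀ g : G, g • c = c) → ∃ m : ℤ, A.valuation c =
      A.valuation (p : K) ^ m)
    (hsurj : ∀ g, Function.Surjective (act g))
    (φ : M →+ ZMod p) (hφ : ∀ g x, φ (act g x) = φ x) : φ = 0 := by
  classical
  haveI : Fact p.Prime := ⟨hp⟩
  haveI := Fintype.ofFinite M
  set v := A.valuation
  set π : K := (p : K) with hπ
  have hπfix : ∀ g : G, g • π = π := fun g => by
    rw [hπ]; exact map_natCast (MulSemiringAction.toRingHom G K g) p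
  have hπA : π ∈ A := natCast_mem A p
  haveI := O.finite
  haveI : Module.IsTorsionFree (fixedInt A G) O.alg := by
    refine ⟨fun r hr u w huw => ?_⟩
    have hr0 : (r : K) ≠ 0 := fun h => hr.ne_zero (Subtype.ext h)
    refine Subtype.ext (funext fun x => ?_)
    exact mul_left_cancel₀ hr0 (congrFun (congrArg Subtype.val huw) x)
  haveI : Module.Flat (fixedInt A G) O.alg :=
    Module.Flat.flat_iff_torsion_eq_bot_of_isBezout.2
      (Submodule.isTorsionFree_iff_torsion_eq_bot.1 inferInstance)
  haveI : Module.Free (fixedInt A G) O.alg := Module.free_of_flat_of_isLocalRing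
  let e := Module.Free.chooseBasis (fixedInt A G) O.alg
  have hind := O.eq_zero_of_sum_smul_eq_zero hsurj e e.linearIndependent
  -- functions factoring through `φ`
  let InP : (M → K) → Prop := fun h => h ∈ O.alg ∧ ∀ x y, φ x = φ y → h x = h y
  have hPfix : ∀ h, InP h → ∀ (g : G) (x : M), g • h x = h x := fun h hh g x => by
    rw [← O.equivariant h hh.1]
    exact hh.2 _ _ (hφ g x)
  -- one difference
  have hdelta : ∀ (R : ℕ), (∀ h, InP h → ∀ x, (h x - h 0) / π ^ R ∈ A) →
      ∀ (y : M) (h : M → K), InP h → ∃ h₁, InP h₁ ∧ Δ_[y] h = π ^ R • h₁ := by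
    intro R hR y h hh
    obtain ⟨r, a, b, ha, hb, hab⟩ := O.translate h hh.1
    let c : Module.Free.ChooseBasisIndex (fixedInt A G) O.alg → M → K := fun i =>
      ∑ l, ((e.repr ⟨a l, ha l⟩ i : fixedInt A G) : K) • b l
    have hc : ∀ i, c i ∈ O.alg := fun i => sum_mem fun l _ =>
      O.alg.smul_mem (hb l) _
    have hexp : ∀ y, (fun x => h (x + y)) = ∑ i, c i y • ((e i : O.alg) : M → K) := by
      intro y
      ext x
      have hal : ∀ l, a l x = ∑ i, ((e.repr ⟨a l, ha l⟩ i : fixedInt A G) : K) *
          ((e i : O.alg) : M → K) x := fun l => by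
        have := congrArg (fun u : O.alg => (u : M → K) x) (e.sum_repr ⟨a l, ha l⟩)
        simp only [AddSubmonoidClass.coe_finsetSum, SetLike.val_smul, Finset.sum_apply,
          Pi.smul_apply, Subring.smul_def, smul_eq_mul] at this
        exact this.symm
      simp only [hab, hal, Finset.sum_mul, Finset.sum_apply, Pi.smul_apply, smul_eq_mul, c]
      rw [Finset.sum_comm]
      exact Finset.sum_congr rfl fun i _ => Finset.sum_congr rfl fun l _ => by ring
    have hcφ : ∀ i, InP (c i) := by
      refine fun i => ⟨hc i, fun y₁ y₂ hy => ?_⟩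
      have e0 : (fun x => h (x + y₁)) = fun x => h (x + y₂) :=
        funext fun x => hh.2 _ _ (by rw [map_add, map_add, hy])
      rw [hexp, hexp, ← sub_eq_zero, ← Finset.sum_sub_distrib] at e0
      simp only [← sub_smul] at e0
      exact sub_eq_zero.1 (linearIndependent_iff'.1 hind _ _ e0 i (Finset.mem_univ i))
    let w : Module.Free.ChooseBasisIndex (fixedInt A G) O.alg → fixedInt A G := fun i =>
      ⟨(c i y - c i 0) / π ^ R, hR _ (hcφ i) y, fun g => by
        rw [smul_div₀', smul_sub, hPfix _ (hcφ i), hPfix _ (hcφ i), smul_pow', hπfix]⟩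
    refine ⟨((∑ i, w i • e i : O.alg) : M → K), ⟨Subtype.coe_prop _, ?_⟩, ?_⟩
    all_goals
      have hdiff : Δ_[y] h = π ^ R • ((∑ i, w i • e i : O.alg) : M → K) := by
        ext x
        have h0 := congrFun (hexp 0) x
        rw [add_zero] at h0
        simp only [fwdDiff, congrFun (hexp y) x, h0, Finset.sum_apply, Pi.smul_apply,
          smul_eq_mul, AddSubmonoidClass.coe_finsetSum, Finset.mul_sum,
          ← Finset.sum_sub_distrib, SetLike.val_smul, Subring.smul_def, w]
        refine Finset.sum_congr rfl fun i _ => ?_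
        rw [← mul_assoc, mul_div_cancel₀ _ (pow_ne_zero R hpK), sub_mul]
    · intro x₁ x₂ hx
      refine mul_left_cancel₀ (pow_ne_zero R hpK) ?_
      have e1 := congrFun hdiff x₁
      have e2 := congrFun hdiff x₂
      simp only [Pi.smul_apply, smul_eq_mul] at e1 e2
      rw [← e1, ← e2, fwdDiff, fwdDiff, hh.2 x₁ x₂ hx,
        hh.2 (x₁ + y) (x₂ + y) (by rw [map_add, map_add, hx])]
    · exact hdiff
  -- iterated differences
  have hiter : ∀ (R : ℕ), (∀ h, InP h → ∀ x, (h x - h 0) / π ^ R ∈ A) →
      ∀ (y : M) (k : ℕ) (h : M → K), InP h →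
        ∃ h₁, InP h₁ ∧ (Δ_[y]^[k]) h = π ^ (k * R) • h₁ := by
    intro R hR y k
    induction k with
    | zero => exact fun h hh => ⟨h, hh, by simp⟩
    | succ k ih =>
      intro h hh
      obtain ⟨h₁, hh₁, e₁⟩ := ih h hh
      obtain ⟨h₂, hh₂, e₂⟩ := hdelta R hR y h₁ hh₁
      refine ⟨h₂, hh₂, ?_⟩
      rw [Function.iterate_succ_apply', e₁, fwdDiff_const_smul, e₂, smul_smul, ← pow_add]
      ring_nf
  -- congruences improve indefinitely
  have hcongr : ∀ R : ℕ, ∀ h, InP h → ∀ x, (h x - h 0) / π ^ (R + 1) ∈ A := by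
    intro R
    induction R with
    | zero =>
      intro h hh x
      by_cases h0 : h x - h 0 = 0
      · rw [h0, zero_div]; exact zero_mem A
      obtain ⟨m, hm⟩ := hval _ h0 fun g => by rw [smul_sub, hPfix h hh, hPfix h hh]
      have hlt : v (h x - h 0) < 1 :=
        (ValuationSubring.mem_nonunits_iff A).1 (O.congruent h hh.1 x)
      have hπlt : v π < 1 := (ValuationSubring.mem_nonunits_iff A).1 hpA
      have hπ0 : v π ≠ 0 := (map_ne_zero v).2 hpK
      rw [← A.valuation_le_one_iff, map_div₀, pow_one, div_le_one₀ (zero_lt_iff.2 hπ0)]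
      rw [hm] at hlt ⊢
      obtain ⟨n, rfl⟩ | hneg := (Int.lt_or_le 0 m).imp (fun h => Int.eq_ofNat_of_zero_le h.le) id
      · rcases n with _ | n
        · simp at hlt
        · rw [zpow_natCast, pow_succ]
          exact mul_le_of_le_one_left zero_le (pow_le_one₀ zero_le hπlt.le)
      · exfalso
        obtain ⟨n, rfl⟩ : ∃ n : ℕ, m = -(n : ℤ) := ⟨(-m).toNat, by omega⟩
        rw [zpow_neg, zpow_natCast, inv_lt_one₀ (zero_lt_iff.2 (pow_ne_zero n hπ0))] at hlt
        exact absurd hlt (not_lt.2 (pow_le_one₀ zero_le hπlt.le))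
    | succ R ih =>
      intro h hh y
      have hy : φ (p • y) = φ 0 := by simp
      have hsum := shift_eq_sum_fwdDiff_iter y h p 0
      rw [zero_add, hh.2 _ _ hy] at hsum
      obtain ⟨q, hq⟩ : ∃ q, p = q + 2 := ⟨p - 2, by omega⟩
      rw [Finset.sum_range_succ', Nat.choose_zero_right, one_smul, Function.iterate_zero_apply,
        right_eq_add, hq, Finset.sum_range_succ'] at hsum
      rw [← hq] at hsum
      simp only [zero_add, Nat.choose_one_right, Function.iterate_one, nsmul_eq_mul] at hsum
      have hrest : ∀ i < q + 1,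
          ((p.choose (i + 2) : ℕ) : K) * (Δ_[y]^[i + 2]) h 0 / π ^ (R + 3) ∈ A := by
        intro i hi
        obtain ⟨h₁, hh₁, e₁⟩ := hiter (R + 1) ih y (i + 1) h hh
        obtain ⟨h₂, hh₂, e₂⟩ := hdelta (R + 1) ih y h₁ hh₁
        rw [Function.iterate_succ_apply', e₁, fwdDiff_const_smul, e₂]
        simp only [Pi.smul_apply, smul_eq_mul]
        have h2A : h₂ 0 ∈ A := O.integral _ hh₂.1 0
        rcases Nat.lt_or_ge (i + 2) p with hlt | hge
        · obtain ⟨d, hd⟩ := hp.dvd_choose_self (by omega : i + 2 ≠ 0) hlt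
          rw [hd, Nat.cast_mul, ← hπ]
          obtain ⟨t, ht⟩ : ∃ t, 1 + (i + 1) * (R + 1) + (R + 1) = (R + 3) + t :=
            Nat.exists_eq_add_of_le (by nlinarith)
          have : π * (d : K) * (π ^ ((i + 1) * (R + 1)) * (π ^ (R + 1) * h₂ 0)) / π ^ (R + 3) =
              (d : K) * π ^ t * h₂ 0 := by
            rw [div_eq_iff (pow_ne_zero _ hpK)]
            have e3 : π ^ (R + 3) * π ^ t = π * π ^ ((i + 1) * (R + 1)) * π ^ (R + 1) := by
              rw [← pow_add, ← ht, pow_add, pow_add, pow_one]
            linear_combination (-(d : K) * h₂ 0) * e3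
          rw [this]
          exact mul_mem (mul_mem (natCast_mem A d) (pow_mem hπA t)) h2A
        · obtain ⟨t, ht⟩ : ∃ t, (i + 1) * (R + 1) + (R + 1) = (R + 3) + t :=
            Nat.exists_eq_add_of_le (by
              have : 2 ≤ i + 1 := by omega
              nlinarith)
          have : ((p.choose (i + 2) : ℕ) : K) * (π ^ ((i + 1) * (R + 1)) *
              (π ^ (R + 1) * h₂ 0)) / π ^ (R + 3) =
              (p.choose (i + 2) : K) * π ^ t * h₂ 0 := by
            rw [div_eq_iff (pow_ne_zero _ hpK)]
            have e3 : π ^ (R + 3) * π ^ t = π ^ ((i + 1) * (R + 1)) * π ^ (R + 1) := by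
              rw [← pow_add, ← ht, pow_add]
            linear_combination (-(p.choose (i + 2) : K) * h₂ 0) * e3
          rw [this]
          exact mul_mem (mul_mem (natCast_mem A _) (pow_mem hπA t)) h2A
      have hfin : (h y - h 0) / π ^ (R + 1 + 1) =
          -∑ i ∈ Finset.range (q + 1),
            ((p.choose (i + 2) : ℕ) : K) * (Δ_[y]^[i + 2]) h 0 / π ^ (R + 3) := by
        have e1 : Δ_[y] h 0 = h y - h 0 := by rw [fwdDiff, zero_add]
        rw [← Finset.sum_div _ _ _, ← e1, div_eq_iff (pow_ne_zero _ hpK)]
        field_simp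
        rw [← hπ] at hsum
        linear_combination (π ^ (R + 1 + 1)) * hsum
      rw [hfin]
      exact neg_mem (sum_mem fun i hi => hrest i (Finset.mem_range.1 hi))
  -- hence functions factoring through `φ` are constant
  have hconst : ∀ h, InP h → ∀ x, h x = h 0 := by
    intro h hh x
    by_contra hne
    obtain ⟨m, hm⟩ := hval _ (sub_ne_zero.2 hne) fun g => by
      rw [smul_sub, hPfix h hh, hPfix h hh]
    have hπlt : v π < 1 := (ValuationSubring.mem_nonunits_iff A).1 hpA
    have hπ0 : v π ≠ 0 := (map_ne_zero v).2 hpK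
    have := hcongr m.natAbs h hh x
    rw [← A.valuation_le_one_iff, map_div₀, map_pow,
      div_le_one₀ (zero_lt_iff.2 (pow_ne_zero _ hπ0)), hm, ← zpow_natCast] at this
    refine absurd this (not_le.2 ?_)
    exact zpow_lt_zpow_right_of_lt_one₀ (zero_lt_iff.2 hπ0) hπlt (by omega)
  -- but the indicator of the kernel of `φ` is, up to a scalar, such a function
  ext x₀
  by_contra hx₀
  let ind : M → K := fun x => if φ x = 0 then 1 else 0
  have hindS : ind ∈ Submodule.span K (Set.range fun i => ((e i : O.alg) : M → K)) := by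
    have h1 : ind = ∑ x : M, (ind x) • (Pi.single x (1 : K) : M → K) := by
      ext y; simp [Finset.sum_apply, Pi.single_apply]
    have h2 : Submodule.span K (O.alg : Set (M → K)) ≤
        Submodule.span K (Set.range fun i => ((e i : O.alg) : M → K)) := by
      refine Submodule.span_le.2 fun h hh => ?_
      have := congrArg Subtype.val (e.sum_repr ⟨h, hh⟩)
      rw [AddSubmonoidClass.coe_finsetSum] at this
      rw [SetLike.mem_coe, show h = _ from this.symm]
      refine Submodule.sum_mem _ fun i _ => ?_
      rw [SetLike.val_smul, show (e.repr ⟨h, hh⟩ i • ((e i : O.alg) : M → K)) =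
        ((e.repr ⟨h, hh⟩ i : fixedInt A G) : K) • ((e i : O.alg) : M → K) from rfl]
      exact Submodule.smul_mem _ _ (Submodule.subset_span ⟨i, rfl⟩)
    rw [h1]
    exact h2 (Submodule.sum_mem _ fun x _ => Submodule.smul_mem _ _ (O.single_mem_span x))
  obtain ⟨d, hd⟩ := (Submodule.mem_span_range_iff_exists_fun K).1 hindS
  have hdfix : ∀ (g : G) i, g • d i = d i := by
    intro g
    have h2 : ∑ i, (g • d i - d i) • ((e i : O.alg) : M → K) = 0 := by
      simp only [sub_smul, Finset.sum_sub_distrib, hd, sub_eq_zero]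
      ext x
      obtain ⟨x, rfl⟩ := hsurj g x
      have h := congrArg (g • ·) (congrFun hd x)
      simp only [Finset.sum_apply, Pi.smul_apply, smul_eq_mul, Finset.smul_sum, smul_mul'] at h
      simp only [Finset.sum_apply, Pi.smul_apply, smul_eq_mul]
      refine (Finset.sum_congr rfl fun i _ => ?_).trans (h.trans ?_)
      · rw [O.equivariant _ (e i).2]
      · simp only [ind, hφ]
        split_ifs <;> simp
    exact fun i => sub_eq_zero.1 (linearIndependent_iff'.1 hind _ _ h2 i (Finset.mem_univ i))
  obtain ⟨D, hD0, hDfix, hD⟩ : ∃ D : K, D ≠ 0 ∧ (∀ g : G, g • D = D) ∧ ∀ i, D * d i ∈ A := by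
    by_cases hne : ∀ i, d i = 0
    · exact ⟨1, one_ne_zero, fun g => smul_one g, fun i => by rw [hne, mul_zero]; exact zero_mem A⟩
    push Not at hne
    obtain ⟨i₁, hi₁⟩ := hne
    obtain ⟨m, -, hmax⟩ := Finset.exists_max_image Finset.univ (fun i => v (d i))
      ⟨i₁, Finset.mem_univ i₁⟩
    have hm0 : d m ≠ 0 := fun h0 => hi₁ ((map_eq_zero v).1 (le_zero_iff.1
      (by simpa [h0] using hmax i₁ (Finset.mem_univ _))))
    refine ⟨(d m)⁻¹, inv_ne_zero hm0, fun g => by rw [smul_inv'', hdfix g m], fun i => ?_⟩
    rw [← A.valuation_le_one_iff, map_mul, map_inv₀, ← div_eq_inv_mul]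
    exact div_le_one_of_le₀ (hmax i (Finset.mem_univ _)) zero_le
  let w : Module.Free.ChooseBasisIndex (fixedInt A G) O.alg → fixedInt A G := fun i =>
    ⟨D * d i, hD i, fun g => by rw [smul_mul', hDfix, hdfix]⟩
  have hval' : ((∑ i, w i • e i : O.alg) : M → K) = D • ind := by
    rw [AddSubmonoidClass.coe_finsetSum, ← hd, Finset.smul_sum]
    refine Finset.sum_congr rfl fun i _ => ?_
    rw [SetLike.val_smul, smul_smul]
    rfl
  have hinP : InP (D • ind) := ⟨hval' ▸ Subtype.coe_prop _, fun x y hxy => by simp [ind, hxy]⟩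
  have := hconst _ hinP x₀
  rw [AddMonoidHom.zero_apply] at hx₀
  simp only [Pi.smul_apply, ind, smul_eq_mul, map_zero, if_true, mul_one,
    if_neg hx₀, mul_zero] at this
  exact hD0 this.symm

/-- A subgroup carrying such an order has no trivial constituent. -/
theorem noTriv [Finite M] {p : ℕ} (hp : p.Prime) (hp3 : 3 ≤ p)
    (hpK : (p : K) ≠ 0) (hpA : (p : K) ∈ A.nonunits)
    (hval : ∀ c : K, c ≠ 0 → (∀ g : G, g • c = c) → ∃ m : ℤ, A.valuation c =
      A.valuation (p : K) ^ m)
    (hinj : ∀ g, Function.Injective (act g)) (O : FunOrder A G M act) :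
    NoTriv p act (⊤ : AddSubgroup M) := by
  intro B _ hB φ hφ
  let act' : G → B →+ B := fun g => ((act g).comp B.subtype).codRestrict B fun x => hB g x x.2
  refine (O.restrict B act' fun g x => rfl).hom_eq_zero hp hp3 hpK hpA hval (fun g => ?_) φ hφ
  exact Finite.surjective_of_injective fun x y h =>
    Subtype.ext (hinj g (congrArg Subtype.val h))

end FunOrder

end Fermat.Agent.OrdinaryDatum
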