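/-
Criterion for ordinarity: a representation whose residual representation is ordinary, with
`det` non-trivial on inertia residually, is ordinary as soon as on each finite level inertia acts
trivially modulo a stable subgroup without trivial constituent.
-/
import Fermat.Agent.OrdinaryDatum.NoTrivial
import Fermat.Prelude.Def_GaloisRep_Flat
import Mathlib.RingTheory.Henselian
import Mathlib.RingTheory.Filtration
import Mathlib.LinearAlgebra.Matrix.ToLinearEquiv
import Mathlib.LinearAlgebra.Matrix.Charpoly.Coeff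

set_option autoImplicit false

noncomputable section

namespace Fermat.Agent.OrdinaryDatum

open IsLocalRing Polynomial
open scoped TensorProduct

local notation "ℚbar" => AlgebraicClosure ℚ
local notation "Γℚ" => AlgebraicClosure ℚ ≃ₐ[ℚ] AlgebraicClosure ℚ

variable {T : Type} [CommRing T] [IsLocalRing T]

/-- Inertia is trivial modulo a stable subgroup without trivial constituent, on level `J`. -/
def HasKernelAt (ρ : GaloisRepAdic T) (p : ℕ) (P : ValuationSubring ℚbar) (J : Ideal T) : Prop :=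
  ∃ C : AddSubgroup (ρ.V ⧸ (J • (⊤ : Submodule T ρ.V))),
    (∀ σ ∈ P.inertiaSubgroupIn ℚ, ∀ x ∈ C, ρ.levelAction J σ x ∈ C) ∧
    (∀ σ ∈ P.inertiaSubgroupIn ℚ, ∀ x, ρ.levelAction J σ x - x ∈ C) ∧
    NoTriv p (fun σ : P.inertiaSubgroupIn ℚ => (ρ.levelAction J σ).toAddMonoidHom) C

theorem repr_mem_of_mem_smul_top {V : Type} [AddCommGroup V] [Module T V] {ι : Type}
    (b : Module.Basis ι T V) (J : Ideal T) {v : V} (hv : v ∈ J • (⊤ : Submodule T V)) (i : ι) :
    b.repr v i ∈ J := by
  refine Submodule.smul_induction_on (p := fun v => b.repr v i ∈ J) hv (fun r hr w _ => ?_)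
    fun v w hv hw => ?_
  · rw [map_smul, Finsupp.smul_apply, smul_eq_mul]
    exact Ideal.mul_mem_right _ _ hr
  · rw [map_add, Finsupp.add_apply]
    exact add_mem hv hw

theorem sum_fin_two_smul {V : Type} [AddCommGroup V] [Module T V]
    (b : Module.Basis (Fin 2) T V) (w : V) :
    w = b.repr w 0 • b 0 + b.repr w 1 • b 1 := by
  conv_lhs => rw [← b.sum_repr w]
  rw [Fin.sum_univ_two]

/-- A basis of `V` lifting a given residual basis. -/
theorem exists_basis_lift {V : Type} [AddCommGroup V] [Module T V] [Module.Free T V]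
    [Module.Finite T V] (hV : Module.finrank T V = 2)
    (bb : Module.Basis (Fin 2) (ResidueField T) (ResidueField T ⊗[T] V)) :
    ∃ b : Module.Basis (Fin 2) T V, ∀ i, (1 : ResidueField T) ⊗ₜ[T] b i = bb i := by
  classical
  let c := Module.finBasisOfFinrankEq T V hV
  have hsurj : ∀ x : ResidueField T ⊗[T] V, ∃ v : V, (1 : ResidueField T) ⊗ₜ[T] v = x := by
    intro x
    induction x using TensorProduct.induction_on with
    | zero => exact ⟨0, TensorProduct.tmul_zero _ _⟩
    | tmul r v =>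
      obtain ⟨t, rfl⟩ := residue_surjective r
      refine ⟨t • v, ?_⟩
      rw [TensorProduct.tmul_smul, TensorProduct.smul_tmul', Algebra.smul_def, mul_one]
      rfl
    | add x y hx hy =>
      obtain ⟨v, rfl⟩ := hx
      obtain ⟨w, rfl⟩ := hy
      exact ⟨v + w, TensorProduct.tmul_add _ _ _⟩
  choose w hw using fun i => hsurj (bb i)
  let cb := c.baseChange (ResidueField T)
  have hdet : IsUnit (c.toMatrix w).det := by
    rw [← residue_ne_zero_iff_isUnit, RingHom.map_det]
    have : (residue T).mapMatrix (c.toMatrix w) = cb.toMatrix bb := by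
      ext i j
      rw [RingHom.mapMatrix_apply, Matrix.map_apply, Module.Basis.toMatrix_apply,
        Module.Basis.toMatrix_apply, ← hw, Module.Basis.baseChange_repr_tmul, Algebra.smul_def,
        mul_one]
      rfl
    rw [this]
    exact (Matrix.isUnit_det_of_left_inverse (bb.toMatrix_mul_toMatrix_flip cb)).ne_zero
  have hu : IsUnit (c.det w) := by rwa [Module.Basis.det_apply]
  obtain ⟨hli, hsp⟩ := (Module.Basis.is_basis_iff_det c).2 hu
  exact ⟨Module.Basis.mk hli hsp.ge, fun i => by rw [Module.Basis.mk_apply, hw]⟩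

/-- A residual ordinary structure gives matrix coefficients in a lifted basis. -/
theorem exists_basis_ordinary (ρ : GaloisRepAdic T) {p : ℕ}
    (hres : (GaloisRepAdic.ofResidualGaloisRep ρ.residual).IsOrdinaryAt p)
    {P : ValuationSubring ℚbar} (hP : P.LiesOverPrime p) :
    ∃ b : Module.Basis (Fin 2) T ρ.V,
      (∀ σ ∈ P.decompositionSubgroup ℚ, b.repr (ρ.ρ σ (b 0)) 1 ∈ maximalIdeal T) ∧
      ∀ σ ∈ P.inertiaSubgroupIn ℚ, b.repr (ρ.ρ σ (b 1)) 1 - 1 ∈ maximalIdeal T := by
  obtain ⟨L, ⟨bb', hL⟩, hD, hI⟩ := hres P hP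
  let bb : Module.Basis (Fin 2) (ResidueField T) (ResidueField T ⊗[T] ρ.V) := bb'
  obtain ⟨b, hb⟩ := exists_basis_lift ρ.finrank_eq bb
  have hres' : ∀ (v : ρ.V) (i : Fin 2),
      bb.repr ((1 : ResidueField T) ⊗ₜ[T] v) i = residue T (b.repr v i) := by
    intro v i
    have hbb : b.baseChange (ResidueField T) = bb :=
      Module.Basis.eq_of_apply_eq fun j => (b.baseChange_apply _ j).trans (hb j)
    rw [← hbb, Module.Basis.baseChange_repr_tmul, Algebra.smul_def, mul_one]
    rfl
  have hact : ∀ (σ : Γℚ) (v : ρ.V), (GaloisRepAdic.ofResidualGaloisRep ρ.residual).ρ σ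
      ((1 : ResidueField T) ⊗ₜ[T] v) = (1 : ResidueField T) ⊗ₜ[T] (ρ.ρ σ v) :=
    fun σ v => LinearMap.baseChange_tmul _ _ _
  have hline : ∀ x ∈ L, bb.repr x 1 = 0 := by
    intro x hx
    rw [hL] at hx
    obtain ⟨t, rfl⟩ := Submodule.mem_span_singleton.1 hx
    show bb.repr (t • bb 0) 1 = 0
    simp
  refine ⟨b, fun σ hσ => ?_, fun σ hσ => ?_⟩
  · have hmem : (1 : ResidueField T) ⊗ₜ[T] b 0 ∈ L := by
      rw [hL, hb]
      exact Submodule.subset_span rfl
    have h := hline _ ((hact σ (b 0)) ▸ hD σ hσ _ hmem)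
    rw [hres'] at h
    exact (residue_eq_zero_iff _).1 h
  · have h := hI σ hσ ((1 : ResidueField T) ⊗ₜ[T] b 1)
    rw [hact] at h
    have h' := hline _ h
    have e : (1 : ResidueField T) ⊗ₜ[T] ρ.ρ σ (b 1) - (1 : ResidueField T) ⊗ₜ[T] b 1 =
        (1 : ResidueField T) ⊗ₜ[T] (ρ.ρ σ (b 1) - b 1) := (TensorProduct.tmul_sub _ _ _).symm
    have h'' : bb.repr ((1 : ResidueField T) ⊗ₜ[T] (ρ.ρ σ (b 1) - b 1)) 1 = 0 := e ▸ h'
    rw [hres', residue_eq_zero_iff, map_sub, Finsupp.sub_apply, b.repr_self,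
      Finsupp.single_eq_same] at h''
    exact h''

/-- An operator with upper triangular coordinates. -/
theorem det_eq_of_triangular {V : Type} [AddCommGroup V] [Module T V]
    (v : Module.Basis (Fin 2) T V) (f : Module.End T V) :
    LinearMap.det f = v.repr (f (v 0)) 0 * v.repr (f (v 1)) 1
        - v.repr (f (v 1)) 0 * v.repr (f (v 0)) 1 := by
  rw [← LinearMap.det_toMatrix v, Matrix.det_fin_two, LinearMap.toMatrix_apply,
    LinearMap.toMatrix_apply, LinearMap.toMatrix_apply, LinearMap.toMatrix_apply]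

/-- An automorphism normalising a group of triangular operators is triangular. -/
theorem coord_eq_zero_of_conj {V : Type} [AddCommGroup V] [Module T V] {G : Type*} [Group G]
    (v : Module.Basis (Fin 2) T V) (r : G →* Module.End T V) (I : Subgroup G)
    (hI : ∀ g ∈ I, v.repr (r g (v 0)) 1 = 0 ∧ v.repr (r g (v 1)) 1 = 1)
    {s g : G} (hs : s ∈ I) (hg : g⁻¹ * s * g ∈ I) {a : T} (hav : r s (v 0) = a • v 0)
    {d : T} (hdv : r s (v 1) = d • v 1) (ha : IsUnit (a - 1)) :
    v.repr (r g (v 0)) 1 = 0 := by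
  have hd : d = 1 := by
    have h := (hI s hs).2
    rw [hdv, map_smul, v.repr_self, Finsupp.smul_apply, Finsupp.single_eq_same, smul_eq_mul,
      mul_one] at h
    exact h
  have hdets : LinearMap.det (r s) = a := by
    rw [det_eq_of_triangular v, (hI s hs).1, (hI s hs).2, hav, map_smul, v.repr_self,
      Finsupp.smul_apply, Finsupp.single_eq_same, smul_eq_mul]
    ring
  have hdetc : LinearMap.det (r (g⁻¹ * s * g)) = a := by
    have h1 : LinearMap.det (r g⁻¹) * LinearMap.det (r g) = 1 := by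
      rw [← map_mul, ← map_mul, inv_mul_cancel, map_one, map_one]
    rw [map_mul, map_mul, map_mul, map_mul, hdets]
    linear_combination a * h1
  have hline : r (g⁻¹ * s * g) (v 0) = a • v 0 := by
    have h2 := det_eq_of_triangular v (r (g⁻¹ * s * g))
    rw [(hI _ hg).1, (hI _ hg).2, hdetc, mul_one, mul_zero, sub_zero] at h2
    conv_lhs => rw [sum_fin_two_smul v (r (g⁻¹ * s * g) (v 0))]
    rw [(hI _ hg).1, zero_smul, add_zero, ← h2]
  have e1 : r s (r g (v 0)) = a • r g (v 0) := by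
    have h := congrArg (r g) hline
    rwa [map_smul, ← Module.End.mul_apply, ← map_mul, ← mul_assoc, ← mul_assoc, mul_inv_cancel,
      one_mul, map_mul, Module.End.mul_apply] at h
  rw [sum_fin_two_smul v (r g (v 0))] at e1
  have h := congrArg (fun u => v.repr u 1) e1
  simp only [map_add, map_smul, hav, hdv, hd, one_smul, Finsupp.add_apply, Finsupp.smul_apply,
    v.repr_self, Finsupp.single_apply, smul_eq_mul, Fin.isValue, Fin.reduceEq, if_false,
    if_true, mul_zero, mul_one, zero_add] at h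
  obtain ⟨ua, hua⟩ := ha.exists_right_inv
  linear_combination (-ua) * h - v.repr (r g (v 0)) 1 * hua

/-- The inertia group is normalised by the decomposition group. -/
theorem conj_mem_inertia {P : ValuationSubring ℚbar} {σ s : Γℚ}
    (hσ : σ ∈ P.decompositionSubgroup ℚ) (hs : s ∈ P.inertiaSubgroupIn ℚ) :
    σ⁻¹ * s * σ ∈ P.inertiaSubgroupIn ℚ := by
  rw [ValuationSubring.inertiaSubgroupIn, Subgroup.mem_map] at hs ⊢
  obtain ⟨g, hg, hgs⟩ := hs
  let d : P.decompositionSubgroup ℚ := ⟨σ, hσ⟩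
  haveI : (P.inertiaSubgroup ℚ).Normal := MonoidHom.normal_ker _
  refine ⟨d⁻¹ * g * d, Subgroup.Normal.conj_mem' inferInstance g hg d, ?_⟩
  rw [map_mul, map_mul, map_inv, hgs, Subgroup.coe_subtype]

variable [IsNoetherianRing T] [IsAdicComplete (maximalIdeal T) T]

/-- An eigenbasis for an operator with distinct residual eigenvalues. -/
theorem exists_eigenbasis {V : Type} [AddCommGroup V] [Module T V]
    (b : Module.Basis (Fin 2) T V) (S : Module.End T V)
    (h10 : b.repr (S (b 0)) 1 ∈ maximalIdeal T)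
    (hne : IsUnit (b.repr (S (b 0)) 0 - b.repr (S (b 1)) 1)) :
    ∃ (v : Module.Basis (Fin 2) T V) (a d x y : T),
      S (v 0) = a • v 0 ∧ S (v 1) = d • v 1 ∧ x ∈ maximalIdeal T ∧
      v 0 = b 0 + x • b 1 ∧ v 1 = y • b 0 + b 1 ∧
      a - b.repr (S (b 0)) 0 ∈ maximalIdeal T ∧ d - b.repr (S (b 1)) 1 ∈ maximalIdeal T := by
  classical
  set α := b.repr (S (b 0)) 0 with hα
  set γ := b.repr (S (b 0)) 1 with hγ
  set β := b.repr (S (b 1)) 0 with hβ
  set δ := b.repr (S (b 1)) 1 with hδ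
  let f : T[X] := X ^ 2 - C (α + δ) * X + C (α * δ - β * γ)
  have hf : f.Monic := by
    simp only [f]; monicity!
  obtain ⟨a, ha, haα⟩ := HenselianRing.is_henselian (I := maximalIdeal T) f hf α
    (by
      have : f.eval α = -β * γ := by simp [f]; ring
      rw [this]
      exact Ideal.mul_mem_left _ _ h10)
    (by
      have : f.derivative.eval α = α - δ := by
        simp [f, derivative_pow]; ring
      rw [this]
      exact hne.map _)
  have ha2 : (a - α) * (a - δ) = β * γ := by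
    have : f.eval a = 0 := ha
    simp [f] at this
    linear_combination this
  set d := α + δ - a with hd
  have hd2 : (d - δ) * (d - α) = β * γ := by rw [hd]; linear_combination ha2
  have hau : IsUnit (a - δ) := by
    rw [← residue_ne_zero_iff_isUnit] at hne ⊢
    rwa [show a - δ = (a - α) + (α - δ) by ring, map_add, (residue_eq_zero_iff _).2 haα, zero_add]
  have hdu : IsUnit (d - α) := by
    rw [show d - α = -(a - δ) by rw [hd]; ring]
    exact hau.neg
  obtain ⟨ua, hua⟩ := hau.exists_right_inv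
  obtain ⟨ud, hud⟩ := hdu.exists_right_inv
  let x := γ * ua
  let y := β * ud
  have hx : x ∈ maximalIdeal T := Ideal.mul_mem_right _ _ h10
  let w : Fin 2 → V := ![b 0 + x • b 1, y • b 0 + b 1]
  have hdet : IsUnit (b.det w) := by
    rw [Module.Basis.det_apply, Matrix.det_fin_two]
    simp only [Module.Basis.toMatrix_apply, w, Matrix.cons_val_zero, Matrix.cons_val_one, map_add,
      map_smul, b.repr_self, Finsupp.add_apply, Finsupp.smul_apply, Finsupp.single_apply,
      Fin.isValue]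
    simp only [Fin.reduceEq, if_false, if_true, smul_zero, add_zero, zero_add, smul_eq_mul,
      mul_one]
    rw [← residue_ne_zero_iff_isUnit, map_sub, map_mul, map_mul, (residue_eq_zero_iff _).2 hx]
    simp
  obtain ⟨hli, hsp⟩ := (Module.Basis.is_basis_iff_det b).2 hdet
  refine ⟨Module.Basis.mk hli hsp.ge, a, d, x, y, ?_, ?_, hx, by simp [w], by simp [w], haα,
    by rw [hd, show α + δ - a - δ = -(a - α) by ring]; exact neg_mem haα⟩
  · have e : S (b 0 + x • b 1) = a • (b 0 + x • b 1) := by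
      rw [map_add, map_smul, sum_fin_two_smul b (S (b 0)), sum_fin_two_smul b (S (b 1)), ← hα,
        ← hγ, ← hβ, ← hδ, smul_add a, smul_smul a]
      have e0 : α + x * β = a := by
        simp only [x]; linear_combination (a - α) * hua - ua * ha2
      have e1 : γ + x * δ = a * x := by
        simp only [x]; linear_combination (-γ) * hua
      rw [← e1]
      match_scalars
      · linear_combination e0
      · ring
    simpa [w] using e
  · have e : S (y • b 0 + b 1) = d • (y • b 0 + b 1) := by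
      rw [map_add, map_smul, sum_fin_two_smul b (S (b 0)), sum_fin_two_smul b (S (b 1)), ← hα,
        ← hγ, ← hβ, ← hδ, smul_add d, smul_smul d]
      have e0 : y * α + β = d * y := by
        simp only [y]; linear_combination (-β) * hud
      have e1 : y * γ + δ = d := by
        simp only [y]; linear_combination (d - δ) * hud - ud * hd2
      rw [← e0]
      match_scalars
      · ring
      · linear_combination e1
    simpa [w] using e

variable (p : ℕ) [hp : Fact p.Prime]

/-- The main step: on one level, the eigenline is stable under inertia with trivial quotient. -/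
theorem coord_mem_of_hasKernelAt (hpT : (p : T) ∈ maximalIdeal T) (ρ : GaloisRepAdic T)
    (P : ValuationSubring ℚbar) (v : Module.Basis (Fin 2) T ρ.V)
    (hres : ∀ σ ∈ P.inertiaSubgroupIn ℚ,
      v.repr (ρ.ρ σ (v 0)) 1 ∈ maximalIdeal T ∧ v.repr (ρ.ρ σ (v 1)) 1 - 1 ∈ maximalIdeal T)
    {σ₀ : Γℚ} (hσ₀ : σ₀ ∈ P.inertiaSubgroupIn ℚ) {a : T} (hav : ρ.ρ σ₀ (v 0) = a • v 0)
    (ha : IsUnit (a - 1)) (j : ℕ) (hker : HasKernelAt ρ p P (maximalIdeal T ^ j))
    {σ : Γℚ} (hσ : σ ∈ P.inertiaSubgroupIn ℚ) :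
    v.repr (ρ.ρ σ (v 0)) 1 ∈ maximalIdeal T ^ j ∧
      v.repr (ρ.ρ σ (v 1)) 1 - 1 ∈ maximalIdeal T ^ j := by
  set W : Submodule T ρ.V := maximalIdeal T ^ j • (⊤ : Submodule T ρ.V) with hW
  obtain ⟨C, hCst, hCtriv, hC⟩ := hker
  have hla : ∀ (τ : Γℚ) (w : ρ.V), ρ.levelAction (maximalIdeal T ^ j) τ (W.mkQ w) =
      W.mkQ (ρ.ρ τ w) := fun τ w => rfl
  -- the whole eigenline lies in `C`
  have hv0 : ∀ t : T, W.mkQ (t • v 0) ∈ C := by
    intro t
    obtain ⟨u, hu⟩ := ha.exists_right_inv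
    have h := hCtriv σ₀ hσ₀ (W.mkQ ((t * u) • v 0))
    rw [hla, ← map_sub, map_smul, hav, smul_smul, ← sub_smul] at h
    have e : t * u * a - t * u = t := by linear_combination t * hu
    rwa [e] at h
  -- first approximation: one more power of the maximal ideal
  have hstep : ∀ i < j, ∀ w ∈ (maximalIdeal T ^ i • ⊤ : Submodule T ρ.V), W.mkQ w ∈ C →
      v.repr w 1 ∈ maximalIdeal T ^ (i + 1) := by
    intro i hi w hw hwC
    by_contra hne
    let Mi : AddSubgroup (ρ.V ⧸ W) :=
      ((maximalIdeal T ^ i • ⊤ : Submodule T ρ.V).map W.mkQ).toAddSubgroup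
    let J' : Ideal T := maximalIdeal T ^ (i + 1)
    let c : (ρ.V ⧸ W) →ₗ[T] T ⧸ J' := W.liftQ (J'.mkQ.comp (v.coord 1)) (by
      intro u hu
      rw [LinearMap.mem_ker, LinearMap.comp_apply, Submodule.mkQ_apply,
        Submodule.Quotient.mk_eq_zero]
      exact Ideal.pow_le_pow_right (by omega) (repr_mem_of_mem_smul_top v _ hu 1))
    let B : AddSubgroup (ρ.V ⧸ W) := C ⊓ Mi
    have hB : ∀ τ : P.inertiaSubgroupIn ℚ, ∀ x ∈ B,
        (ρ.levelAction (maximalIdeal T ^ j) τ).toAddMonoidHom x ∈ B := by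
      rintro τ x ⟨hxC, u, hu, rfl⟩
      refine ⟨hCst τ τ.2 _ hxC, ρ.ρ τ u, ?_, rfl⟩
      refine Submodule.smul_induction_on (p := fun u => ρ.ρ τ u ∈
        (maximalIdeal T ^ i • ⊤ : Submodule T ρ.V)) hu (fun r hr z _ => ?_) fun u u' h h' => ?_
      · rw [map_smul]
        exact Submodule.smul_mem_smul hr trivial
      · rw [map_add]
        exact add_mem h h'
    let cB : B →+ T ⧸ J' := c.toAddMonoidHom.comp B.subtype
    have hkill : ∀ z : cB.range, p • z = 0 := by
      rintro ⟨_, ⟨x, hxC, u, hu, hux⟩, rfl⟩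
      refine Subtype.ext ?_
      show p • c x = 0
      rw [← hux, ← map_nsmul, ← map_nsmul]
      show J'.mkQ (v.coord 1 (p • u)) = 0
      rw [Submodule.mkQ_apply, Submodule.Quotient.mk_eq_zero, map_nsmul, nsmul_eq_mul]
      show _ ∈ maximalIdeal T ^ (i + 1)
      rw [pow_succ']
      exact Ideal.mul_mem_mul hpT (repr_mem_of_mem_smul_top v _ hu 1)
    let wB : B := ⟨W.mkQ w, hwC, w, hw, rfl⟩
    have hq : cB.rangeRestrict wB ≠ 0 := fun h => hne (by
      have := congrArg Subtype.val h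
      exact (Submodule.Quotient.mk_eq_zero J').1 this)
    obtain ⟨g, hg⟩ := exists_hom_zmod_ne_zero hkill hq
    refine hg (DFunLike.congr_fun (hC B inf_le_left hB (g.comp cB.rangeRestrict) ?_) wB)
    rintro τ ⟨x, hxC, u, hu, rfl⟩
    refine congrArg g (Subtype.ext ?_)
    show c (ρ.levelAction (maximalIdeal T ^ j) τ (W.mkQ u)) = c (W.mkQ u)
    rw [hla, ← sub_eq_zero, ← map_sub, ← map_sub]
    show J'.mkQ (v.coord 1 (ρ.ρ τ u - u)) = 0
    rw [Submodule.mkQ_apply, Submodule.Quotient.mk_eq_zero]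
    refine Submodule.smul_induction_on
      (p := fun u => v.coord 1 (ρ.ρ τ u - u) ∈ J') hu (fun r hr z _ => ?_) fun u u' h h' => ?_
    · rw [map_smul, ← smul_sub, map_smul, smul_eq_mul]
      show _ ∈ maximalIdeal T ^ (i + 1)
      rw [pow_succ]
      refine Ideal.mul_mem_mul hr ?_
      rw [sum_fin_two_smul v z, map_add, map_smul, map_smul, map_sub, map_add, map_add, map_smul,
        map_smul, map_smul, map_smul]
      simp only [Module.Basis.coord_apply, v.repr_self, smul_eq_mul]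
      have h1 := (hres τ τ.2).1
      have h2 := (hres τ τ.2).2
      simp only [Finsupp.single_apply, Fin.isValue, Fin.reduceEq, if_false, if_true, mul_zero,
        mul_one, zero_add]
      rw [show ∀ (s₀ s₁ p₀ p₁ : T), s₀ * p₀ + s₁ * p₁ - s₁ = s₀ * p₀ + s₁ * (p₁ - 1) from
        fun _ _ _ _ => by ring]
      exact add_mem (Ideal.mul_mem_left _ _ h1) (Ideal.mul_mem_left _ _ h2)
    · rw [map_add, add_sub_add_comm, map_add]
      exact add_mem h h'
  -- the coordinate along the second vector vanishes on `C`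
  have hmain : ∀ w, W.mkQ w ∈ C → ∀ i ≤ j, v.repr w 1 ∈ maximalIdeal T ^ i := by
    intro w hwC i
    induction i with
    | zero => intro _; rw [pow_zero, Ideal.one_eq_top]; trivial
    | succ i ih =>
      intro hij
      have hmem : v.repr w 1 • v 1 ∈ (maximalIdeal T ^ i • ⊤ : Submodule T ρ.V) :=
        Submodule.smul_mem_smul (ih (by omega)) trivial
      have h := hstep i (by omega) _ hmem (by
        rw [show v.repr w 1 • v 1 = w - v.repr w 0 • v 0 from
          eq_sub_of_add_eq' (sum_fin_two_smul v w).symm, map_sub]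
        exact sub_mem hwC (hv0 _))
      simpa using h
  refine ⟨hmain _ ?_ j le_rfl, ?_⟩
  · rw [← hla]
    exact hCst σ hσ _ (by simpa using hv0 1)
  · have h := hmain (ρ.ρ σ (v 1) - v 1) (by
      rw [map_sub, ← hla]
      exact hCtriv σ hσ _) j le_rfl
    simpa using h

/-- The criterion. -/
theorem isOrdinaryAt_of_hasKernelAt (hpT : (p : T) ∈ maximalIdeal T) (ρ : GaloisRepAdic T)
    (hres : (GaloisRepAdic.ofResidualGaloisRep ρ.residual).IsOrdinaryAt p)
    (hdet : ∀ P : ValuationSubring ℚbar, P.LiesOverPrime p →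
      ∃ σ ∈ P.inertiaSubgroupIn ℚ, IsUnit (LinearMap.det (ρ.ρ σ) - 1))
    (hker : ∀ P : ValuationSubring ℚbar, P.LiesOverPrime p → ∀ j : ℕ,
      HasKernelAt ρ p P (maximalIdeal T ^ j)) :
    ρ.IsOrdinaryAt p := by
  intro P hP
  obtain ⟨b, hbD, hbI⟩ := exists_basis_ordinary ρ hres hP
  obtain ⟨σ₀, hσ₀, hu⟩ := hdet P hP
  have hsub : ∀ σ ∈ P.inertiaSubgroupIn ℚ, σ ∈ P.decompositionSubgroup ℚ := by
    rintro σ ⟨g, _, rfl⟩
    exact g.2
  have hzero : ∀ t : T, (∀ n : ℕ, t ∈ maximalIdeal T ^ n) → t = 0 := fun t ht => by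
    have h := Ideal.iInf_pow_eq_bot_of_isLocalRing (maximalIdeal T)
      (maximalIdeal.isMaximal T).ne_top
    rw [← Ideal.mem_bot, ← h]
    exact Ideal.mem_iInf.2 ht
  have h1 : residue T (b.repr (ρ.ρ σ₀ (b 1)) 1) = 1 := by
    have h := (residue_eq_zero_iff _).2 (hbI σ₀ hσ₀)
    rwa [map_sub, RingHom.map_one (residue T), sub_eq_zero] at h
  have hne : IsUnit (b.repr (ρ.ρ σ₀ (b 0)) 0 - b.repr (ρ.ρ σ₀ (b 1)) 1) := by
    rw [← residue_ne_zero_iff_isUnit, det_eq_of_triangular b, map_sub, map_sub, map_mul, map_mul,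
      h1, (residue_eq_zero_iff _).2 (hbD σ₀ (hsub _ hσ₀)), RingHom.map_one (residue T), mul_zero, sub_zero,
      mul_one] at hu
    rwa [← residue_ne_zero_iff_isUnit, map_sub, h1]
  obtain ⟨v, a, d, x, y, hav, hdv, hx, hv0, hv1, haα, hdδ⟩ :=
    exists_eigenbasis b (ρ.ρ σ₀) (hbD σ₀ (hsub _ hσ₀)) hne
  -- residual shape in the new basis
  have hcoord : ∀ w : ρ.V, v.repr w 1 * (1 - x * y) = b.repr w 1 - x * b.repr w 0 := by
    intro w
    have e := sum_fin_two_smul v w
    conv_rhs => rw [e]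
    simp only [hv0, hv1, map_add, map_smul, b.repr_self, Finsupp.add_apply, Finsupp.smul_apply,
      smul_eq_mul, Finsupp.single_apply, Fin.isValue, Fin.reduceEq, if_false, if_true]
    ring
  have hresv : ∀ w : ρ.V, residue T (v.repr w 1) = residue T (b.repr w 1) := by
    intro w
    have h := congrArg (residue T) (hcoord w)
    simpa [map_mul, map_sub, (residue_eq_zero_iff _).2 hx] using h
  have hb10 : ∀ σ ∈ P.decompositionSubgroup ℚ,
      residue T (b.repr (ρ.ρ σ (b 0)) 1) = 0 := fun σ hσ => (residue_eq_zero_iff _).2 (hbD σ hσ)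
  have hb11 : ∀ σ ∈ P.inertiaSubgroupIn ℚ,
      residue T (b.repr (ρ.ρ σ (b 1)) 1) = 1 := fun σ hσ => by
    have h := (residue_eq_zero_iff _).2 (hbI σ hσ)
    rwa [map_sub, RingHom.map_one (residue T), sub_eq_zero] at h
  have hvI : ∀ σ ∈ P.inertiaSubgroupIn ℚ,
      v.repr (ρ.ρ σ (v 0)) 1 ∈ maximalIdeal T ∧
        v.repr (ρ.ρ σ (v 1)) 1 - 1 ∈ maximalIdeal T := by
    intro σ hσ
    constructor
    · rw [← residue_eq_zero_iff, hresv, hv0]
      simp [hb10 σ (hsub _ hσ), (residue_eq_zero_iff _).2 hx]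
    · rw [← residue_eq_zero_iff, map_sub, hresv, hv1]
      simp [hb10 σ (hsub _ hσ), hb11 σ hσ]
  have hau : IsUnit (a - 1) := by
    rw [← residue_ne_zero_iff_isUnit] at hne ⊢
    rw [map_sub, map_one, sub_ne_zero]
    rw [map_sub, hb11 σ₀ hσ₀, sub_ne_zero] at hne
    have : residue T a = residue T (b.repr (ρ.ρ σ₀ (b 0)) 0) := by
      rw [← sub_eq_zero, ← map_sub]
      exact (residue_eq_zero_iff _).2 haα
    rwa [this]
  have hlevel : ∀ σ ∈ P.inertiaSubgroupIn ℚ,
      v.repr (ρ.ρ σ (v 0)) 1 = 0 ∧ v.repr (ρ.ρ σ (v 1)) 1 = 1 := fun σ hσ =>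
    ⟨hzero _ fun n => (coord_mem_of_hasKernelAt p hpT ρ P v hvI hσ₀ hav hau n (hker P hP n)
      hσ).1,
     sub_eq_zero.1 (hzero _ fun n => (coord_mem_of_hasKernelAt p hpT ρ P v hvI hσ₀ hav hau n
      (hker P hP n) hσ).2)⟩
  refine ⟨T ∙ v 0, ⟨v, rfl⟩, ?_, ?_⟩
  · intro σ hσ w hw
    obtain ⟨t, rfl⟩ := Submodule.mem_span_singleton.1 hw
    rw [map_smul]
    refine Submodule.smul_mem _ _ (Submodule.mem_span_singleton.2 ⟨v.repr (ρ.ρ σ (v 0)) 0, ?_⟩)
    have hz : v.repr (ρ.ρ σ (v 0)) 1 = 0 := by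
      refine coord_eq_zero_of_conj v ρ.ρ (P.inertiaSubgroupIn ℚ) hlevel hσ₀ ?_ hav hdv hau
      exact conj_mem_inertia hσ hσ₀
    conv_rhs => rw [sum_fin_two_smul v (ρ.ρ σ (v 0)), hz, zero_smul, add_zero]
  · intro σ hσ w
    refine Submodule.mem_span_singleton.2 ⟨v.repr (ρ.ρ σ w - w) 0, ?_⟩
    have hz : v.repr (ρ.ρ σ w - w) 1 = 0 := by
      rw [sum_fin_two_smul v w]
      simp [(hlevel σ hσ).1, (hlevel σ hσ).2]
    conv_rhs => rw [sum_fin_two_smul v (ρ.ρ σ w - w), hz, zero_smul, add_zero]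

end Fermat.Agent.OrdinaryDatum
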