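/-
S33, assembly: a datum of level `N` which is residually ordinary at `p` is ordinary at `p` once the
`p`-power torsion of `J₀(N)` has, at every place over `p`, stable subgroups without trivial
constituent modulo which inertia acts trivially.
-/
import Fermat.Agent.OrdinaryDatum.Criterion
import Fermat.Agent.Datum.Consequences
import Fermat.Agent.AtP.Inertia
import Mathlib.RingTheory.RootsOfUnity.Lemmas
import Mathlib.RingTheory.Ideal.Quotient.Index

set_option autoImplicit false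

noncomputable section

namespace Fermat.Agent.OrdinaryDatum

open CuspForm ModularCurve IsLocalRing
open Fermat.Agent.GaloisAdic

local notation "ℚbar" => AlgebraicClosure ℚ
local notation "Γℚ" => AlgebraicClosure ℚ ≃ₐ[ℚ] AlgebraicClosure ℚ

/-- Pullback along an injective equivariant homomorphism. -/
theorem NoTriv.comap_injective {G M N : Type*} [AddCommGroup M] [AddCommGroup N] {p : ℕ}
    {act : G → M →+ M} {act' : G → N →+ N} {C : AddSubgroup N} (h : NoTriv p act' C)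
    (f : M →+ N) (hf : Function.Injective f) (hcomm : ∀ g x, f (act g x) = act' g (f x)) :
    NoTriv p act (C.comap f) := by
  intro B hBC hB φ hφ
  let e := B.equivMapOfInjective f hf
  have hst : ∀ g, ∀ y ∈ B.map f, act' g y ∈ B.map f := by
    rintro g _ ⟨x, hx, rfl⟩
    exact ⟨_, hB g x hx, hcomm g x⟩
  have h0 := h (B.map f) (by rintro _ ⟨x, hx, rfl⟩; exact hBC hx) hst
    (φ.comp e.symm.toAddMonoidHom) fun g y => by
      obtain ⟨x, rfl⟩ := e.surjective y
      have he : (⟨act' g (e x), hst g _ (e x).2⟩ : B.map f) = e ⟨act g x, hB g x x.2⟩ :=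
        Subtype.ext (hcomm g x).symm
      show φ (e.symm _) = φ (e.symm (e x))
      rw [he, AddEquiv.symm_apply_apply, AddEquiv.symm_apply_apply, hφ]
  refine DFunLike.ext _ _ fun x => ?_
  have := DFunLike.congr_fun h0 (e x)
  simpa using this

/-- The inertia group at `P` over the odd prime `p` moves every non-trivial `p`-th root of
unity. -/
theorem exists_inertia_apply_root_ne {p : ℕ} (hp : p.Prime) (hp2 : p ≠ 2)
    {P : ValuationSubring ℚbar} (hP : P.LiesOverPrime p) {ζ : ℚbar}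
    (hζ : IsPrimitiveRoot ζ p) : ∃ σ ∈ P.inertiaSubgroupIn ℚ, σ ζ ≠ ζ := by
  by_contra hcon
  push Not at hcon
  set v := P.valuation
  have hpv : v (p : ℚbar) < 1 := (ValuationSubring.mem_nonunits_iff P).1 hP
  have hζA : ζ ∈ P := by
    rw [← P.valuation_le_one_iff]
    refine (pow_le_one_iff hp.ne_zero).1 ?_
    rw [← map_pow, hζ.pow_eq_one, map_one]
  let z : P := ⟨ζ, hζA⟩
  have hres : IsLocalRing.residue P z = 1 := by
    have : Fact p.Prime := ⟨hp⟩
    have hchar : CharP (IsLocalRing.ResidueField P) p := by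
      refine (CharP.charP_iff_prime_eq_zero hp).2 ?_
      rw [← map_natCast (IsLocalRing.residue P) p, IsLocalRing.residue_eq_zero_iff,
        ← ValuationSubring.coe_mem_nonunits_iff]
      simp only [SubringClass.coe_natCast]
      exact hP
    have h1 : IsLocalRing.residue P z ^ p = 1 := by
      rw [← map_pow, show z ^ p = 1 from Subtype.ext hζ.pow_eq_one, map_one]
    have h2 : (IsLocalRing.residue P z - 1) ^ p = 0 := by
      rw [sub_pow_char, h1, one_pow, sub_self]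
    exact sub_eq_zero.1 (pow_eq_zero_iff hp.ne_zero |>.1 h2)
  have hbound : ∀ i < p - 1, v (1 - ζ ^ (i + 1)) ≤ v (p : ℚbar) := by
    intro i hi
    have hne : (1 : ℚbar) - ζ ^ (i + 1) ≠ 0 :=
      sub_ne_zero.2 (Ne.symm (hζ.pow_ne_one_of_pos_of_lt (by omega) (by omega)))
    obtain ⟨m, hm⟩ := AtP.exists_zpow_valuation_eq hp hP hne fun σ hσ => by
      rw [map_sub, map_one, map_pow, hcon σ hσ]
    have hlt : v (1 - ζ ^ (i + 1)) < 1 := by
      rw [← ValuationSubring.mem_nonunits_iff]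
      have : (((1 - z ^ (i + 1) : P)) : ℚbar) ∈ P.nonunits := by
        rw [ValuationSubring.coe_mem_nonunits_iff, ← IsLocalRing.residue_eq_zero_iff, map_sub,
          map_one, map_pow, hres, one_pow, sub_self]
      simpa using this
    have hp0 : v (p : ℚbar) ≠ 0 := (map_ne_zero v).2 (Nat.cast_ne_zero.2 hp.ne_zero)
    rw [hm] at hlt ⊢
    have hm1 : 1 ≤ m := by
      by_contra hm1
      have : (1 : _) ≤ v (p : ℚbar) ^ m := by
        calc (1 : _) = v (p : ℚbar) ^ (0 : ℤ) := (zpow_zero _).symm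
          _ ≤ v (p : ℚbar) ^ m :=
            zpow_le_zpow_right_of_le_one₀ (zero_lt_iff.2 hp0) hpv.le (by omega)
      exact absurd hlt (not_lt.2 this)
    calc v (p : ℚbar) ^ m ≤ v (p : ℚbar) ^ (1 : ℤ) :=
          zpow_le_zpow_right_of_le_one₀ (zero_lt_iff.2 hp0) hpv.le hm1
      _ = v (p : ℚbar) := zpow_one _
  obtain ⟨n, hn⟩ : ∃ n, p = n + 3 := ⟨p - 3, by have := hp.two_le; omega⟩
  have hprod := IsPrimitiveRoot.prod_one_sub_pow_eq_order (n := n + 2) (μ := ζ)
    (by rw [show n + 2 + 1 = p by omega]; exact hζ)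
  have hle : v (p : ℚbar) ≤ v (p : ℚbar) ^ (n + 2) := by
    calc v (p : ℚbar) = v (∏ k ∈ Finset.range (n + 2), (1 - ζ ^ (k + 1))) := by
          rw [hprod, hn]; push_cast; ring_nf
      _ ≤ v (p : ℚbar) ^ (n + 2) := by
          rw [map_prod]
          calc _ ≤ ∏ k ∈ Finset.range (n + 2), v (p : ℚbar) :=
                Finset.prod_le_prod' fun k hk => hbound k (by
                  have := Finset.mem_range.1 hk; omega)
            _ = _ := by rw [Finset.prod_const, Finset.card_range]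
  have hp0 : v (p : ℚbar) ≠ 0 := (map_ne_zero v).2 (Nat.cast_ne_zero.2 hp.ne_zero)
  refine absurd hle (not_le.2 ?_)
  calc v (p : ℚbar) ^ (n + 2) < v (p : ℚbar) ^ 1 :=
        pow_lt_pow_right_of_lt_one₀ (zero_lt_iff.2 hp0) hpv (by omega)
    _ = v (p : ℚbar) := pow_one _

/-- Residual non-triviality of a cyclotomic determinant on inertia. -/
theorem exists_isUnit_det_sub_one {T : Type} [CommRing T] [IsLocalRing T] (ρ : GaloisRepAdic T)
    {p : ℕ} (hp : p.Prime) (hp2 : p ≠ 2) (hdet : ρ.DetIsCyclotomic p)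
    {P : ValuationSubring ℚbar} (hP : P.LiesOverPrime p) :
    ∃ σ ∈ P.inertiaSubgroupIn ℚ, IsUnit (LinearMap.det (ρ.ρ σ) - 1) := by
  haveI : NeZero p := ⟨hp.ne_zero⟩
  obtain ⟨ζ, hζ⟩ := HasEnoughRootsOfUnity.exists_primitiveRoot ℚbar p
  obtain ⟨σ, hσ, hne⟩ := exists_inertia_apply_root_ne hp hp2 hP hζ
  refine ⟨σ, hσ, ?_⟩
  set a := (Datum.chiMod p σ).val with ha
  have hspec : ∀ μ : ℚbar, μ ^ p ^ 1 = 1 → σ μ = μ ^ a := fun μ hμ =>
    Datum.chiMod_spec p σ (by rwa [pow_one] at hμ)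
  have h := hdet.2 1 σ a hspec
  rw [← residue_ne_zero_iff_isUnit]
  intro h0
  have hpT := hdet.1
  have ha1 : ((a : T) - 1) ∈ maximalIdeal T := by
    have h1 : LinearMap.det (ρ.ρ σ) - (a : T) ∈ maximalIdeal T := by
      refine (Ideal.span_le.2 ?_) h
      rintro _ rfl
      rw [pow_one]
      exact hpT
    have h2 := sub_mem ((residue_eq_zero_iff _).1 h0) h1
    convert h2 using 1
    ring
  by_cases hdvd : (p : ℤ) ∣ (a : ℤ) - 1
  · refine hne ?_
    have hmod : a % p = 1 % p := by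
      have := (Nat.modEq_iff_dvd).2 hdvd
      exact this.symm
    rw [hspec ζ (by rw [pow_one, hζ.pow_eq_one]), ← Nat.mod_add_div a p, pow_add, pow_mul,
      hζ.pow_eq_one, one_pow, mul_one, hmod, Nat.one_mod_eq_one.2 hp.ne_one, pow_one]
  · obtain ⟨u, w, huw⟩ := (Nat.prime_iff_prime_int.1 hp).coprime_iff_not_dvd.2 hdvd
    refine (maximalIdeal.isMaximal T).ne_top ((Ideal.eq_top_iff_one _).2 ?_)
    have := congrArg (Int.cast : ℤ → T) huw
    push_cast at this
    rw [← this]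
    exact add_mem (Ideal.mul_mem_left _ _ hpT) (Ideal.mul_mem_left _ _ ha1)

/-- The action of inertia at `P` on `J₀(N)`. -/
def jAct (N : ℕ) (P : ValuationSubring ℚbar) :
    P.inertiaSubgroupIn ℚ → JZero N →+ JZero N :=
  fun σ => DistribSMul.toAddMonoidHom (JZero N) (σ : Γℚ)

/-- Stable subgroups of the `p`-power torsion without trivial constituent, modulo which inertia
acts trivially. -/
def HasTorsionKernels (N p : ℕ) : Prop :=
  ∀ P : ValuationSubring ℚbar, P.LiesOverPrime p → ∀ K : ℕ, ∃ C : AddSubgroup (JZero N),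
    (∀ σ ∈ P.inertiaSubgroupIn ℚ, ∀ x ∈ C, σ • x ∈ C) ∧
    (∀ σ ∈ P.inertiaSubgroupIn ℚ, ∀ x : JZero N, p ^ K • x = 0 → σ • x - x ∈ C) ∧
    NoTriv p (jAct N P) C

variable {N : ℕ} [NeZero N] {p : ℕ} [Fact p.Prime] {S : Finset ℕ}
  {𝒪 : Type} [CommRing 𝒪] [IsDomain 𝒪] [IsDiscreteValuationRing 𝒪]
  [IsAdicComplete (IsLocalRing.maximalIdeal 𝒪) 𝒪]
  {θ : heckeAlgebra N 2 (↑S : Set ℕ) →+* IsLocalRing.ResidueField 𝒪}
  {T : Type} [CommRing T] [IsLocalRing T] [IsNoetherianRing T]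
  [IsAdicComplete (IsLocalRing.maximalIdeal T) T] [Algebra 𝒪 T] [IsLocalHom (algebraMap 𝒪 T)]
  [Module.Finite 𝒪 T] [Module.Free 𝒪 T]

/-- Kernels on the torsion give kernels on every level of the datum. -/
theorem hasKernelAt_of_torsionKernels [Finite (IsLocalRing.ResidueField 𝒪)]
    (hF : TorsionFacts N p) (F : TorsionFrame N p) (hJ : HasTorsionKernels N p)
    (hpS : p ∈ S) (hp𝒪 : (p : 𝒪) ∈ IsLocalRing.maximalIdeal 𝒪)
    (hNS : ∀ q : ℕ, q.Prime → q ∣ N → q ∈ S)
    (H : HeckeGaloisRepDatum N (↑S : Set ℕ) 𝒪 θ T)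
    {P : ValuationSubring ℚbar} (hP : P.LiesOverPrime p) (j : ℕ) :
    HasKernelAt H.ρ p P (maximalIdeal T ^ j) := by
  haveI : Finite (ResidueField T) := by
    refine Finite.of_surjective (ResidueField.map (algebraMap 𝒪 T)) fun y => ?_
    obtain ⟨x, hx⟩ := H.residue_surjective y
    exact ⟨residue 𝒪 x, hx⟩
  haveI : Finite (T ⧸ maximalIdeal T) := inferInstanceAs (Finite (ResidueField T))
  haveI : Finite (T ⧸ maximalIdeal T ^ j) :=
    Ideal.finite_quotient_pow (IsNoetherian.noetherian _) j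
  obtain ⟨K, ι, hι, U, π, hπ, hUK, hπσ⟩ :=
    Datum.exists_torsion_subquotient hF F hpS hp𝒪 hNS H (maximalIdeal T ^ j)
  obtain ⟨C, hCst, hCtriv, hC⟩ := hJ P hP K
  have hstab : ∀ (σ : Γℚ) (u : U), (fun i => σ • (u : ι → JZero N) i) ∈ U := by
    intro σ u
    obtain ⟨w, hw, -⟩ := hπσ σ u
    rw [show (fun i => σ • (u : ι → JZero N) i) = (w : ι → JZero N) from
      funext fun i => (hw i).symm]
    exact w.2
  have hπ' : ∀ (σ : Γℚ) (u : U),
      π ⟨_, hstab σ u⟩ = H.ρ.levelAction (maximalIdeal T ^ j) σ (π u) := by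
    intro σ u
    obtain ⟨w, hw, hπw⟩ := hπσ σ u
    rw [← hπw]
    congr 1
    exact Subtype.ext (funext fun i => (hw i).symm)
  let actU : P.inertiaSubgroupIn ℚ → U →+ U := fun σ =>
    (((jAct N P σ).compLeft ι).comp U.subtype).codRestrict U fun u => hstab σ u
  let CU : AddSubgroup U := (AddSubgroup.pi Set.univ fun _ : ι => C).comap U.subtype
  have hCU : ∀ σ ∈ P.inertiaSubgroupIn ℚ, ∀ u ∈ CU, (⟨_, hstab σ u⟩ : U) ∈ CU :=
    fun σ hσ u hu i _ => hCst σ hσ _ (hu i (Set.mem_univ i))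
  refine ⟨CU.map π, ?_, ?_, ?_⟩
  · rintro σ hσ _ ⟨u, hu, rfl⟩
    exact ⟨_, hCU σ hσ u hu, hπ' σ u⟩
  · intro σ hσ x
    obtain ⟨u, rfl⟩ := hπ x
    refine ⟨(⟨_, hstab σ u⟩ : U) - u, fun i _ => hCtriv σ hσ _ (hUK u i), ?_⟩
    rw [map_sub, hπ']
  · have hU : NoTriv p actU CU :=
      (hC.pi (ι := ι)).comap_injective (act := actU) U.subtype Subtype.val_injective
        fun σ u => rfl
    exact hU.map (fun σ u hu => hCU _ σ.2 u hu) π fun σ u _ => hπ' _ u

/-- S33 from the kernels. -/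
theorem isOrdinaryAt_of_torsionKernels [Finite (IsLocalRing.ResidueField 𝒪)]
    (hp2 : p ≠ 2) (hF : TorsionFacts N p) (F : TorsionFrame N p) (hJ : HasTorsionKernels N p)
    (hpS : p ∈ S) (hp𝒪 : (p : 𝒪) ∈ IsLocalRing.maximalIdeal 𝒪)
    (hNS : ∀ q : ℕ, q.Prime → q ∣ N → q ∈ S)
    (H : HeckeGaloisRepDatum N (↑S : Set ℕ) 𝒪 θ T)
    (hres : (GaloisRepAdic.ofResidualGaloisRep H.ρ.residual).IsOrdinaryAt p) :
    H.ρ.IsOrdinaryAt p := by
  have hdet := Datum.detIsCyclotomic hpS hp𝒪 hNS H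
  exact isOrdinaryAt_of_hasKernelAt p hdet.1 H.ρ hres
    (fun P hP => exists_isUnit_det_sub_one H.ρ Fact.out hp2 hdet hP)
    (fun P hP j => hasKernelAt_of_torsionKernels hF F hJ hpS hp𝒪 hNS H hP j)

end Fermat.Agent.OrdinaryDatum
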