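/-
Integrality of expansions: a Gauss-integral series which is integral over the series with
finitely generated coefficient modules has integral coefficients.
-/
import Fermat.Agent.Carayol.ValuationsGauss
import Fermat.Agent.Curve.ModelIntegral
import Fermat.Agent.Curve.ModelDef
import Mathlib.RingTheory.HahnSeries.Summable
import Mathlib.RingTheory.LocalRing.ResidueField.Basic

set_option autoImplicit false

noncomputable section

namespace Fermat.Agent.OrdinaryDatum

open ModularCurve IsLocalRing
open Fermat.Agent.Carayol (IsFinCoeff finCoeff mem_finCoeff finFrac exists_eq_div_of_mem_finFrac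
  exists_primitive gaussSubring coeffMap_mem_gaussSubring algebraMap_mem_gaussSubring_iff
  coeffMap_subtype_injective)

variable {K : Type*} [Field K] (A : ValuationSubring K)

/-- Series with coefficients in `A`. -/
def intSeries : Subring (LaurentSeries K) := (coeffMap A.subtype).range

theorem mem_intSeries_iff {f : LaurentSeries K} : f ∈ intSeries A ↔ ∀ n, f.coeff n ∈ A := by
  refine ⟨?_, fun h => ⟨Carayol.integralSeries A f h, Carayol.coeffMap_integralSeries A f h⟩⟩
  rintro ⟨y, rfl⟩ n
  rw [coeffMap_coeff]
  exact (y.coeff n).2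

/-- The coefficient functional. -/
def coeffLin (K : Type*) [Field K] (n : ℤ) : LaurentSeries K →ₗ[K] K where
  toFun f := f.coeff n
  map_add' f g := HahnSeries.coeff_add
  map_smul' c f := by
    simp

theorem coeffLin_apply (n : ℤ) (f : LaurentSeries K) : coeffLin K n f = f.coeff n := rfl

/-- A series with finitely generated coefficients in the Gauss ring is integral. -/
theorem mem_intSeries_of_isFinCoeff {h : LaurentSeries K} (hf : IsFinCoeff h)
    (hg : h ∈ gaussSubring A (residue A)) : h ∈ intSeries A := by
  rcases eq_or_ne h 0 with rfl | h0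
  · exact zero_mem _
  obtain ⟨c, hc, y, hy, hy0⟩ := exists_primitive A (residue A) hf h0
  have hyne : coeffMap A.subtype y ≠ 0 := by
    rw [hy]; exact mul_ne_zero (HahnSeries.single_ne_zero hc) h0
  have hinv : (coeffMap A.subtype y)⁻¹ ∈ gaussSubring A (residue A) :=
    ⟨1, y, hy0, by rw [inv_mul_cancel₀ hyne, map_one]⟩
  have e : algebraMap K (LaurentSeries K) c⁻¹ = h * (coeffMap A.subtype y)⁻¹ := by
    rw [eq_mul_inv_iff_mul_eq₀ hyne, hy, algebraMap_laurentSeries_eq_single, ← mul_assoc,
      HahnSeries.single_mul_single, add_zero, inv_mul_cancel₀ hc,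
      show HahnSeries.single (0 : ℤ) (1 : K) = 1 from rfl, one_mul]
  have hcA : c⁻¹ ∈ A := (algebraMap_mem_gaussSubring_iff (π := residue A)).1
    (e ▸ mul_mem hg hinv)
  refine (mem_intSeries_iff A).2 fun n => ?_
  have h1 : (y.coeff n : K) = c * h.coeff n := by
    rw [← HahnSeries.coeff_single_zero_mul, ← hy, coeffMap_coeff]; rfl
  rw [show h.coeff n = c⁻¹ * (y.coeff n : K) by rw [h1, inv_mul_cancel_left₀ hc]]
  exact mul_mem hcA (y.coeff n).2

variable {A}

/-- A constant all of whose powers times a fixed non-zero constant are integral is integral. -/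
theorem mem_of_forall_pow_mul_mem (hA : Curve.RankLeOne A) {c d : K} (hd : d ≠ 0)
    (h : ∀ m : ℕ, c ^ m * d ∈ A) : c ∈ A := by
  by_contra hc
  have hc0 : c ≠ 0 := fun h0 => hc (h0 ▸ zero_mem A)
  have hinv : c⁻¹ ∈ A := (A.mem_or_inv_mem c).resolve_left hc
  have hdA : d ∈ A := by simpa using h 0
  have hmax : (⟨c⁻¹, hinv⟩ : A) ∈ maximalIdeal A := by
    rw [mem_maximalIdeal, mem_nonunits_iff]
    intro hu
    obtain ⟨u, hu⟩ := hu.exists_right_inv
    have h1 : c⁻¹ * (u : K) = 1 := congrArg Subtype.val hu
    apply hc
    rw [← inv_inv c, inv_eq_of_mul_eq_one_right h1]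
    exact u.2
  obtain ⟨n, e, he⟩ := hA ⟨c⁻¹, hinv⟩ ⟨d, hdA⟩ hmax fun h0 => hd (congrArg Subtype.val h0)
  have he' : c⁻¹ ^ n = d * (e : K) := congrArg Subtype.val he
  apply hc
  have : c = c ^ (n + 1) * d * (e : K) := by
    rw [mul_assoc, ← he', pow_succ', mul_assoc, ← mul_pow, mul_inv_cancel₀ hc0, one_pow, mul_one]
  rw [this]
  exact mul_mem (h _) e.2

/-- A series all of whose powers times a fixed non-zero series are integral is integral. -/
theorem mem_intSeries_of_forall_pow_mul (hA : Curve.RankLeOne A) {y g : LaurentSeries K}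
    (hy : y ≠ 0) (h : ∀ m : ℕ, g ^ m * y ∈ intSeries A) : g ∈ intSeries A := by
  classical
  rcases eq_or_ne g 0 with rfl | hg
  · exact zero_mem _
  set s := g.order with hs
  refine (mem_intSeries_iff A).2 fun n => ?_
  suffices H : ∀ i : ℕ, ∀ j : ℤ, j < s + i → g.coeff j ∈ A by
    exact H ((n - s).toNat + 1) n (by omega)
  intro i
  induction i with
  | zero =>
    intro j hj
    rw [HahnSeries.coeff_eq_zero_of_lt_order (x := g) (by omega)]
    exact zero_mem A
  | succ i ih =>
    intro j hj
    rcases lt_or_eq_of_le (show j ≤ s + i by omega) with hlt | rfl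
    · exact ih j hlt
    let d : LaurentSeries K := ∑ l ∈ Finset.Ico s (s + i), HahnSeries.single l (g.coeff l)
    have hd : d ∈ intSeries A := sum_mem fun l hl => by
      refine (mem_intSeries_iff A).2 fun m => ?_
      rw [HahnSeries.coeff_single]
      split_ifs
      · exact ih l (Finset.mem_Ico.1 hl).2
      · exact zero_mem A
    have hdc : ∀ m, d.coeff m = if m ∈ Finset.Ico s (s + i) then g.coeff m else 0 := fun m => by
      simp only [d, HahnSeries.coeff_sum, HahnSeries.coeff_single]
      convert Finset.sum_ite_eq (Finset.Ico s (s + i)) m g.coeff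
    have hsub : ∀ m : ℤ, m ≤ s + i →
        (g - d).coeff m = if m = s + i then g.coeff (s + i) else 0 := fun m hm => by
      rw [HahnSeries.coeff_sub, hdc]
      rcases eq_or_ne m (s + i) with rfl | hne
      · rw [if_neg (by simp), if_pos rfl, sub_zero]
      · rw [if_neg hne]
        by_cases hms : s ≤ m
        · rw [if_pos (Finset.mem_Ico.2 ⟨hms, by omega⟩), sub_self]
        · rw [if_neg (by simp; omega), HahnSeries.coeff_eq_zero_of_lt_order (x := g) (by omega),
            sub_zero]
    by_cases hc : g.coeff (s + i) = 0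
    · rw [hc]; exact zero_mem A
    have hne : g - d ≠ 0 := fun h0 => hc (by
      have := hsub (s + i) le_rfl
      rw [if_pos rfl, h0, HahnSeries.coeff_zero] at this
      exact this.symm)
    have hlead : (g - d).leadingCoeff = g.coeff (s + i) := by
      have hord : (g - d).order = s + i := by
        refine le_antisymm (HahnSeries.order_le_of_coeff_ne_zero (by
          rw [hsub _ le_rfl, if_pos rfl]; exact hc)) ?_
        by_contra hlt
        apply HahnSeries.leadingCoeff_ne_zero.2 hne
        rw [HahnSeries.leadingCoeff_eq, hsub _ (by omega), if_neg (by omega)]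
      rw [HahnSeries.leadingCoeff_eq, hord, hsub _ le_rfl, if_pos rfl]
    refine mem_of_forall_pow_mul_mem hA (HahnSeries.leadingCoeff_ne_zero.2 hy) fun m => ?_
    have hmem : (g - d) ^ m * y ∈ intSeries A := by
      rw [sub_eq_add_neg, add_pow, Finset.sum_mul]
      refine sum_mem fun k _ => ?_
      rw [show g ^ k * (-d) ^ (m - k) * (m.choose k : LaurentSeries K) * y =
        (g ^ k * y) * ((-d) ^ (m - k) * (m.choose k : LaurentSeries K)) by ring]
      exact mul_mem (h k) (mul_mem (pow_mem (neg_mem hd) _) (natCast_mem _ _))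
    have e : ((g - d) ^ m * y).leadingCoeff = g.coeff (s + i) ^ m * y.leadingCoeff := by
      clear hmem
      induction m with
      | zero => rw [pow_zero, pow_zero, one_mul, one_mul]
      | succ m ihm => rw [pow_succ', pow_succ', mul_assoc, HahnSeries.leadingCoeff_mul, ihm, hlead,
          mul_assoc]
    rw [← e, HahnSeries.leadingCoeff_eq]
    exact (mem_intSeries_iff A).1 hmem _

variable (A) in
/-- Integral elements over the series with finitely generated coefficients have a common
denominator for all their powers. -/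
theorem exists_denominator {g : LaurentSeries K} (hg : g ∈ finFrac K)
    (hint : IsIntegral (finCoeff K) g) :
    ∃ y ∈ finCoeff K, y ≠ 0 ∧ ∀ m : ℕ, g ^ m * y ∈ finCoeff K := by
  obtain ⟨a, ha, b, hb, hb0, e⟩ := exists_eq_div_of_mem_finFrac hg
  obtain ⟨p, hp, hpe⟩ := hint
  set d := p.natDegree
  refine ⟨b ^ d, pow_mem hb d, pow_ne_zero _ hb0, fun m => ?_⟩
  induction m using Nat.strong_induction_on with
  | _ m ih =>
    rcases le_or_gt m d with hm | hm
    · obtain ⟨r, hr⟩ := Nat.exists_eq_add_of_le hm
      rw [hr, pow_add, ← mul_assoc, ← mul_pow, e]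
      exact mul_mem (pow_mem ha m) (pow_mem hb r)
    · obtain ⟨r, rfl⟩ := Nat.exists_eq_add_of_le hm.le
      have h1 : ∑ i ∈ Finset.range (d + 1), ((p.coeff i : finCoeff K) : LaurentSeries K) * g ^ i
          = 0 := by
        rw [← hpe, Polynomial.eval₂_eq_sum_range]
        rfl
      rw [Finset.sum_range_succ, show p.coeff d = 1 from hp.coeff_natDegree, OneMemClass.coe_one,
        one_mul, add_eq_zero_iff_eq_neg] at h1
      rw [pow_add, show g ^ d = -∑ i ∈ Finset.range d,
        ((p.coeff i : finCoeff K) : LaurentSeries K) * g ^ i by rw [h1, neg_neg],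
        neg_mul, neg_mul, Finset.sum_mul, Finset.sum_mul]
      refine neg_mem (sum_mem fun i hi => ?_)
      rw [mul_assoc, mul_assoc, ← mul_assoc (g ^ i), ← pow_add]
      exact mul_mem (p.coeff i).2 (ih (i + r) (by have := Finset.mem_range.1 hi; omega))

/-- A Gauss-integral series, integral over the series with finitely generated coefficients, has
integral coefficients. -/
theorem mem_intSeries_of_isIntegral (hA : Curve.RankLeOne A) {g : LaurentSeries K}
    (hfin : g ∈ finFrac K) (hgauss : g ∈ gaussSubring A (residue A))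
    (hint : IsIntegral (finCoeff K) g) : g ∈ intSeries A := by
  obtain ⟨y₀, hy₀, hy₀0, hpow⟩ := exists_denominator hfin hint
  obtain ⟨c, hc, y, hy, -⟩ := exists_primitive A (residue A) hy₀ hy₀0
  refine mem_intSeries_of_forall_pow_mul hA (y := coeffMap A.subtype y)
    (by rw [hy]; exact mul_ne_zero (HahnSeries.single_ne_zero hc) hy₀0) fun m => ?_
  refine mem_intSeries_of_isFinCoeff A ?_ (mul_mem (pow_mem hgauss m) (coeffMap_mem_gaussSubring y))
  rw [hy, ← mul_assoc, mul_comm (g ^ m), mul_assoc, ← algebraMap_laurentSeries_eq_single]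
  exact (finCoeff K).mul_mem ((finCoeff K).algebraMap_mem c) (hpow m)

/-- Integrality over `K[x]` gives integrality over the series with finitely generated
coefficients along an expansion sending `x` to such a series. -/
theorem isIntegral_finCoeff_of_intOver {F : Type*} [Field F] [Algebra K F]
    (φ : F →ₐ[K] LaurentSeries K) {x f : F} (hx : φ x ∈ finCoeff K)
    (hf : Curve.ModelAux.IntOver K x f) : IsIntegral (finCoeff K) (φ f) := by
  obtain ⟨p, hp, he⟩ := hf
  have hle : Algebra.adjoin K ({x} : Set F) ≤ (finCoeff K).comap φ :=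
    Algebra.adjoin_le (by simpa using hx)
  let ψ : Algebra.adjoin K ({x} : Set F) →+* finCoeff K :=
    (φ.toRingHom.comp (Algebra.adjoin K ({x} : Set F)).val.toRingHom).codRestrict
      (finCoeff K).toSubring fun r => hle r.2
  refine ⟨p.map ψ, hp.map ψ, ?_⟩
  rw [Polynomial.eval₂_map]
  have h1 := congrArg φ he
  rw [map_zero, ← AlgHom.coe_toRingHom, Polynomial.hom_eval₂] at h1
  exact h1

end Fermat.Agent.OrdinaryDatum

end
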