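/-
The kernel of reduction on `n`-torsion classes at residue characteristic dividing `n`: classes
`[D]` with `n D = div f` and `f` reducing to `1` on every component.  Inertia acts trivially on
the torsion modulo this subgroup.
-/
import Fermat.Agent.Bad.GluingLattice
import Fermat.Agent.Bad.GluingFibre
import Fermat.Prelude.Def_AlgebraicCurve_BaseChangeGalois
import Mathlib.FieldTheory.IsAlgClosed.Basic

set_option autoImplicit false

noncomputable section

namespace Fermat.Agent.OrdinaryDatum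

open AlgebraicCurve Fermat.Agent.Curve Fermat.Agent.Bad

universe uK uF uι uk uFb uG

variable {K : Type uK} [Field K] {A : ValuationSubring K}
  {F : Type uF} [Field F] [Algebra K F] {ι : Type uι} [Fintype ι]
  {k : Type uk} [Field k] {Fb : ι → Type uFb} [∀ i, Field (Fb i)] [∀ i, Algebra k (Fb i)]
  [IsFunctionFieldOne K F]

/-- An inertial action of `Γ` on a reduction. -/
structure InertialAction (R : MultiReduction A F k Fb) (Γ : Type uG) [Group Γ]
    [MulSemiringAction Γ K] where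
  /-- the semilinear automorphisms -/
  gal : Γ →* SemilinearAut K F
  baseAut_gal : ∀ (g : Γ) (a : K), SemilinearAut.baseAut (gal g) a = g • a
  valuation_smul : ∀ (g : Γ) (a : K), A.valuation (g • a) = A.valuation a
  /-- all residual functions are fixed -/
  φ_eq : ∀ (g : Γ) (i : ι) (f : R.V i),
    ∃ h : SemilinearAut.toRingAut (gal g) (f : F) ∈ R.V i, R.φ i ⟨_, h⟩ = R.φ i f
  smul_x : ∀ g, SemilinearAut.toRingAut (gal g) R.x = R.x

variable (R : MultiReduction A F k Fb) (n : ℕ)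

/-- A kernel normal form: `n D = div f` and `f` reduces to `1` on every component. -/
structure KerForm (D : Divisor K F) (f : F) : Prop where
  degree_zero : Divisor.degree D = 0
  ord_eq : ∀ v : Place K F, (n : ℤ) * D v = v.ord f
  mem : f ∈ R.integers
  red_eq : R.red ⟨f, mem⟩ = 1

variable {R n}

theorem KerForm.ne_zero {D : Divisor K F} {f : F} (h : KerForm R n D f) : f ≠ 0 := by
  intro h0
  obtain ⟨i⟩ := R.nonempty
  have h1 := congrFun h.red_eq i
  have : (⟨f, h.mem⟩ : R.integers) = 0 := Subtype.ext h0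
  rw [this, map_zero] at h1
  exact zero_ne_one h1

theorem KerForm.add {D E : Divisor K F} {f g : F} (h : KerForm R n D f) (h' : KerForm R n E g) :
    KerForm R n (D + E) (f * g) where
  degree_zero := by rw [map_add, h.degree_zero, h'.degree_zero, add_zero]
  ord_eq v := by
    rw [Finsupp.add_apply, mul_add, h.ord_eq, h'.ord_eq, v.ord_mul h.ne_zero h'.ne_zero]
  mem := mul_mem h.mem h'.mem
  red_eq := by
    have : (⟨f * g, mul_mem h.mem h'.mem⟩ : R.integers) = ⟨f, h.mem⟩ * ⟨g, h'.mem⟩ := rfl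
    rw [this, map_mul, h.red_eq, h'.red_eq, one_mul]

theorem KerForm.neg {D : Divisor K F} {f : F} (h : KerForm R n D f) :
    KerForm R n (-D) f⁻¹ := by
  have hne : ∀ i, R.red ⟨f, h.mem⟩ i ≠ 0 := fun i => by rw [h.red_eq]; exact one_ne_zero
  refine ⟨by rw [map_neg, h.degree_zero, neg_zero],
    fun v => by rw [Finsupp.neg_apply, mul_neg, h.ord_eq, v.ord_inv],
    R.inv_mem_integers hne, funext fun i => ?_⟩
  have := R.red_inv hne i
  rw [h.red_eq] at this
  simpa using this

theorem KerForm.zero : KerForm R n (0 : Divisor K F) (1 : F) where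
  degree_zero := map_zero _
  ord_eq v := by simp
  mem := one_mem _
  red_eq := map_one R.red

variable (R n) in
/-- The kernel of reduction on the `n`-torsion. -/
def kernelGroup : AddSubgroup (Pic0 K F) where
  carrier := {c | ∃ (D : Divisor.degZero (K := K) (F := F)) (f : F),
    Pic0.mk D = c ∧ KerForm R n (D : Divisor K F) f}
  zero_mem' := ⟨0, 1, rfl, KerForm.zero⟩
  add_mem' := by
    rintro _ _ ⟨D, f, rfl, hf⟩ ⟨E, g, rfl, hg⟩
    exact ⟨D + E, f * g, Pic0.mk_add D E, hf.add hg⟩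
  neg_mem' := by
    rintro _ ⟨D, f, rfl, hf⟩
    exact ⟨-D, f⁻¹, rfl, hf.neg⟩

theorem nsmul_eq_zero_of_mem_kernelGroup {c : Pic0 K F} (hc : c ∈ kernelGroup R n) :
    n • c = 0 := by
  obtain ⟨D, f, rfl, hf⟩ := hc
  show n • (QuotientAddGroup.mk D : Pic0 K F) = 0
  rw [← QuotientAddGroup.mk_nsmul, QuotientAddGroup.eq_zero_iff, AddSubgroup.mem_addSubgroupOf]
  exact ⟨f, hf.ne_zero, fun v => by
    rw [AddSubgroupClass.coe_nsmul, Finsupp.smul_apply, nsmul_eq_mul, hf.ord_eq]⟩

variable {Γ : Type uG} [Group Γ] [MulSemiringAction Γ K] (I : InertialAction R Γ)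

theorem InertialAction.smul_mem_integers (g : Γ) {f : F} (hf : f ∈ R.integers) :
    ∃ h : SemilinearAut.toRingAut (I.gal g) f ∈ R.integers,
      R.red ⟨_, h⟩ = R.red ⟨f, hf⟩ := by
  have hV := fun i => I.φ_eq g i ⟨f, R.mem_integers.1 hf i⟩
  refine ⟨R.mem_integers.2 fun i => (hV i).1, funext fun i => ?_⟩
  rw [R.red_apply, R.red_apply]
  exact (hV i).2

theorem InertialAction.smul_divisor_apply (g : Γ) (D : Divisor K F) (f : F)
    (hD : ∀ v : Place K F, (n : ℤ) * D v = v.ord f) (v : Place K F) :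
    (n : ℤ) * (I.gal g • D) v = v.ord (SemilinearAut.toRingAut (I.gal g) f) := by
  rw [SemilinearAut.divisor_smul_apply, hD]
  have h := SemilinearAut.ord_smul (I.gal g) ((I.gal g)⁻¹ • v) f
  rw [smul_inv_smul, SemilinearAut.smul_def] at h
  exact h.symm

theorem smul_mem_kernelGroup (g : Γ) {c : Pic0 K F} (hc : c ∈ kernelGroup R n) :
    I.gal g • c ∈ kernelGroup R n := by
  obtain ⟨D, f, rfl, hf⟩ := hc
  obtain ⟨h, he⟩ := I.smul_mem_integers g hf.mem
  refine ⟨SemilinearAut.degZeroSMulHom (I.gal g) D, SemilinearAut.toRingAut (I.gal g) f, rfl,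
    ?_, ?_, h, he.trans hf.red_eq⟩
  · rw [SemilinearAut.coe_degZeroSMulHom, SemilinearAut.degree_smul, hf.degree_zero]
  · intro v
    rw [SemilinearAut.coe_degZeroSMulHom]
    exact I.smul_divisor_apply g _ f hf.ord_eq v

/-- `σ f / f` has constant reductions. -/
theorem InertialAction.smul_div_residue (g : Γ) {f : F} (hf : f ≠ 0) (i : ι) :
    ∃ (h : SemilinearAut.toRingAut (I.gal g) f / f ∈ R.V i) (ζ : k), ζ ≠ 0 ∧
      R.φ i ⟨_, h⟩ = algebraMap k (Fb i) ζ := by
  obtain ⟨c, hc, hφ⟩ := R.exists_scale i f hf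
  have hc0 : c ≠ 0 := by
    rintro rfl
    exact hφ (by convert map_zero (R.φ i); exact zero_smul K f)
  set σ := I.gal g with hσ
  obtain ⟨hσc, heq⟩ := I.φ_eq g i ⟨c • f, hc⟩
  set d : K := c / SemilinearAut.baseAut σ c with hd
  have hvd : A.valuation d = 1 := by
    rw [hd, map_div₀, (congrArg A.valuation (I.baseAut_gal g _)).trans (I.valuation_smul g _), div_self ((map_ne_zero A.valuation).2 hc0)]
  have hdA : d ∈ A := (A.valuation_le_one_iff _).1 hvd.le
  have hinv : (c • f)⁻¹ ∈ R.V i := R.inv_mem_V (f := ⟨c • f, hc⟩) hφ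
  have hprod : SemilinearAut.toRingAut σ f / f =
      algebraMap K F d * ((SemilinearAut.toRingAut σ (c • f)) * (c • f)⁻¹) := by
    rw [Algebra.smul_def, map_mul, SemilinearAut.commutes, hd, map_div₀]
    have h1 : algebraMap K F (SemilinearAut.baseAut σ c) ≠ 0 := by simpa using hc0
    have h2 : algebraMap K F c ≠ 0 := by simpa using hc0
    field_simp
  have hσc' : SemilinearAut.toRingAut σ (c • f) ∈ R.V i := hσc
  have hmem : SemilinearAut.toRingAut σ f / f ∈ R.V i := by
    rw [hprod]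
    exact mul_mem ((R.mem_V_iff i d).2 hdA) (mul_mem hσc' hinv)
  refine ⟨hmem, R.π ⟨d, hdA⟩, ?_, ?_⟩
  · rw [Ne, R.π_eq_zero_iff_mem, ← ValuationSubring.coe_mem_nonunits_iff,
      ValuationSubring.mem_nonunits_iff]
    exact not_lt.2 hvd.ge
  · have e : (⟨_, hmem⟩ : R.V i) = ⟨algebraMap K F d, (R.mem_V_iff i d).2 hdA⟩ *
        (⟨SemilinearAut.toRingAut σ (c • f), hσc'⟩ * ⟨_, hinv⟩) := Subtype.ext hprod
    rw [e, map_mul, R.φ_algebraMap i ⟨d, hdA⟩, map_mul]
    have e2 : R.φ i ⟨SemilinearAut.toRingAut σ (c • f), hσc'⟩ * R.φ i ⟨_, hinv⟩ = 1 := by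
      rw [show R.φ i ⟨SemilinearAut.toRingAut σ (c • f), hσc'⟩ = R.φ i ⟨c • f, hc⟩ from heq,
        ← map_mul]
      refine (congrArg (R.φ i) (Subtype.ext ?_)).trans (map_one _)
      show (c • f) * (c • f)⁻¹ = 1
      exact mul_inv_cancel₀ (smul_ne_zero hc0 hf)
    rw [e2, mul_one]

/-- Inertia acts trivially on the torsion modulo the kernel of reduction. -/
theorem smul_sub_mem_kernelGroup [IsAlgClosed k] (hn : n ≠ 0) (g : Γ) {c : Pic0 K F}
    (hc : n • c = 0) : I.gal g • c - c ∈ kernelGroup R n := by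
  obtain ⟨D, rfl⟩ := Pic0.mk_surjective c
  rw [show n • Pic0.mk D = (QuotientAddGroup.mk (n • D) : Pic0 K F) from
    (QuotientAddGroup.mk_nsmul _ D n).symm, QuotientAddGroup.eq_zero_iff,
    AddSubgroup.mem_addSubgroupOf] at hc
  obtain ⟨f, hf, hord⟩ := hc
  have hord' : ∀ v : Place K F, (n : ℤ) * (D : Divisor K F) v = v.ord f := fun v => by
    rw [← hord v, AddSubgroupClass.coe_nsmul, Finsupp.smul_apply, nsmul_eq_mul]
  set σ := I.gal g
  set f' := SemilinearAut.toRingAut σ f / f with hf'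
  choose hmem ζ hζ0 hζ using fun i => I.smul_div_residue g hf i
  choose ξ hξ using fun i => IsAlgClosed.exists_pow_nat_eq (ζ i) (Nat.pos_of_ne_zero hn)
  have hξ0 : ∀ i, ξ i ≠ 0 := fun i h => hζ0 i (by rw [← hξ i, h, zero_pow hn])
  obtain ⟨⟨w, hw⟩, hwr⟩ := R.red_surjective fun i => algebraMap k (Fb i) (ξ i)
  have hwne : ∀ i, R.red ⟨w, hw⟩ i ≠ 0 := fun i => by
    rw [hwr]; simpa using hξ0 i
  have hw0 : w ≠ 0 := by
    obtain ⟨i⟩ := R.nonempty
    exact R.red_ne_zero_of_ne (hwne i)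
  have hf'mem : f' ∈ R.integers := R.mem_integers.2 hmem
  have hwinv : w⁻¹ ∈ R.integers := R.inv_mem_integers hwne
  let Dw : Divisor.degZero (K := K) (F := F) :=
    ⟨divisorOf K w, Divisor.mem_degZero.2 (degree_divisorOf w)⟩
  have hDw : Pic0.mk Dw = 0 := by
    rw [Pic0.mk, QuotientAddGroup.eq_zero_iff, AddSubgroup.mem_addSubgroupOf]
    exact ⟨w, hw0, fun v => divisorOf_apply w v⟩
  let D' : Divisor.degZero (K := K) (F := F) := SemilinearAut.degZeroSMulHom σ D - D - Dw
  refine ⟨D', f' * w⁻¹ ^ n, ?_, Divisor.mem_degZero.1 D'.2, fun v => ?_,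
    mul_mem hf'mem (pow_mem hwinv n), funext fun i => ?_⟩
  · rw [SemilinearAut.pic0_smul_mk]
    show (QuotientAddGroup.mk D' : Pic0 K F) = _
    rw [QuotientAddGroup.mk_sub, QuotientAddGroup.mk_sub, show
      (QuotientAddGroup.mk Dw : Pic0 K F) = 0 from hDw, sub_zero]
    rfl
  · have hσf : SemilinearAut.toRingAut σ f ≠ 0 := by simpa using hf
    simp only [D', AddSubgroupClass.coe_sub, SemilinearAut.coe_degZeroSMulHom, Finsupp.sub_apply,
      mul_sub]
    rw [I.smul_divisor_apply g _ f hord' v, hord' v]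
    show _ - _ - (n : ℤ) * divisorOf K w v = _
    rw [divisorOf_apply, hf', div_eq_mul_inv, v.ord_mul (mul_ne_zero hσf (inv_ne_zero hf))
      (pow_ne_zero n (inv_ne_zero hw0)), v.ord_mul hσf (inv_ne_zero hf), v.ord_inv,
      ← zpow_natCast, v.ord_zpow, v.ord_inv]
    ring
  · have e : (⟨f' * w⁻¹ ^ n, mul_mem hf'mem (pow_mem hwinv n)⟩ : R.integers) =
        ⟨f', hf'mem⟩ * ⟨w⁻¹, hwinv⟩ ^ n := rfl
    rw [e, map_mul, map_pow, Pi.mul_apply, Pi.pow_apply, R.red_inv hwne i, hwr, R.red_apply,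
      hζ i, ← hξ i, map_pow, ← mul_pow]
    rw [mul_inv_cancel₀ (by simpa using hξ0 i), one_pow]
    rfl

end Fermat.Agent.OrdinaryDatum
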