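/-
Special fibres of the twists by kernel divisors at residue characteristic dividing `n`: they are
the special fibres of the untwisted spaces, which are generated in a fixed large degree.
-/
import Fermat.Agent.OrdinaryDatum.KernelDefs
import Fermat.Agent.Bad.GluingHensel
import Fermat.Agent.Bad.GluingFibre
import Mathlib.Algebra.Algebra.Operations
import Mathlib.Algebra.CharP.Lemmas
import Mathlib.LinearAlgebra.FiniteDimensional.Lemmas

set_option autoImplicit false

noncomputable section

namespace Fermat.Agent.OrdinaryDatum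

open AlgebraicCurve IntermediateField Fermat.Agent.Curve Fermat.Agent.Bad
open Fermat.Agent.Bad.MultiReduction

universe uK uF uι uk uFb

variable {K : Type uK} [Field K] {A : ValuationSubring K}
  {F : Type uF} [Field F] [Algebra K F] {ι : Type uι} [Fintype ι]
  {k : Type uk} [Field k] {Fb : ι → Type uFb} [∀ i, Field (Fb i)] [∀ i, Algebra k (Fb i)]
  [IsAlgClosed K] [IsFunctionFieldOne K F] [∀ i, IsFunctionFieldOne k (Fb i)]
  {R : MultiReduction A F k Fb}

variable (R) in
/-- The degree of `x`. -/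
abbrev xDeg : ℕ := ∑ i, Module.finrank k⟮R.xb i⟯ (Fb i)

variable (R) in
/-- The reductions of `x` as a tuple. -/
abbrev xTuple : ∀ i, Fb i := fun i => R.xb i

/-- A bounded tuple with matched values is in the special fibre (seminormal case). -/
theorem mem_spFibre_of_matched {G : Gluing R} (hG : G.order ≤ 1) {N : ℕ} (hN : G.bound ≤ N)
    {h : ∀ i, Fb i} (hh : h ∈ R.polarFibre N)
    (hm : ∀ b b' : ↥G.B, G.pt b = G.pt b' →
      bval (b : Σ i, Place k (Fb i)) h = bval (b' : Σ i, Place k (Fb i)) h) :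
    h ∈ R.spFibre (R.polarSp N) := by
  classical
  haveI := R.isAlgClosed_residue
  obtain ⟨M, t, ht, htv⟩ := G.realise fun q =>
    if hq : ∃ b, G.pt b = q then bval (hq.choose : Σ i, Place k (Fb i)) h else 0
  refine G.mem_of_sub_vanish hN hh ht fun b hb => ?_
  have h1 := G.mem_of_polarFibre hh ⟨b, hb⟩
  have h2 := G.mem_of_polarFibre (R.spFibre_polar_le _ ht) ⟨b, hb⟩
  refine VanishesAt.mono hG ((vanishesAt_one_iff (h := h - t) (sub_mem h1 h2)).2 ?_)
  have hq : ∃ b', G.pt b' = G.pt ⟨b, hb⟩ := ⟨_, rfl⟩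
  have h3 := htv ⟨b, hb⟩
  rw [dif_pos hq, hm _ _ hq.choose_spec] at h3
  rw [bval_sub h1 h2, h3, sub_self]

/-- A space between two others with the same special fibre. -/
theorem eq_of_spFibre_le {U V : Submodule K F} [FiniteDimensional K V] (h : U ≤ V)
    (hfib : R.spFibre V ≤ R.spFibre U) : U = V := by
  haveI : FiniteDimensional K U := Submodule.finiteDimensional_of_le h
  haveI := R.finiteDimensional_spFibre U
  refine Submodule.eq_of_le_of_finrank_le h ?_
  rw [← R.finrank_spFibre U, ← R.finrank_spFibre V]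
  exact Submodule.finrank_mono hfib

variable {p : ℕ} [Fact p.Prime] [CharP k p] {e : ℕ} {D : Divisor K F} {f : F}

omit [IsAlgClosed K] [∀ i, IsFunctionFieldOne k (Fb i)] [Fact p.Prime] [CharP k p] in
theorem KerForm.pow_mul_mem_polarSp {n N : ℕ} (hf : KerForm R n D f) {s : F}
    (hs : s ∈ R.twistSp D N) : s ^ n * f ∈ R.polarSp (n * N) := by
  rcases eq_or_ne (s ^ n * f) 0 with h0 | h0
  · rw [h0]; exact zero_mem _
  obtain ⟨hs0, hf0⟩ := mul_ne_zero_iff.1 h0
  refine (RedAux.mem_L_iff h0).2 fun v => ?_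
  rw [v.ord_mul hs0 hf0, ord_pow, ← hf.ord_eq v]
  rcases eq_or_ne n 0 with rfl | hn
  · simp
  have h1 := (RedAux.mem_L_iff (fun h => hs0 (by rw [h, zero_pow hn]))).1 hs v
  simp only [Finsupp.add_apply, Finsupp.smul_apply, nsmul_eq_mul, Nat.cast_mul] at h1 ⊢
  calc -((n : ℤ) * N * R.poleX v) = (n : ℤ) * (-((N : ℤ) * R.poleX v + D v) + D v) := by ring
    _ ≤ (n : ℤ) * (v.ord s + D v) :=
      mul_le_mul_of_nonneg_left (add_le_add_left h1 (D v)) (Int.natCast_nonneg n)
    _ = _ := by ring

/-- The reductions of a twist by a kernel divisor are reductions of untwisted functions. -/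
theorem KerForm.spFibre_twist_le {G : Gluing R} (hG : G.order ≤ 1)
    (hf : KerForm R (p ^ e) D f) {N : ℕ} (hN : G.bound ≤ N) :
    R.spFibre (R.twistSp D N) ≤ R.spFibre (R.polarSp N) := by
  haveI := R.isAlgClosed_residue
  rintro y ⟨s, hs, rfl⟩
  set n := p ^ e with hn
  have hn0 : n ≠ 0 := pow_ne_zero _ (Nat.Prime.ne_zero Fact.out)
  have hpow : R.red s ^ n ∈ R.spFibre (R.polarSp (n * N)) :=
    ⟨s ^ n * ⟨f, hf.mem⟩, hf.pow_mul_mem_polarSp hs, by
      rw [map_mul, map_pow, hf.red_eq, mul_one]⟩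
  have hy : R.red s ∈ R.polarFibre N := by
    rw [R.mem_polarFibre_iff_ord]
    intro i v
    refine or_iff_not_imp_left.2 fun h0 => ?_
    have h1 := ((R.mem_polarFibre_iff_ord.1 (R.spFibre_polar_le _ hpow)) i v).resolve_left
      (pow_ne_zero n h0)
    rw [Pi.pow_apply, ord_pow, Nat.cast_mul, mul_assoc, ← mul_neg] at h1
    exact le_of_mul_le_mul_left h1 (by exact_mod_cast Nat.pos_of_ne_zero hn0)
  refine mem_spFibre_of_matched hG hN hy fun b b' hbb' => ?_
  have h1 := G.matched _ _ hpow b b' hbb'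
  rw [bval_pow (G.mem_of_polarFibre hy b), bval_pow (G.mem_of_polarFibre hy b')] at h1
  rw [← sub_eq_zero]
  have h2 : (bval (b : Σ i, Place k (Fb i)) (R.red s)
      - bval (b' : Σ i, Place k (Fb i)) (R.red s)) ^ n = 0 := by
    rw [hn, sub_pow_char_pow, ← hn, h1, sub_self]
  exact pow_eq_zero_iff hn0 |>.1 h2

omit [∀ i, IsFunctionFieldOne k (Fb i)] in
theorem finrank_spFibre_polar_eq (R : MultiReduction A F k Fb) : ∃ N₀ : ℕ, ∀ N, N₀ ≤ N →
    ∀ D : Divisor K F, Divisor.degree D = 0 →
      (Module.finrank k (R.spFibre (R.twistSp D N)) : ℤ) =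
        (N * xDeg R : ℕ) + 1 - (genusFF K F : ℤ) :=
  ⟨R.exists_finrank_spFibre_twist.choose, fun N hN D hD =>
    R.exists_finrank_spFibre_twist.choose_spec D hD N hN⟩

/-- Degrees large enough for all purposes. -/
structure Large (G : Gluing R) (n m : ℕ) : Prop where
  bound_le : G.bound ≤ m
  pos : 1 ≤ m
  deg_le : 2 * (genusFF K F : ℤ) ≤ (m * xDeg R : ℕ)
  rr : ∀ N, m ≤ N → ∀ D : Divisor K F, Divisor.degree D = 0 →
    (Module.finrank k (R.spFibre (R.twistSp D N)) : ℤ) =
      (N * xDeg R : ℕ) + 1 - (genusFF K F : ℤ)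
  twist_eq : ∀ N, m ≤ N → ∀ (D : Divisor K F) (f : F), KerForm R n D f →
    R.spFibre (R.twistSp D N) = R.spFibre (R.polarSp N)
  succ : ∀ N, m ≤ N → R.spFibre (R.polarSp (N + 1)) ≤
    R.spFibre (R.polarSp N) ⊔
      (R.spFibre (R.polarSp N)).map (LinearMap.mulLeft k (xTuple R))

omit [Fact p.Prime] [CharP k p] in
/-- Descent of the degree. -/
theorem mem_spFibre_of_mul_pow {G : Gluing R} {a N j : ℕ} (hN : G.bound ≤ N) {t : ∀ i, Fb i}
    (ht : t ∈ R.spFibre (R.polarSp a))
    (htx : t * xTuple R ^ j ∈ R.spFibre (R.polarSp (N + j))) :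
    t ∈ R.spFibre (R.polarSp N) := by
  haveI := R.isAlgClosed_residue
  refine G.saturated N a hN t ht ?_
  rw [R.mem_polarFibre_iff_ord]
  intro i v
  refine or_iff_not_imp_left.2 fun h0 => ?_
  have h1 := (R.mem_polarFibre_iff_ord.1 (R.spFibre_polar_le _ ht) i v).resolve_left h0
  have hx := pow_ne_zero j (R.xb_ne_zero i)
  have h2 := (R.mem_polarFibre_iff_ord.1 (R.spFibre_polar_le _ htx) i v).resolve_left
    (mul_ne_zero h0 hx)
  rw [Pi.mul_apply, Pi.pow_apply, v.ord_mul h0 hx, ord_pow] at h2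
  rcases le_or_gt 0 (v.ord (R.xb i)) with hx0 | hx0
  · rw [max_eq_right (by omega), mul_zero, neg_zero] at h1 ⊢
    exact h1
  · rw [max_eq_left (by omega)] at h2 ⊢
    push_cast at h2
    linarith

omit [Fact p.Prime] [CharP k p] in
theorem mulLeft_xTuple_injective : Function.Injective (LinearMap.mulLeft k (xTuple R)) :=
  fun _ _ h => funext fun i => mul_left_cancel₀ (R.xb_ne_zero i) (congrFun h i)

variable (p e) in
theorem exists_large {G : Gluing R} (hG : G.order ≤ 1) (L : ℕ) :
    ∃ m, L ≤ m ∧ Large G (p ^ e) m := by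
  obtain ⟨N₁, hN₁⟩ := finrank_spFibre_polar_eq R
  set B₀ := max (max N₁ G.bound) (max L (2 * genusFF K F)) + 1 with hB₀
  have hN₁' : N₁ < B₀ := by omega
  have hbound : G.bound < B₀ := by omega
  have hd : 1 ≤ xDeg R := by
    obtain ⟨i⟩ := R.nonempty
    exact le_trans (R.degree_pos i)
      (Finset.single_le_sum (f := fun i => Module.finrank k⟮R.xb i⟯ (Fb i))
        (fun _ _ => Nat.zero_le _) (Finset.mem_univ i))
  refine ⟨B₀, by omega, hbound.le, by omega, ?_, fun N hN => hN₁ N (by omega), ?_, fun N hN => ?_⟩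
  · have : B₀ ≤ B₀ * xDeg R := Nat.le_mul_of_pos_right _ hd
    omega
  · intro N hN D f hf
    haveI := R.finiteDimensional_spFibre_polar N
    refine Submodule.eq_of_le_of_finrank_le (hf.spFibre_twist_le hG (by omega)) ?_
    have h1 := hN₁ N (by omega) D hf.degree_zero
    have h2 := hN₁ N (by omega) 0 (map_zero _)
    rw [R.twistSp_zero] at h2
    omega
  · set W := R.spFibre (R.polarSp N)
    set W' := W.map (LinearMap.mulLeft k (xTuple R))
    set W₀ := R.spFibre (R.polarSp (N - 1))
    haveI := R.finiteDimensional_spFibre_polar N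
    haveI := R.finiteDimensional_spFibre_polar (N - 1)
    haveI := R.finiteDimensional_spFibre_polar (N + 1)
    haveI : FiniteDimensional k W' := inferInstance
    have hle : W ⊔ W' ≤ R.spFibre (R.polarSp (N + 1)) := by
      refine sup_le (R.spFibre_polar_mono (Nat.le_succ N)) ?_
      rintro _ ⟨y, hy, rfl⟩
      rw [add_comm]
      exact R.mul_mem_spFibre_polar R.xb_mem_spFibre_polar hy
    have hinf : W ⊓ W' ≤ W₀.map (LinearMap.mulLeft k (xTuple R)) := by
      rintro _ ⟨hy', y, hy, rfl⟩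
      refine ⟨y, mem_spFibre_of_mul_pow (G := G) (a := N) (j := 1) (N := N - 1) (by omega) hy ?_, rfl⟩
      rw [pow_one, mul_comm, Nat.sub_add_cancel (by omega)]
      exact hy'
    refine (Submodule.eq_of_le_of_finrank_le hle ?_).ge
    have h1 := Submodule.finrank_sup_add_finrank_inf_eq W W'
    have h2 : Module.finrank k W' = Module.finrank k W :=
      ((W.equivMapOfInjective _ mulLeft_xTuple_injective).finrank_eq).symm
    have h3 := Submodule.finrank_mono hinf
    rw [← (W₀.equivMapOfInjective _ mulLeft_xTuple_injective).finrank_eq] at h3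
    have e0 := hN₁ N (by omega) 0 (map_zero _)
    have e1 := hN₁ (N + 1) (by omega) 0 (map_zero _)
    have e2 := hN₁ (N - 1) (by omega) 0 (map_zero _)
    rw [R.twistSp_zero] at e0 e1 e2
    change (Module.finrank k W : ℤ) = _ at e0
    change (Module.finrank k W₀ : ℤ) = _ at e2
    obtain ⟨N', rfl⟩ : ∃ N', N = N' + 1 := ⟨N - 1, by omega⟩
    simp only [Nat.add_sub_cancel, add_mul, Nat.cast_add, one_mul] at e0 e1 e2
    omega

namespace Large

variable {G : Gluing R} {n m : ℕ} (hm : Large G n m)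

include hm

omit [Fact p.Prime] [CharP k p] in
theorem spFibre_add_le {N : ℕ} (hN : m ≤ N) : ∀ j,
    R.spFibre (R.polarSp (N + j)) ≤ R.spFibre (R.polarSp j) * R.spFibre (R.polarSp N) := by
  intro j
  induction j with
  | zero =>
    intro y hy
    rw [← one_mul y]
    exact Submodule.mul_mem_mul (R.one_mem_spFibre_polar 0) hy
  | succ j ih =>
    refine (hm.succ (N + j) (by omega)).trans (sup_le (ih.trans ?_) ?_)
    · exact mul_le_mul' (R.spFibre_polar_mono (Nat.le_succ j)) le_rfl
    · rintro _ ⟨y, hy, rfl⟩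
      change xTuple R * y ∈ _
      refine Submodule.mul_induction_on (ih hy) (fun a ha b hb => ?_) (fun a b ha hb => ?_)
      · rw [← mul_assoc]
        refine Submodule.mul_mem_mul ?_ hb
        rw [add_comm]
        exact R.mul_mem_spFibre_polar R.xb_mem_spFibre_polar ha
      · rw [mul_add]; exact add_mem ha hb

omit [Fact p.Prime] [CharP k p] in
/-- The special fibres are generated in degree `N`. -/
theorem spFibre_two_mul {N : ℕ} (hN : m ≤ N) :
    R.spFibre (R.polarSp (N + N)) = R.spFibre (R.polarSp N) * R.spFibre (R.polarSp N) :=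
  le_antisymm (hm.spFibre_add_le hN N)
    (Submodule.mul_le.2 fun _ ha _ hb => R.mul_mem_spFibre_polar ha hb)

omit [Fact p.Prime] [CharP k p] in
/-- Products of twists by kernel divisors fill the twist by the sum. -/
theorem twistSp_mul {D E : Divisor K F} {f g : F} (hD : KerForm R n D f) (hE : KerForm R n E g)
    {N : ℕ} (hN : m ≤ N) : R.twistSp D N * R.twistSp E N = R.twistSp (D + E) (N + N) := by
  haveI := R.finiteDimensional_twistSp (D + E) (N + N)
  refine eq_of_spFibre_le (R := R)
    (Submodule.mul_le.2 fun a ha b hb => R.mul_mem_twistSp ha hb) ?_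
  rw [hm.twist_eq _ (by omega) _ _ (hD.add hE), hm.spFibre_two_mul hN, Submodule.mul_le]
  intro a ha b hb
  rw [← hm.twist_eq _ hN _ _ hD] at ha
  rw [← hm.twist_eq _ hN _ _ hE] at hb
  exact R.mul_mem_spFibre (fun s hs t ht => Submodule.mul_mem_mul hs ht) ha hb

omit [Fact p.Prime] [CharP k p] in
/-- Lifts of `1` in the twists by kernel divisors. -/
theorem exists_lift_one {D : Divisor K F} {f : F} (hD : KerForm R n D f) {N : ℕ} (hN : m ≤ N) :
    ∃ c : R.integers, (c : F) ∈ R.twistSp D N ∧ R.red c = 1 := by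
  have h := R.one_mem_spFibre_polar N
  rw [← hm.twist_eq _ hN _ _ hD] at h
  exact h

end Large

end Fermat.Agent.OrdinaryDatum

end
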