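/-
Coefficient functionals of a reduction: fixed bases of integral lattices.
-/
import Fermat.Agent.OrdinaryDatum.KernelFibre
import Mathlib.LinearAlgebra.Dual.Lemmas
import Mathlib.LinearAlgebra.Matrix.ToLin

set_option autoImplicit false

noncomputable section

namespace Fermat.Agent.OrdinaryDatum

open AlgebraicCurve Fermat.Agent.Curve Fermat.Agent.Bad
open Fermat.Agent.Bad.MultiReduction

/-- A jointly injective family of functionals contains the coordinates of a basis. -/
theorem exists_dual_family {k V κ : Type*} [Field k] [AddCommGroup V] [Module k V]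
    [FiniteDimensional k V] (L : κ → V →ₗ[k] k)
    (hL : ∀ v, (∀ j, L j v = 0) → v = 0) :
    ∃ (J : Fin (Module.finrank k V) → κ) (φ : Fin (Module.finrank k V) → V),
      (∀ a b, L (J a) (φ b) = if a = b then 1 else 0) ∧
      ∀ v, v = ∑ a, L (J a) v • φ a := by
  classical
  obtain ⟨κ', em, -, hsp, hli⟩ := exists_linearIndependent' k L
  haveI : Finite κ' := hli.finite
  haveI : Fintype κ' := Fintype.ofFinite κ'
  let T : V →ₗ[k] (κ' → k) := LinearMap.pi fun a => L (em a)
  have hinj : Function.Injective T := by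
    rw [injective_iff_map_eq_zero]
    intro v hv
    refine hL v fun j => ?_
    have hmem : L j ∈ Submodule.span k (Set.range (L ∘ em)) := hsp ▸ Submodule.subset_span ⟨j, rfl⟩
    obtain ⟨c, hc⟩ := (Submodule.mem_span_range_iff_exists_fun k).1 hmem
    rw [← hc, LinearMap.sum_apply]
    exact Finset.sum_eq_zero fun a _ => by
      rw [LinearMap.smul_apply]
      have : L (em a) v = 0 := congrFun hv a
      simp [this]
  have hcard : Fintype.card κ' = Module.finrank k V := by
    refine le_antisymm ?_ ?_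
    · have := hli.fintype_card_le_finrank
      rwa [Subspace.dual_finrank_eq] at this
    · have := LinearMap.finrank_le_finrank_of_injective hinj
      rwa [Module.finrank_pi] at this
  let ec : Fin (Module.finrank k V) ≃ κ' := (finCongr hcard.symm).trans (Fintype.equivFin κ').symm
  let Te : V ≃ₗ[k] (κ' → k) := LinearEquiv.ofBijective T
    ⟨hinj, (LinearMap.injective_iff_surjective_of_finrank_eq_finrank
      (by rw [Module.finrank_pi, hcard])).1 hinj⟩
  have hTe : ∀ v a, Te v a = L (em a) v := fun v a => rfl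
  refine ⟨em ∘ ec, fun b => Te.symm (Pi.single (ec b) 1), fun a b => ?_, fun v => ?_⟩
  · rw [Function.comp_apply, ← hTe, LinearEquiv.apply_symm_apply, Pi.single_apply]
    simp only [ec.apply_eq_iff_eq]
  · apply Te.injective
    funext a
    simp only [map_sum, map_smul, LinearEquiv.apply_symm_apply, Finset.sum_apply, Pi.smul_apply,
      Pi.single_apply, Function.comp_apply]
    rw [Finset.sum_eq_single (ec.symm a)]
    · simp [hTe]
    · intro b _ hb
      rw [if_neg (fun h => hb (by rw [h, Equiv.symm_apply_apply])), smul_zero]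
    · simp

universe uK uF uι uk uFb uG

variable {K : Type uK} [Field K] {A : ValuationSubring K}
  {F : Type uF} [Field F] [Algebra K F] {ι : Type uι} [Fintype ι]
  {k : Type uk} [Field k] {Fb : ι → Type uFb} [∀ i, Field (Fb i)] [∀ i, Algebra k (Fb i)]
  [IsFunctionFieldOne K F]

/-- Coefficient functionals computing the reduction (expansions at cusps). -/
structure Coeffs {R : MultiReduction A F k Fb} {Γ : Type uG} [Group Γ]
    [MulSemiringAction Γ K] (I : InertialAction R Γ) where
  /-- the indices -/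
  Idx : Type
  /-- the functionals -/
  coef : Idx → F →ₗ[K] K
  coef_gal : ∀ (g : Γ) (j : Idx) (f : F),
    coef j (SemilinearAut.toRingAut (I.gal g) f) = g • coef j f
  coef_mem : ∀ {N : ℕ} {f : F}, f ∈ R.integers → f ∈ R.polarSp N → ∀ j, coef j f ∈ A
  red_eq_zero : ∀ {N : ℕ} {f : F} (hf : f ∈ R.integers), f ∈ R.polarSp N →
    (∀ j, coef j f ∈ A.nonunits) → R.red ⟨f, hf⟩ = 0
  exists_fixed_lift : ∀ c : k, ∃ a : A, R.π a = c ∧ ∀ g : Γ, g • (a : K) = (a : K)

variable {R : MultiReduction A F k Fb}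

variable (R) in
theorem π_eq_zero_iff_nonunits (a : A) : R.π a = 0 ↔ (a : K) ∈ A.nonunits := by
  rw [R.π_eq_zero_iff_mem, ValuationSubring.coe_mem_nonunits_iff]

variable (R) in
theorem π_eq_zero_of_mem {x : K} (hx : x ∈ A.nonunits) :
    ∃ h : x ∈ A, R.π ⟨x, h⟩ = 0 :=
  ⟨A.nonunits_subset hx, (π_eq_zero_iff_nonunits R ⟨x, A.nonunits_subset hx⟩).2 hx⟩

/-- Integral combinations of a family reducing to generators. -/
theorem exists_integral_combination {U : Submodule K F} [FiniteDimensional K U] {κ : Type*}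
    (T : κ → R.integers) (hT : ∀ a, (T a : F) ∈ U)
    (hspan : R.spFibre U ≤ Submodule.span k (Set.range fun a => R.red (T a)))
    {f : R.integers} (hf : (f : F) ∈ U) :
    ∃ (s : Finset κ) (c : κ → A), (f : F) = ∑ a ∈ s, (c a : K) • (T a : F) := by
  classical
  obtain ⟨κ', em, hem, hsp, hli⟩ := exists_linearIndependent' k (fun a => R.red (T a))
  haveI := R.finiteDimensional_spFibre U
  have hfin : Set.range ((fun a => R.red (T a)) ∘ em) ⊆ (R.spFibre U : Set (∀ i, Fb i)) := by
    rintro _ ⟨a, rfl⟩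
    exact ⟨T (em a), hT _, rfl⟩
  have hliU : LinearIndependent k (fun a => (⟨R.red (T (em a)), hfin ⟨a, rfl⟩⟩ : R.spFibre U)) :=
    LinearIndependent.of_comp (R.spFibre U).subtype hli
  haveI : Finite κ' := hliU.finite
  haveI : Fintype κ' := Fintype.ofFinite κ'
  have hK : LinearIndependent K (fun a => ((T (em a) : R.integers) : F)) :=
    R.linearIndependent_lift (e := T ∘ em) hli
  have hfull : Submodule.span K (Set.range fun a => ((T (em a) : R.integers) : F)) = U := by
    refine Submodule.eq_of_le_of_finrank_le (Submodule.span_le.2 ?_) ?_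
    · rintro _ ⟨a, rfl⟩; exact hT _
    · rw [finrank_span_eq_card hK, ← R.finrank_spFibre U, ← finrank_span_eq_card hli]
      haveI : FiniteDimensional k (Submodule.span k (Set.range ((fun a => R.red (T a)) ∘ em))) :=
        FiniteDimensional.span_of_finite k (Set.finite_range _)
      exact Submodule.finrank_mono (hspan.trans hsp.ge)
  obtain ⟨c, hc⟩ := (Submodule.mem_span_range_iff_exists_fun K).1 (hfull.ge hf)
  have hcA := R.coeff_mem_of_sum_mem (e := T ∘ em) hli Finset.univ c (hc ▸ f.2)
  let c' : κ → A := fun a => if h : ∃ b, em b = a then ⟨c h.choose, hcA _ (Finset.mem_univ _)⟩ else 0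
  refine ⟨Finset.univ.image em, c', ?_⟩
  rw [Finset.sum_image (fun a _ b _ h => hem h), ← hc]
  refine Finset.sum_congr rfl fun b _ => ?_
  have h : ∃ b', em b' = em b := ⟨b, rfl⟩
  simp only [c', dif_pos h, hem h.choose_spec]

variable {Γ : Type uG} [Group Γ] [MulSemiringAction Γ K] {I : InertialAction R Γ} (E : Coeffs I)

theorem InertialAction.toRingAut_smul (I : InertialAction R Γ) (g : Γ) (a : K) (f : F) :
    SemilinearAut.toRingAut (I.gal g) (a • f) =
      (g • a) • SemilinearAut.toRingAut (I.gal g) f := by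
  rw [Algebra.smul_def, Algebra.smul_def, map_mul, SemilinearAut.commutes, I.baseAut_gal]

namespace Coeffs

include E

theorem coef_nonunits_of_red_eq_zero {N : ℕ} {f : F} (hf : f ∈ R.integers)
    (hfN : f ∈ R.polarSp N) (h0 : R.red ⟨f, hf⟩ = 0)
    (j : E.Idx) : E.coef j f ∈ A.nonunits := by
  obtain ⟨a, ha, g, hfg⟩ := R.exists_eq_smul_of_red_eq_zero h0
  change f = _ at hfg
  rcases eq_or_ne (a : K) 0 with ha0 | ha0
  · rw [hfg, ha0, zero_smul, map_zero]
    exact (ValuationSubring.mem_nonunits_iff A).2 (by rw [map_zero]; exact zero_lt_one)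
  have hgN : (g : F) ∈ R.polarSp N := by
    have h1 := Submodule.smul_mem (R.polarSp N) (a : K)⁻¹ hfN
    rwa [hfg, smul_smul, inv_mul_cancel₀ ha0, one_smul] at h1
  rw [hfg, map_smul, smul_eq_mul,
    show (a : K) * E.coef j (g : F) = ((a * ⟨_, E.coef_mem g.2 hgN j⟩ : A) : K) from rfl,
    ValuationSubring.coe_mem_nonunits_iff]
  exact Ideal.mul_mem_right _ _ ha

/-- coordinates on a space of functions given by coefficient functionals -/
structure Chart (W : Submodule K F) where
  /-- a degree bound -/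
  N : ℕ
  le : W ≤ R.polarSp N
  /-- the dimension -/
  d : ℕ
  /-- the indices -/
  J : Fin d → E.Idx
  /-- the dual basis -/
  e : Fin d → R.integers
  mem : ∀ a, (e a : F) ∈ W
  dual : ∀ a b, E.coef (J a) (e b : F) = if a = b then 1 else 0
  repr : ∀ f ∈ W, f = ∑ a, E.coef (J a) f • (e a : F)

/-- The dual basis for indices detecting the reduction. -/
theorem exists_dual_of_small (W : Submodule K F) [FiniteDimensional K W] {d : ℕ}
    (hd : Module.finrank K W = d) (J : Fin d → E.Idx)
    (hsmall : ∀ f : R.integers, (f : F) ∈ W →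
      (∀ a, E.coef (J a) (f : F) ∈ A.nonunits) → R.red f = 0) :
    ∃ e : Fin d → R.integers, (∀ a, (e a : F) ∈ W) ∧
      (∀ a b, E.coef (J a) (e b : F) = if a = b then 1 else 0) ∧
      ∀ f ∈ W, f = ∑ a, E.coef (J a) f • (e a : F) := by
  classical
  let T : W →ₗ[K] (Fin d → K) := LinearMap.pi fun a => (E.coef (J a)).comp W.subtype
  have hTinj : Function.Injective T := by
    rw [injective_iff_map_eq_zero]
    intro f hf
    by_contra hne
    obtain ⟨c, hc, hcne⟩ := R.exists_scale_integers (f : F) (fun h => hne (Subtype.ext h))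
    refine hcne (hsmall ⟨_, hc⟩ (W.smul_mem c f.2) fun a => ?_)
    have h1 : E.coef (J a) (f : F) = 0 := congrFun hf a
    rw [show E.coef (J a) (c • (f : F)) = ((0 : A) : K) by simp [h1],
      ValuationSubring.coe_mem_nonunits_iff]
    exact Ideal.zero_mem _
  have hTsurj : Function.Surjective T :=
    (LinearMap.injective_iff_surjective_of_finrank_eq_finrank
      (show Module.finrank K W = Module.finrank K (Fin d → K) by
        rw [Module.finrank_fin_fun, hd])).1 hTinj
  choose ε hε using fun b => hTsurj (Pi.single b 1)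
  have hεint : ∀ b, (ε b : F) ∈ R.integers := by
    intro b
    have hne : (ε b : F) ≠ 0 := by
      intro h
      have h1 := congrFun (hε b) b
      rw [show ε b = 0 from Subtype.ext h, map_zero, Pi.single_eq_same] at h1
      exact zero_ne_one h1
    obtain ⟨c, hc, hcne⟩ := R.exists_scale_integers _ hne
    have hcoef : ∀ a, E.coef (J a) (c • (ε b : F)) = c * (Pi.single b 1 : Fin d → K) a := by
      intro a
      rw [map_smul, smul_eq_mul, ← congrFun (hε b) a]
      rfl
    have hcu : c ∉ A.nonunits := fun hcm => hcne (hsmall ⟨_, hc⟩ (W.smul_mem c (ε b).2) fun a => by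
      show E.coef (J a) (c • (ε b : F)) ∈ A.nonunits
      rw [hcoef, Pi.single_apply]
      split_ifs
      · rwa [mul_one]
      · rw [mul_zero, show (0 : K) = ((0 : A) : K) from rfl,
          ValuationSubring.coe_mem_nonunits_iff]
        exact Ideal.zero_mem _)
    have hc0 : c ≠ 0 := fun h => hcne (by
      rw [show (⟨c • (ε b : F), hc⟩ : R.integers) = 0 from Subtype.ext (by simp [h]), map_zero])
    have hinv : c⁻¹ ∈ A := by
      rw [← A.valuation_le_one_iff, map_inv₀]
      exact inv_le_one_of_one_le₀ (not_lt.1 fun h => hcu ((ValuationSubring.mem_nonunits_iff A).2 h))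
    have := R.smul_mem_integers ⟨c⁻¹, hinv⟩ hc
    rwa [smul_smul, inv_mul_cancel₀ hc0, one_smul] at this
  refine ⟨fun b => ⟨_, hεint b⟩, fun b => (ε b).2, fun a b => ?_, fun f hf => ?_⟩
  · exact (congrFun (hε b) a).trans (Pi.single_apply _ _ _)
  · have key : (⟨f, hf⟩ : W) = ∑ a, E.coef (J a) f • ε a := hTinj (by
      rw [map_sum]
      simp only [map_smul, hε]
      exact pi_eq_sum_univ' _)
    have := congrArg Subtype.val key
    rw [AddSubmonoidClass.coe_finsetSum] at this
    exact this


theorem exists_chart (W : Submodule K F) [FiniteDimensional K W] {N : ℕ}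
    (hW : W ≤ R.polarSp N) : Nonempty (E.Chart W) := by
  classical
  obtain ⟨d, hd⟩ : ∃ d, Module.finrank K W = d := ⟨_, rfl⟩
  obtain ⟨e, heW, he, hspan⟩ := hd ▸ R.exists_lattice_basis W
  have hsumW : ∀ c : Fin d → A, ∑ a, (c a : K) • ((e a : R.integers) : F) ∈ R.polarSp N :=
    fun c => Submodule.sum_mem _ fun a _ => Submodule.smul_mem _ _ (hW (heW a))
  have hπadd : ∀ j, ∀ c : Fin d → A, R.π ⟨E.coef j (∑ a, (c a : K) • ((e a : R.integers) : F)),
      E.coef_mem (sum_mem fun a _ => R.smul_mem_integers (c a) (e a).2) (hsumW c) j⟩ =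
        ∑ a, R.π (c a) * R.π ⟨_, E.coef_mem (e a).2 (hW (heW a)) j⟩ := by
    intro j c
    simp only [← map_mul, ← map_sum]
    congr 1
    apply Subtype.ext
    simp [map_sum, map_smul]
  let L : E.Idx → (Fin d → k) →ₗ[k] k := fun j =>
    ∑ a, (R.π ⟨_, E.coef_mem (e a).2 (hW (heW a)) j⟩) • LinearMap.proj a
  have hL : ∀ v, (∀ j, L j v = 0) → v = 0 := by
    intro v hv
    choose c hc using fun a => R.π_surjective (v a)
    have hmem : ∑ a, (c a : K) • ((e a : R.integers) : F) ∈ R.integers :=
      sum_mem fun a _ => R.smul_mem_integers (c a) (e a).2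
    have h0 := E.red_eq_zero hmem (hsumW c) fun j => by
      refine (π_eq_zero_iff_nonunits R ⟨_, E.coef_mem hmem (hsumW c) j⟩).1 ?_
      rw [hπadd j c, ← hv j]
      simp [L, hc, mul_comm]
    rw [R.red_sum_smul Finset.univ c e hmem] at h0
    funext a
    rw [← hc a]
    exact linearIndependent_iff'.1 he Finset.univ _ h0 a (Finset.mem_univ a)
  obtain ⟨J', φ, hdual, hrepr⟩ := exists_dual_family L hL
  let ed : Fin d ≃ Fin (Module.finrank k (Fin d → k)) := finCongr (by simp)
  let J : Fin d → E.Idx := fun a => J' (ed a)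
  -- integral functions with small coefficients have zero reduction
  have hsmall : ∀ f : R.integers, (f : F) ∈ W →
      (∀ a, E.coef (J a) (f : F) ∈ A.nonunits) → R.red f = 0 := by
    intro f hf hcoef
    obtain ⟨c, hc⟩ := hspan f hf
    have hmem : ∑ a, (c a : K) • ((e a : R.integers) : F) ∈ R.integers := hc ▸ f.2
    have hz : (fun a => R.π (c a)) = 0 := by
      rw [hrepr (fun a => R.π (c a))]
      refine Finset.sum_eq_zero fun a' _ => ?_
      obtain ⟨a, rfl⟩ := ed.surjective a'
      have h := hπadd (J a) c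
      simp only [← hc] at h
      rw [(π_eq_zero_iff_nonunits R ⟨_, E.coef_mem f.2 (hW hf) _⟩).2 (hcoef a)] at h
      have : L (J a) (fun a => R.π (c a)) = 0 := by
        rw [h]; simp [L, mul_comm]
      rw [this, zero_smul]
    rw [show f = ⟨_, hmem⟩ from Subtype.ext hc, R.red_sum_smul Finset.univ c e hmem]
    exact Finset.sum_eq_zero fun a _ => by rw [congrFun hz a, Pi.zero_apply, zero_smul]
  obtain ⟨e', hmem', hdual', hrepr'⟩ := E.exists_dual_of_small W hd J hsmall
  exact ⟨⟨N, hW, d, J, e', hmem', hdual', hrepr'⟩⟩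

namespace Chart

variable {E} {W : Submodule K F} (C : E.Chart W)

theorem coef_sum (c : Fin C.d → K) (a : Fin C.d) :
    E.coef (C.J a) (∑ b, c b • (C.e b : F)) = c a := by
  simp [map_sum, map_smul, C.dual]

theorem mem_integers {f : F} (hf : f ∈ W) (h : ∀ a, E.coef (C.J a) f ∈ A) : f ∈ R.integers := by
  rw [C.repr f hf]
  exact sum_mem fun a _ => R.smul_mem_integers ⟨_, h a⟩ (C.e a).2

theorem red_eq {f : F} (hf : f ∈ W) (hfi : f ∈ R.integers) :
    R.red ⟨f, hfi⟩ = ∑ a, R.π ⟨_, E.coef_mem hfi (C.le hf) (C.J a)⟩ • R.red (C.e a) := by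
  have h := C.repr f hf
  have hmem : ∑ a, ((⟨_, E.coef_mem hfi (C.le hf) (C.J a)⟩ : A) : K) • ((C.e a : R.integers) : F) ∈
      R.integers := h ▸ hfi
  rw [show (⟨f, hfi⟩ : R.integers) = ⟨_, hmem⟩ from Subtype.ext h, R.red_sum_smul]

theorem red_eq_zero {f : F} (hf : f ∈ W) (hfi : f ∈ R.integers)
    (h : ∀ a, E.coef (C.J a) f ∈ A.nonunits) : R.red ⟨f, hfi⟩ = 0 := by
  rw [C.red_eq hf hfi]
  exact Finset.sum_eq_zero fun a _ => by rw [(π_eq_zero_iff_nonunits R ⟨_, _⟩).2 (h a), zero_smul]

theorem finrank_eq : Module.finrank K W = C.d := by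
  let T : W →ₗ[K] (Fin C.d → K) := LinearMap.pi fun a => (E.coef (C.J a)).comp W.subtype
  have hinj : Function.Injective T := by
    rw [injective_iff_map_eq_zero]
    intro f hf
    apply Subtype.ext
    rw [C.repr (f : F) f.2]
    exact Finset.sum_eq_zero fun a _ => by
      rw [show E.coef (C.J a) (f : F) = 0 from congrFun hf a, zero_smul]
  have hsurj : Function.Surjective T := fun c =>
    ⟨⟨∑ b, c b • (C.e b : F), Submodule.sum_mem _ fun b _ => Submodule.smul_mem _ _ (C.mem b)⟩,
      funext fun a => C.coef_sum c a⟩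
  exact ((LinearEquiv.ofBijective T ⟨hinj, hsurj⟩).finrank_eq).trans (Module.finrank_fin_fun K)

/-- Reduction is computed by the chart on every space with smaller special fibre. -/
theorem red_eq_of_le {U : Submodule K F} {N : ℕ} (hU : U ≤ R.polarSp N)
    (hle : R.spFibre U ≤ R.spFibre W) {f : R.integers} (hf : (f : F) ∈ U) :
    R.red f = ∑ a, R.π ⟨_, E.coef_mem f.2 (hU hf) (C.J a)⟩ • R.red (C.e a) := by
  obtain ⟨h, hh, heq⟩ := hle ⟨f, hf, rfl⟩
  rw [← heq, show h = (⟨(h : F), h.2⟩ : R.integers) from rfl, C.red_eq hh h.2]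
  refine Finset.sum_congr rfl fun a _ => ?_
  congr 1
  rw [← sub_eq_zero, ← map_sub, π_eq_zero_iff_nonunits]
  have := E.coef_nonunits_of_red_eq_zero (N := max C.N N) (h - f).2
    (Submodule.sub_mem _ (R.polarSp_mono (le_max_left _ _) (C.le hh))
      (R.polarSp_mono (le_max_right _ _) (hU hf)))
    (by rw [show (⟨((h - f : R.integers) : F), (h - f).2⟩ : R.integers) = h - f from rfl, map_sub,
      heq, sub_self]) (C.J a)
  simpa [map_sub] using this

/-- The dual basis on a space with the same special fibre. -/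
theorem exists_transfer {U : Submodule K F} [FiniteDimensional K U] [FiniteDimensional K W]
    {N : ℕ} (hU : U ≤ R.polarSp N) (hfib : R.spFibre U = R.spFibre W) :
    ∃ b : Fin C.d → R.integers, (∀ a, (b a : F) ∈ U) ∧
      (∀ a a', E.coef (C.J a) (b a' : F) = if a = a' then 1 else 0) ∧
      (∀ f ∈ U, f = ∑ a, E.coef (C.J a) f • (b a : F)) ∧ ∀ a, R.red (b a) = R.red (C.e a) := by
  classical
  have hd : Module.finrank K U = C.d := by
    rw [← R.finrank_spFibre U, hfib, R.finrank_spFibre W, C.finrank_eq]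
  obtain ⟨b, hb, hdual, hrepr⟩ := E.exists_dual_of_small U hd C.J fun f hf hcoef => by
    rw [C.red_eq_of_le hU hfib.le hf]
    exact Finset.sum_eq_zero fun a _ => by
      rw [(π_eq_zero_iff_nonunits R ⟨_, _⟩).2 (hcoef a), zero_smul]
  refine ⟨b, hb, hdual, hrepr, fun a => ?_⟩
  rw [C.red_eq_of_le hU hfib.le (hb a), Finset.sum_eq_single a]
  · rw [show (⟨_, E.coef_mem (b a).2 (hU (hb a)) (C.J a)⟩ : A) = 1 from
      Subtype.ext (by simp [hdual a a]), map_one, one_smul]
  · intro a' _ ha'
    rw [show (⟨_, E.coef_mem (b a).2 (hU (hb a)) (C.J a')⟩ : A) = 0 from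
      Subtype.ext (by simp [hdual a' a, ha']), map_zero, zero_smul]
  · simp

/-- The dual basis of a stable space is fixed. -/
theorem gal_e (hW : ∀ g, ∀ f ∈ W, SemilinearAut.toRingAut (I.gal g) f ∈ W) (g : Γ)
    (a : Fin C.d) : SemilinearAut.toRingAut (I.gal g) (C.e a : F) = (C.e a : F) := by
  rw [C.repr _ (hW g _ (C.mem a))]
  conv_rhs => rw [C.repr _ (C.mem a)]
  refine Finset.sum_congr rfl fun b _ => ?_
  rw [E.coef_gal, C.dual]
  split_ifs <;> simp

/-- Fixed lifts in a stable space. -/
theorem exists_fixed_lift (C : E.Chart W) (hW : ∀ g, ∀ f ∈ W, SemilinearAut.toRingAut (I.gal g) f ∈ W)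
    {y : ∀ i, Fb i} (hy : y ∈ R.spFibre W) :
    ∃ f : R.integers, (f : F) ∈ W ∧ R.red f = y ∧
      ∀ g, SemilinearAut.toRingAut (I.gal g) (f : F) = (f : F) := by
  obtain ⟨h, hhW, rfl⟩ := hy
  choose c hc hcfix using fun a => E.exists_fixed_lift (R.π ⟨_, E.coef_mem h.2 (C.le hhW) (C.J a)⟩)
  have hmem : ∑ a, (c a : K) • ((C.e a : R.integers) : F) ∈ R.integers :=
    sum_mem fun a _ => R.smul_mem_integers (c a) (C.e a).2
  have hW' : ∑ a, (c a : K) • ((C.e a : R.integers) : F) ∈ W :=
    Submodule.sum_mem _ fun a _ => Submodule.smul_mem _ _ (C.mem a)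
  refine ⟨⟨_, hmem⟩, hW', ?_, fun g => ?_⟩
  · rw [R.red_sum_smul Finset.univ c C.e hmem, C.red_eq hhW h.2]
    exact Finset.sum_congr rfl fun a _ => by rw [hc]
  · show SemilinearAut.toRingAut (I.gal g) (∑ a, (c a : K) • ((C.e a : R.integers) : F)) = _
    rw [map_sum]
    exact Finset.sum_congr rfl fun a _ => by
      rw [I.toRingAut_smul, hcfix, C.gal_e hW]

end Chart

end Coeffs

/-- Twists by fixed divisors are stable. -/
theorem InertialAction.toRingAut_mem_polarSp (I : InertialAction R Γ) (g : Γ) {N : ℕ} {f : F}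
    (hf : f ∈ R.polarSp N) : SemilinearAut.toRingAut (I.gal g) f ∈ R.polarSp N := by
  rcases eq_or_ne f 0 with rfl | hf0
  · simp
  refine (RedAux.mem_L_iff (by simpa using hf0)).2 fun v => ?_
  have h := SemilinearAut.ord_smul (I.gal g) ((I.gal g)⁻¹ • v) f
  have hx := SemilinearAut.ord_smul (I.gal g) ((I.gal g)⁻¹ • v) R.x
  rw [smul_inv_smul, SemilinearAut.smul_def] at h hx
  rw [I.smul_x] at hx
  have h1 := (RedAux.mem_L_iff hf0).1 hf ((I.gal g)⁻¹ • v)
  simp only [Finsupp.smul_apply, MultiReduction.poleX, poleDivisor_apply] at h1 ⊢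
  rw [h, hx]
  exact h1

end Fermat.Agent.OrdinaryDatum

end
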