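/-
Fixed points of the curve lifting given smooth points of the special fibre, and a line in the
special fibre cut out by evaluation at such points.
-/
import Fermat.Agent.OrdinaryDatum.KernelCoeff
import Fermat.Agent.Bad.BGlueConn
import Fermat.Agent.AbelianVariety.CurveRiemann

set_option autoImplicit false

noncomputable section

namespace Fermat.Agent.OrdinaryDatum

open AlgebraicCurve IntermediateField Fermat.Agent.Curve Fermat.Agent.Bad
open Fermat.Agent.Bad.MultiReduction

universe uK uF uι uk uFb uG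

variable {K : Type uK} [Field K] {A : ValuationSubring K}
  {F : Type uF} [Field F] [Algebra K F] {ι : Type uι} [Fintype ι]
  {k : Type uk} [Field k] {Fb : ι → Type uFb} [∀ i, Field (Fb i)] [∀ i, Algebra k (Fb i)]
  [IsAlgClosed K] [IsFunctionFieldOne K F] [∀ i, IsFunctionFieldOne k (Fb i)]
  {R : MultiReduction A F k Fb} {G : Gluing R}

omit [IsAlgClosed K] in
theorem mem_place_of_mem_polarSp {P : Place K F} (hP : 0 ≤ P.ord R.x) {N : ℕ} {f : F}
    (hf : f ∈ R.polarSp N) : f ∈ P.toValuationSubring := by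
  rcases eq_or_ne f 0 with rfl | h0
  · exact zero_mem _
  refine mem_of_ord_nonneg P ?_
  have h := (RedAux.mem_L_iff h0).1 hf P
  simp only [Finsupp.smul_apply, MultiReduction.poleX, poleDivisor_apply] at h
  rw [max_eq_right (by omega), smul_zero, neg_zero] at h
  exact h

/-- A smooth finite point of the special fibre. -/
structure IsGoodBranch (G : Gluing R) (Q : Σ i, Place k (Fb i)) : Prop where
  notMem : Q ∉ G.B
  regular : 0 ≤ Q.2.ord (R.xb Q.1)

/-- Tuples with prescribed zeros and one exact order. -/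
theorem exists_tuple (E : ∀ i, Divisor k (Fb i)) (v : ∀ i, Place k (Fb i)) :
    ∃ N₀ : ℕ, ∀ N, N₀ ≤ N → ∃ t : ∀ i, Fb i,
      ∀ i, t i ∈ riemannRochSpace (N • poleDivisor k (R.xb i) - E i) ∧ t i ≠ 0 ∧
        (v i).ord (t i) = E i (v i) - (N • poleDivisor k (R.xb i)) (v i) := by
  haveI := R.isAlgClosed_residue
  choose c hc using fun i => Bad.exists_exact_pole (k := k) (E := Fb i)
  refine ⟨∑ i, (max (c i + Divisor.degree (E i)) 0).toNat, fun N hN => ?_⟩
  have hdeg : ∀ i, c i ≤ Divisor.degree (N • poleDivisor k (R.xb i) - E i) := by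
    intro i
    rw [map_sub, map_nsmul, degree_poleDivisor (t := R.xb i) (R.x_transcendental i), nsmul_eq_mul]
    have h2 : (max (c i + Divisor.degree (E i)) 0).toNat ≤ N :=
      le_trans (Finset.single_le_sum (f := fun i => (max (c i + Divisor.degree (E i)) 0).toNat)
        (fun _ _ => Nat.zero_le _) (Finset.mem_univ i)) hN
    have h3 : (N : ℤ) ≤ (N : ℤ) * (Module.finrank k⟮R.xb i⟯ (Fb i) : ℤ) :=
      le_mul_of_one_le_right (Int.natCast_nonneg N)
        (by exact_mod_cast (R.degree_pos i : 0 < Module.finrank k⟮R.xb i⟯ (Fb i)))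
    omega
  choose t ht ht0 htord using fun i => hc i _ (v i) (hdeg i)
  exact ⟨t, fun i => ⟨ht i, ht0 i, by rw [htord i, Finsupp.sub_apply]; ring⟩⟩

omit [IsAlgClosed K] in
theorem mem_polarFibre_of_mem_sub {E : ∀ i, Divisor k (Fb i)} (hE : ∀ i, 0 ≤ E i) {N : ℕ}
    {t : ∀ i, Fb i} (ht : ∀ i, t i ∈ riemannRochSpace (N • poleDivisor k (R.xb i) - E i)) :
    t ∈ R.polarFibre N :=
  R.mem_polarFibre.2 fun i => RedAux.L_mono (sub_le_self _ (hE i)) (ht i)

open Classical in
/-- The sum of a finite set of branches on one component. -/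
def branchDiv (S : Finset (Σ i, Place k (Fb i))) (i : ι) : Divisor k (Fb i) :=
  ∑ w ∈ S.preimage (Sigma.mk i) sigma_mk_injective.injOn, Finsupp.single w 1

omit [∀ i, IsFunctionFieldOne k (Fb i)] in
theorem branchDiv_apply (S : Finset (Σ i, Place k (Fb i))) (i : ι) (w : Place k (Fb i))
    [Decidable ((⟨i, w⟩ : Σ i, Place k (Fb i)) ∈ S)] :
    branchDiv S i w = if (⟨i, w⟩ : Σ i, Place k (Fb i)) ∈ S then 1 else 0 := by
  classical
  rw [branchDiv, Finsupp.finset_sum_apply]
  simp only [Finsupp.single_apply, Finset.sum_ite_eq', Finset.mem_preimage]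

omit [∀ i, IsFunctionFieldOne k (Fb i)] in
theorem branchDiv_nonneg (S : Finset (Σ i, Place k (Fb i))) (i : ι) : 0 ≤ branchDiv S i :=
  Finsupp.le_def.2 fun w => by
    classical
    rw [branchDiv_apply]
    split_ifs <;> simp

variable {Γ : Type uG} [Group Γ] [MulSemiringAction Γ K] {I : InertialAction R Γ}

variable (I) in
/-- `P` is an equivariant lift of the branch `Q`. -/
structure Lifts (P : Place K F) (Q : Σ i, Place k (Fb i)) : Prop where
  regular : 0 ≤ P.ord R.x
  integral : ∀ (N : ℕ) (f : R.integers), (f : F) ∈ R.polarSp N → placeValue P (f : F) ∈ A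
  red_eq : ∀ (N : ℕ) (f : R.integers) (hf : (f : F) ∈ R.polarSp N) (h : placeValue P (f : F) ∈ A),
    R.π ⟨_, h⟩ = bval Q (R.red f)
  equivariant : ∀ (g : Γ) (N : ℕ) (f : F), f ∈ R.polarSp N →
    placeValue P (SemilinearAut.toRingAut (I.gal g) f) = g • placeValue P f

theorem placeValue_gal (g : Γ) {P : Place K F} {f : F} (hf : f ∈ P.toValuationSubring) :
    placeValue (I.gal g • P) (SemilinearAut.toRingAut (I.gal g) f) = g • placeValue P f := by
  set c := placeValue P f
  have hmem : SemilinearAut.toRingAut (I.gal g) f ∈ (I.gal g • P).toValuationSubring := by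
    refine mem_of_ord_nonneg _ ?_
    rw [← SemilinearAut.smul_def, SemilinearAut.ord_smul]
    exact ord_nonneg_of_mem P hf
  have hc : algebraMap K F (g • c) ∈ (I.gal g • P).toValuationSubring := Place.algebraMap_mem' _ _
  have h0 : placeValue P (f - algebraMap K F c) = 0 := by
    rw [placeValue_sub P hf (P.algebraMap_mem' c), placeValue_algebraMap, sub_self]
  rw [placeValue_eq_zero_iff P (sub_mem hf (P.algebraMap_mem' c))] at h0
  have h1 : placeValue (I.gal g • P) (SemilinearAut.toRingAut (I.gal g) f - algebraMap K F (g • c))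
      = 0 := by
    rw [placeValue_eq_zero_iff _ (sub_mem hmem hc), ← I.baseAut_gal, ← SemilinearAut.commutes,
      ← map_sub, ← SemilinearAut.smul_def, SemilinearAut.ord_smul]
    exact h0.imp (fun h => by rw [h]; exact map_zero _) id
  rw [placeValue_sub _ hmem hc, placeValue_algebraMap, sub_eq_zero] at h1
  exact h1

/-- The value at a lift of an integral function killed by reduction. -/
theorem placeValue_mem_nonunits {P : Place K F} {Q : Σ i, Place k (Fb i)} (hP : Lifts I P Q)
    {N : ℕ} {f : R.integers} (hf : (f : F) ∈ R.polarSp N) (h : bval Q (R.red f) = 0) :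
    placeValue P (f : F) ∈ A.nonunits :=
  (π_eq_zero_iff_nonunits R ⟨_, hP.integral N f hf⟩).1 ((hP.red_eq N f hf _).trans h)

variable {p : ℕ} [Fact p.Prime] {n m : ℕ} (E : Coeffs I)

omit [Fact p.Prime] in
/-- A fixed integral function with a simple zero at `Q` and non-zero reductions. -/
theorem exists_fixed_param (hG : G.order ≤ 1) {Q : Σ i, Place k (Fb i)} (hQ : IsGoodBranch G Q)
    (E : Coeffs I) :
    ∃ (M : ℕ) (t : R.integers), (t : F) ∈ R.polarSp M ∧
      (∀ g, SemilinearAut.toRingAut (I.gal g) (t : F) = (t : F)) ∧ (∀ i, R.red t i ≠ 0) ∧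
      Q.2.ord (R.red t Q.1) = 1 ∧ ∀ b ∈ G.B, VanishesAt b 1 (R.red t) := by
  classical
  obtain ⟨i₀, v₀⟩ := Q
  haveI := R.isAlgClosed_residue
  let v : ∀ i, Place k (Fb i) := fun i =>
    if h : i₀ = i then h ▸ v₀ else Classical.choice RedAux.nonempty_place
  have hv : v i₀ = v₀ := by simp [v]
  set S := insert (⟨i₀, v₀⟩ : Σ i, Place k (Fb i)) G.B with hS
  obtain ⟨N₀, hN₀⟩ := exists_tuple (R := R) (branchDiv S) v
  set M := max N₀ G.bound
  obtain ⟨t, ht⟩ := hN₀ M (le_max_left _ _)
  have htp : t ∈ R.polarFibre M := mem_polarFibre_of_mem_sub (branchDiv_nonneg S) fun i => (ht i).1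
  have hvan : ∀ b ∈ G.B, VanishesAt b 1 t := by
    rintro ⟨i, w⟩ hb
    refine Or.inr ?_
    have h := (RedAux.mem_L_iff (ht i).2.1).1 (ht i).1 w
    have hx : 0 ≤ w.ord (R.xb i) := G.regular _ hb
    rw [Finsupp.sub_apply, Finsupp.smul_apply, poleDivisor_apply, max_eq_right (by omega),
      smul_zero, branchDiv_apply, if_pos (Finset.mem_insert_of_mem hb)] at h
    simpa using h
  haveI := R.finiteDimensional_polarSp M
  obtain ⟨C⟩ := E.exists_chart (R.polarSp M) le_rfl
  obtain ⟨T, hTm, hTr, hTfix⟩ := C.exists_fixed_lift (fun g f hf => I.toRingAut_mem_polarSp g hf)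
    (G.conductor M (le_max_right _ _) t htp fun b hb => VanishesAt.mono hG (hvan b hb))
  refine ⟨M, T, hTm, hTfix, fun i => by rw [hTr]; exact (ht i).2.1, ?_,
    fun b hb => by rw [hTr]; exact hvan b hb⟩
  have h := (ht i₀).2.2
  have hx : 0 ≤ v₀.ord (R.xb i₀) := hQ.regular
  rw [hv, branchDiv_apply, if_pos (Finset.mem_insert_self _ _), Finsupp.smul_apply,
    poleDivisor_apply, max_eq_right (by omega), smul_zero, sub_zero] at h
  rw [hTr]
  exact h

omit [Fact p.Prime] in
/-- Some zero of a parameter at `Q` lifts `Q`. -/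
theorem exists_zero_over {Q : Σ i, Place k (Fb i)} (hQ : IsGoodBranch G Q) {M : ℕ}
    {t : R.integers} (htM : (t : F) ∈ R.polarSp M) (ht : ∀ i, R.red t i ≠ 0)
    (htQ : 0 < Q.2.ord (R.red t Q.1)) :
    ∃ P : Place K F, 0 < P.ord (t : F) ∧ 0 ≤ P.ord R.x ∧
      (∀ (N : ℕ) (f : R.integers), (f : F) ∈ R.polarSp N → placeValue P (f : F) ∈ A) ∧
      ∀ (N : ℕ) (f : R.integers), (f : F) ∈ R.polarSp N → ∀ h : placeValue P (f : F) ∈ A,
        R.π ⟨_, h⟩ = bval Q (R.red f) := by
  classical
  haveI := R.isAlgClosed_residue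
  by_contra hcon
  push Not at hcon
  obtain ⟨i₁⟩ := R.nonempty
  have ht0 : (t : F) ≠ 0 := R.red_ne_zero_of_ne (ht i₁)
  have hreg : ∀ (N : ℕ) (f : R.integers), (f : F) ∈ R.polarSp N →
      R.red f Q.1 ∈ Q.2.toValuationSubring := fun N f hf =>
    R.mem_of_mem_polarFibre (R.spFibre_polar_le N ⟨f, hf, rfl⟩) hQ.regular
  -- a function vanishing at `P` and not at `Q`
  have hfac : ∀ P : Place K F, 0 < P.ord (t : F) → 0 ≤ P.ord R.x →
      ∃ (N : ℕ) (h : R.integers), (h : F) ∈ R.polarSp N ∧ bval Q (R.red h) ≠ 0 ∧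
        placeValue P (h : F) = 0 := by
    intro P hPt hPx
    by_cases hint : ∀ (N : ℕ) (f : R.integers), (f : F) ∈ R.polarSp N → placeValue P (f : F) ∈ A
    · obtain ⟨N, f, hf, hA, hne⟩ := hcon P hPt hPx hint
      let c : R.integers := ⟨algebraMap K F (placeValue P (f : F)),
        R.algebraMap_mem_integers ⟨_, hA⟩⟩
      refine ⟨N, f - c, sub_mem hf (BGlue.algebraMap_mem_polarSp_iff_aux R _ N), ?_, ?_⟩
      · have hc : R.red c = algebraMap k (∀ i, Fb i) (R.π ⟨_, hA⟩) := R.red_algebraMap ⟨_, hA⟩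
        rw [map_sub, hc]
        show placeValue Q.2 (R.red f Q.1 - algebraMap k (Fb Q.1) (R.π ⟨_, hA⟩)) ≠ 0
        rw [placeValue_sub _ (hreg N f hf) (Place.algebraMap_mem' _ _), placeValue_algebraMap,
          sub_ne_zero]
        exact fun h => hne h.symm
      · show placeValue P ((f : F) - algebraMap K F (placeValue P (f : F))) = 0
        rw [placeValue_sub P (mem_place_of_mem_polarSp hPx hf) (P.algebraMap_mem' _),
          placeValue_algebraMap, sub_self]
    · push Not at hint
      obtain ⟨N, f, hf, hA⟩ := hint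
      set c := placeValue P (f : F) with hc
      have hc0 : c ≠ 0 := fun h => hA (h ▸ A.zero_mem)
      have hinv : c⁻¹ ∈ A := (A.mem_or_inv_mem c).resolve_left hA
      have hπ : R.π ⟨c⁻¹, hinv⟩ = 0 := by
        refine (π_eq_zero_iff_nonunits R ⟨_, hinv⟩).2 ((ValuationSubring.mem_nonunits_iff A).2 ?_)
        rw [map_inv₀, inv_lt_one₀ (zero_lt_iff.2 ((map_ne_zero _).2 hc0))]
        exact not_le.1 fun h => hA ((A.valuation_le_one_iff c).1 h)
      refine ⟨N, ⟨_, R.smul_mem_integers ⟨c⁻¹, hinv⟩ f.2⟩ - 1,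
        sub_mem (Submodule.smul_mem _ _ hf) (R.one_mem_polarSp N), ?_, ?_⟩
      · rw [map_sub, R.red_smul ⟨c⁻¹, hinv⟩ f, hπ, zero_smul, map_one, zero_sub]
        show placeValue Q.2 (-(1 : Fb Q.1)) ≠ 0
        rw [← map_one (algebraMap k (Fb Q.1)), ← map_neg, placeValue_algebraMap]
        simp
      · show placeValue P (c⁻¹ • (f : F) - 1) = 0
        have hfP := mem_place_of_mem_polarSp hPx hf
        rw [placeValue_sub P (by rw [Algebra.smul_def]; exact mul_mem (P.algebraMap_mem' _) hfP)
          (one_mem _), placeValue_smul P _ hfP, placeValue_one, ← hc, inv_mul_cancel₀ hc0, sub_self]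
  -- the finitely many zeros
  set Z := (divisorOf K (t : F)).support.filter fun P => 0 < P.ord (t : F) ∧ 0 ≤ P.ord R.x
  have hfac' : ∀ P : Z, ∃ (N : ℕ) (h : R.integers), (h : F) ∈ R.polarSp N ∧
      bval Q (R.red h) ≠ 0 ∧ placeValue (P : Place K F) (h : F) = 0 := fun P =>
    hfac P (Finset.mem_filter.1 P.2).2.1 (Finset.mem_filter.1 P.2).2.2
  choose N h hN hQh hPh using hfac'
  set mlt : Z → ℕ := fun P => ((P : Place K F).ord (t : F)).toNat with hmlt
  set H : R.integers := ∏ P, h P ^ mlt P with hH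
  set NH := ∑ P, mlt P * N P
  have hHN : ∀ s : Finset Z, ((∏ P ∈ s, h P ^ mlt P : R.integers) : F) ∈
      R.polarSp (∑ P ∈ s, mlt P * N P) := by
    intro s
    induction s using Finset.induction_on with
    | empty => simpa using R.one_mem_polarSp 0
    | @insert P s hPs ih =>
      rw [Finset.prod_insert hPs, Finset.sum_insert hPs, MulMemClass.coe_mul,
        SubmonoidClass.coe_pow]
      exact R.mul_mem_polarSp (R.pow_mem_polarSp (hN P) _) ih
  have hHQ : bval Q (R.red H) ≠ 0 := by
    have : ∀ s : Finset Z, bval Q (R.red (∏ P ∈ s, h P ^ mlt P)) ≠ 0 := by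
      intro s
      induction s using Finset.induction_on with
      | empty => rw [Finset.prod_empty, map_one, bval_one]; exact one_ne_zero
      | @insert P s hPs ih =>
        rw [Finset.prod_insert hPs, map_mul, map_pow, bval_mul (pow_mem (hreg _ _ (hN P)) _)
          (hreg _ _ (hHN s)), bval_pow (hreg _ _ (hN P))]
        exact mul_ne_zero (pow_ne_zero _ (hQh P)) ih
    exact this _
  have hHne : ∀ (i : ι), i = Q.1 → R.red H i ≠ 0 := by
    rintro i rfl h0
    exact hHQ (by rw [bval, h0, placeValue_zero])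
  have hH0 : (H : F) ≠ 0 := R.red_ne_zero_of_ne (hHne Q.1 rfl)
  -- the quotient
  have hinv : ((t : F))⁻¹ ∈ R.integers := R.inv_mem_integers ht
  set s : R.integers := H * ⟨_, hinv⟩ with hs
  set L := NH + (divisorOf K (t : F)).support.sup fun P => (P.ord (t : F)).natAbs
  have hsL : (s : F) ∈ R.polarSp L := by
    have hs0 : (s : F) ≠ 0 := mul_ne_zero hH0 (inv_ne_zero ht0)
    refine (RedAux.mem_L_iff hs0).2 fun P => ?_
    have h1 := (RedAux.mem_L_iff hH0).1 (hHN Finset.univ) P
    simp only [Finsupp.smul_apply, MultiReduction.poleX, poleDivisor_apply, nsmul_eq_mul] at h1 ⊢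
    change _ ≤ P.ord ((H : F) * (t : F)⁻¹)
    rw [P.ord_mul hH0 (inv_ne_zero ht0), P.ord_inv]
    rcases le_or_gt 0 (P.ord R.x) with hx | hx
    · rw [max_eq_right (by omega), mul_zero, neg_zero] at h1 ⊢
      rcases le_or_gt (P.ord (t : F)) 0 with htP | htP
      · change 0 ≤ P.ord (H : F) at h1
        omega
      · have hPZ : P ∈ Z := Finset.mem_filter.2
          ⟨Finsupp.mem_support_iff.2 (by rw [divisorOf_apply]; omega), htP, hx⟩
        have hle : (mlt ⟨P, hPZ⟩ : ℤ) ≤ P.ord (H : F) := by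
          rw [hH, ← Finset.mul_prod_erase Finset.univ (fun P => h P ^ mlt P)
            (Finset.mem_univ ⟨P, hPZ⟩)]
          rw [MulMemClass.coe_mul, SubmonoidClass.coe_pow]
          have hP0 : ((h ⟨P, hPZ⟩ : R.integers) : F) ≠ 0 :=
            R.red_ne_zero_of_ne (i := Q.1) fun h0 => hQh ⟨P, hPZ⟩ (by
              rw [bval, h0, placeValue_zero])
          have hrest : ((∏ P ∈ Finset.univ.erase ⟨P, hPZ⟩, h P ^ mlt P : R.integers) : F) ≠ 0 := by
            intro h0
            apply hH0
            rw [hH, ← Finset.mul_prod_erase Finset.univ (fun P => h P ^ mlt P)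
              (Finset.mem_univ ⟨P, hPZ⟩), MulMemClass.coe_mul, h0, mul_zero]
          rw [P.ord_mul (pow_ne_zero _ hP0) hrest, ord_pow]
          have hge := ord_nonneg_of_mem P (mem_place_of_mem_polarSp hx
            (hHN (Finset.univ.erase ⟨P, hPZ⟩)))
          have h1' := ((placeValue_eq_zero_iff P (mem_place_of_mem_polarSp hx (hN ⟨P, hPZ⟩))).1
            (hPh ⟨P, hPZ⟩)).resolve_left hP0
          have := mul_le_mul_of_nonneg_left h1' (Int.natCast_nonneg (mlt ⟨P, hPZ⟩))
          omega
        simp only [hmlt] at hle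
        omega
    · have hsup : P.ord (t : F) ≤ (((divisorOf K (t : F)).support.sup
          fun P => (P.ord (t : F)).natAbs : ℕ) : ℤ) := by
        rcases eq_or_ne (P.ord (t : F)) 0 with h0 | h0
        · omega
        · have := Finset.le_sup (f := fun P => (P.ord (t : F)).natAbs)
            (Finsupp.mem_support_iff.2 (by rwa [divisorOf_apply]) : P ∈ (divisorOf K (t : F)).support)
          omega
      rw [max_eq_left (by omega)] at h1 ⊢
      simp only [L, Nat.cast_add]
      nlinarith
  have hts : R.red H = R.red t * R.red s := by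
    rw [← map_mul]
    refine congrArg _ (Subtype.ext ?_)
    show (H : F) = (t : F) * ((H : F) * (t : F)⁻¹)
    field_simp
  refine hHQ ?_
  rw [hts, bval_mul (hreg _ _ htM) (hreg _ _ hsL)]
  rw [show bval Q (R.red t) = 0 from
    (placeValue_eq_zero_iff Q.2 (hreg _ _ htM)).2 (Or.inr (by omega)), zero_mul]

/-- The zero over `Q` is unique, in the sense of values. -/
theorem placeValue_eq_of_over (hG : G.order ≤ 1) (hm : Large G n m) {Q : Σ i, Place k (Fb i)}
    (hQ : IsGoodBranch G Q) {M : ℕ} {t : R.integers} (htM : (t : F) ∈ R.polarSp M)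
    (ht : ∀ i, R.red t i ≠ 0) (htQ : Q.2.ord (R.red t Q.1) = 1)
    {P P' : Place K F} (hPt : 0 < P.ord (t : F)) (hP't : 0 < P'.ord (t : F))
    (hPx : 0 ≤ P.ord R.x) (hP'x : 0 ≤ P'.ord R.x)
    (hP : ∀ (N : ℕ) (f : R.integers), (f : F) ∈ R.polarSp N →
      ∃ h : placeValue P (f : F) ∈ A, R.π ⟨_, h⟩ = bval Q (R.red f))
    (hP' : ∀ (N : ℕ) (f : R.integers), (f : F) ∈ R.polarSp N →
      ∃ h : placeValue P' (f : F) ∈ A, R.π ⟨_, h⟩ = bval Q (R.red f)) :
    ∀ (N : ℕ) (f : F), f ∈ R.polarSp N → placeValue P' f = placeValue P f := by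
  classical
  haveI := R.isAlgClosed_residue
  obtain ⟨i₀, v₀⟩ := Q
  set Q : Σ i, Place k (Fb i) := ⟨i₀, v₀⟩ with hQdef
  -- the auxiliary function `η`
  set T := R.red t i₀ with hT
  have hT0 : T ≠ 0 := ht i₀
  set S : Finset (Place k (Fb i₀)) := ((divisorOf k T).support ∪
    G.B.preimage (fun w => (⟨i₀, w⟩ : Σ i, Place k (Fb i)))
      (sigma_mk_injective (β := fun i => Place k (Fb i))).injOn).erase v₀ with hSdef
  let E₀ : Divisor k (Fb i₀) := ∑ w ∈ S, Finsupp.single w (((w.ord T).natAbs : ℤ) + 1)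
  have hE₀ : ∀ w, E₀ w = if w ∈ S then ((w.ord T).natAbs : ℤ) + 1 else 0 := fun w => by
    simp only [E₀, Finsupp.finset_sum_apply, Finsupp.single_apply, Finset.sum_ite_eq']
  have hE₀0 : 0 ≤ E₀ := Finsupp.le_def.2 fun w => by
    rw [hE₀, Finsupp.zero_apply]; split_ifs <;> positivity
  obtain ⟨c, hc⟩ := Bad.exists_exact_pole (k := k) (E := Fb i₀)
  set Nη := max G.bound (max (c + Divisor.degree E₀) 0).toNat with hNη
  obtain ⟨η₀, hη₀, hη₀0, hη₀Q⟩ := hc (Nη • poleDivisor k (R.xb i₀) - E₀) v₀ (by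
    rw [map_sub, map_nsmul, degree_poleDivisor (t := R.xb i₀) (R.x_transcendental i₀),
      nsmul_eq_mul]
    have h3 : (Nη : ℤ) ≤ (Nη : ℤ) * (Module.finrank k⟮R.xb i₀⟯ (Fb i₀) : ℤ) :=
      le_mul_of_one_le_right (Int.natCast_nonneg _)
        (by exact_mod_cast (R.degree_pos i₀ : 0 < Module.finrank k⟮R.xb i₀⟯ (Fb i₀)))
    omega)
  have hQx : 0 ≤ v₀.ord (R.xb i₀) := hQ.regular
  rw [Finsupp.sub_apply, hE₀, if_neg (Finset.notMem_erase _ _), Finsupp.smul_apply,
    poleDivisor_apply, max_eq_right (by omega), smul_zero, sub_zero, neg_zero] at hη₀Q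
  set η : ∀ i, Fb i := Function.update 0 i₀ η₀ with hη
  have hηi : η i₀ = η₀ := Function.update_self ..
  have hηother : ∀ i, i ≠ i₀ → η i = 0 := fun i hi => Function.update_of_ne hi ..
  have hηP : η ∈ R.polarFibre Nη := R.mem_polarFibre.2 fun i => by
    rcases eq_or_ne i i₀ with rfl | hi
    · rw [hηi]; exact RedAux.L_mono (sub_le_self _ hE₀0) hη₀
    · rw [hηother i hi]; exact zero_mem _
  have hord : ∀ w : Place k (Fb i₀), E₀ w ≤ w.ord η₀ + (Nη : ℤ) * max (-(w.ord (R.xb i₀))) 0 := by
    intro w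
    have h := (RedAux.mem_L_iff hη₀0).1 hη₀ w
    rw [Finsupp.sub_apply, Finsupp.smul_apply, poleDivisor_apply, nsmul_eq_mul] at h
    omega
  have hBS : ∀ w, (⟨i₀, w⟩ : Σ i, Place k (Fb i)) ∈ G.B → w ∈ S := fun w hw =>
    Finset.mem_erase.2 ⟨by rintro rfl; exact hQ.notMem hw,
      Finset.mem_union_right _ (Finset.mem_preimage.2 hw)⟩
  have hηB : ∀ b ∈ G.B, VanishesAt b 1 η := by
    rintro ⟨i, w⟩ hb
    rcases eq_or_ne i i₀ with rfl | hi
    · refine Or.inr ?_
      have h := hord w
      rw [hE₀, if_pos (hBS w hb), max_eq_right (by have := G.regular _ hb; simp at this; omega),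
        mul_zero, add_zero] at h
      rw [show η (⟨i, w⟩ : Σ i, Place k (Fb i)).1 = η₀ from hηi]
      show (1 : ℤ) ≤ w.ord η₀
      omega
    · exact Or.inl (hηother i hi)
  obtain ⟨ηl, hηl, hηr⟩ := G.conductor Nη (le_max_left _ _) η hηP
    fun b hb => VanishesAt.mono hG (hηB b hb)
  have hηQ : bval Q η ≠ 0 := by
    show placeValue v₀ (η i₀) ≠ 0
    rw [hηi]
    exact (placeValue_ne_zero_iff v₀ (mem_of_ord_nonneg v₀ hη₀Q.ge)).2 ⟨hη₀0, hη₀Q⟩
  -- the difference of the values
  set δ : F → K := fun f => placeValue P' f - placeValue P f with hδ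
  set v := A.valuation
  have step : ∀ (N : ℕ) (f : R.integers), (f : F) ∈ R.polarSp N →
      ∃ a : A, a ∈ IsLocalRing.maximalIdeal A ∧ ∃ (L : ℕ) (r : R.integers),
        (r : F) ∈ R.polarSp L ∧ v (δ f) ≤ v (a : K) * v (δ r) := by
    intro N f hf
    obtain ⟨hcA, hcπ⟩ := hP N f hf
    set cst : R.integers := ⟨algebraMap K F (placeValue P (f : F)),
      R.algebraMap_mem_integers ⟨_, hcA⟩⟩
    have hfc : ((f - cst : R.integers) : F) ∈ R.polarSp N :=
      sub_mem hf (BGlue.algebraMap_mem_polarSp_iff_aux R _ N)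
    set y := R.red (f - cst)
    have hyP : y ∈ R.polarFibre N := R.spFibre_polar_le N ⟨_, hfc, rfl⟩
    have hyreg : ∀ w : Place k (Fb i₀), 0 ≤ w.ord (R.xb i₀) → y i₀ ∈ w.toValuationSubring :=
      fun w hw => R.mem_of_mem_polarFibre hyP (b := ⟨i₀, w⟩) hw
    have hyQ : y i₀ = 0 ∨ 1 ≤ v₀.ord (y i₀) := by
      refine (placeValue_eq_zero_iff v₀ (hyreg v₀ hQx)).1 ?_
      have hfreg : R.red f i₀ ∈ v₀.toValuationSubring :=
        R.mem_of_mem_polarFibre (R.spFibre_polar_le N ⟨f, hf, rfl⟩) (b := Q) hQx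
      have hcred : R.red cst = algebraMap k (∀ i, Fb i) (R.π ⟨_, hcA⟩) :=
        R.red_algebraMap ⟨_, hcA⟩
      show placeValue v₀ (R.red (f - cst) i₀) = 0
      rw [map_sub, hcred]
      show placeValue v₀ (R.red f i₀ - algebraMap k (Fb i₀) _) = 0
      rw [placeValue_sub v₀ hfreg (v₀.algebraMap_mem' _), placeValue_algebraMap, hcπ, sub_eq_zero]
      rfl
    -- the quotient in the special fibre
    set q : ∀ i, Fb i := fun i => η i * y i * (R.red t i)⁻¹ with hq
    set L₁ := max G.bound (Nη + N + (divisorOf k T).support.sup fun w => (w.ord T).natAbs)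
    have hqord : ∀ w : Place k (Fb i₀), q i₀ = 0 ∨
        (w ∈ S → 0 ≤ w.ord (R.xb i₀) → 1 ≤ w.ord (q i₀)) ∧
        -((L₁ : ℤ) * max (-(w.ord (R.xb i₀))) 0) ≤ w.ord (q i₀) := by
      intro w
      refine or_iff_not_imp_left.2 fun h0 => ?_
      have hy0 : y i₀ ≠ 0 := fun h => h0 (by simp [hq, h])
      have e : w.ord (q i₀) = w.ord η₀ + w.ord (y i₀) - w.ord T := by
        rw [hq]
        simp only [hηi]
        rw [w.ord_mul (mul_ne_zero hη₀0 hy0) (inv_ne_zero hT0), w.ord_mul hη₀0 hy0, w.ord_inv]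
        rfl
      have h1 := hord w
      have h2 := ((R.mem_polarFibre_iff_ord.1 hyP) i₀ w).resolve_left hy0
      have hE := hE₀ w
      rcases le_or_gt 0 (w.ord (R.xb i₀)) with hx | hx
      · rw [max_eq_right (by omega)] at h1 h2 ⊢
        simp only [mul_zero, neg_zero, add_zero] at h1 h2 ⊢
        by_cases hwS : w ∈ S
        · rw [if_pos hwS] at hE
          exact ⟨fun _ _ => by omega, by omega⟩
        · rw [if_neg hwS] at hE
          refine ⟨fun h => absurd h hwS, ?_⟩
          rcases eq_or_ne w v₀ with rfl | hwv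
          · have h3 := hyQ.resolve_left hy0
            have h4 : w.ord T = 1 := htQ
            omega
          · have h4 : w.ord T = 0 := by
              by_contra hne
              exact hwS (Finset.mem_erase.2 ⟨hwv, Finset.mem_union_left _
                (Finsupp.mem_support_iff.2 (by rwa [divisorOf_apply]))⟩)
            omega
      · refine ⟨fun _ h => absurd h (by omega), ?_⟩
        have hsup : w.ord T ≤ (((divisorOf k T).support.sup fun w => (w.ord T).natAbs : ℕ) : ℤ) := by
          rcases eq_or_ne (w.ord T) 0 with h0' | h0'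
          · omega
          · have := Finset.le_sup (f := fun w => (w.ord T).natAbs)
              (Finsupp.mem_support_iff.2 (by rwa [divisorOf_apply]) :
                w ∈ (divisorOf k T).support)
            omega
        rw [max_eq_left (by omega)] at h1 h2 ⊢
        have hL : (Nη : ℤ) + N + ((divisorOf k T).support.sup fun w => (w.ord T).natAbs : ℕ) ≤
            (L₁ : ℤ) := by omega
        have hE0 : 0 ≤ E₀ w := Finsupp.le_def.1 hE₀0 w
        nlinarith
    have hqP : q ∈ R.polarFibre L₁ := R.mem_polarFibre_iff_ord.2 fun i w => by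
      rcases eq_or_ne i i₀ with rfl | hi
      · exact (hqord w).imp_right And.right
      · exact Or.inl (by simp [hq, hηother i hi])
    have hqB : ∀ b ∈ G.B, VanishesAt b 1 q := by
      rintro ⟨i, w⟩ hb
      rcases eq_or_ne i i₀ with rfl | hi
      · exact (hqord w).imp_right fun h => by exact_mod_cast h.1 (hBS w hb) (G.regular _ hb)
      · exact Or.inl (by simp [hq, hηother i hi])
    obtain ⟨sl, hsl, hsr⟩ := G.conductor L₁ (le_max_left _ _) q hqP
      fun b hb => VanishesAt.mono hG (hqB b hb)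
    set D : R.integers := ηl * (f - cst) - t * sl with hD
    have hDred : R.red D = 0 := by
      rw [hD, map_sub, map_mul, map_mul, hηr, hsr]
      funext i
      simp only [hq, Pi.sub_apply, Pi.mul_apply, Pi.zero_apply]
      have := ht i
      field_simp
      exact mul_eq_zero_of_right _ (sub_self _)
    obtain ⟨a, ha, r, hr⟩ := R.exists_eq_smul_of_red_eq_zero hDred
    have hηA := (hP' Nη ηl hηl)
    have hηu : v (placeValue P' (ηl : F)) = 1 := by
      obtain ⟨h, hh⟩ := hηA
      refine le_antisymm ((A.valuation_le_one_iff _).2 h) (not_lt.1 fun hlt => hηQ ?_)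
      rw [← hηr, ← hh, (π_eq_zero_iff_nonunits R ⟨_, h⟩).2 ((ValuationSubring.mem_nonunits_iff A).2 hlt)]
    set L := max (Nη + N) (M + L₁)
    have hDL : (D : F) ∈ R.polarSp L :=
      sub_mem (R.polarSp_mono (le_max_left _ _) (R.mul_mem_polarSp hηl hfc))
        (R.polarSp_mono (le_max_right _ _) (R.mul_mem_polarSp htM hsl))
    have hval : ∀ P₀ : Place K F, 0 < P₀.ord (t : F) → 0 ≤ P₀.ord R.x →
        placeValue P₀ (D : F) = placeValue P₀ (ηl : F) *
          (placeValue P₀ (f : F) - placeValue P (f : F)) := by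
      intro P₀ h₀ h₀x
      have m1 := mem_place_of_mem_polarSp h₀x hηl
      have m2 := mem_place_of_mem_polarSp h₀x hf
      have m3 := mem_place_of_mem_polarSp h₀x htM
      have m4 := mem_place_of_mem_polarSp h₀x hsl
      have ht0 : placeValue P₀ (t : F) = 0 :=
        (placeValue_eq_zero_iff P₀ m3).2 (Or.inr (by omega))
      show placeValue P₀ ((ηl : F) * ((f : F) - algebraMap K F (placeValue P (f : F))) -
        (t : F) * (sl : F)) = _
      rw [placeValue_sub P₀ (mul_mem m1 (sub_mem m2 (P₀.algebraMap_mem' _))) (mul_mem m3 m4),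
        placeValue_mul P₀ m1 (sub_mem m2 (P₀.algebraMap_mem' _)), placeValue_mul P₀ m3 m4, ht0,
        zero_mul, sub_zero, placeValue_sub P₀ m2 (P₀.algebraMap_mem' _), placeValue_algebraMap]
    by_cases ha0 : (a : K) = 0
    · refine ⟨a, ha, 0, 0, Submodule.zero_mem _, ?_⟩
      have h := hval P' hP't hP'x
      rw [hr, ha0, zero_smul, placeValue_zero, eq_comm, mul_eq_zero] at h
      rcases h with h | h
      · rw [h, map_zero] at hηu
        exact absurd hηu zero_ne_one
      · rw [hδ]
        simp only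
        rw [h, map_zero]
        exact zero_le
    · have hrL : (r : F) ∈ R.polarSp L := by
        have := (R.polarSp L).smul_mem ((a : K))⁻¹ hDL
        rwa [hr, smul_smul, inv_mul_cancel₀ ha0, one_smul] at this
      refine ⟨a, ha, L, r, hrL, le_of_eq ?_⟩
      have e' := hval P' hP't hP'x
      have e := hval P hPt hPx
      rw [sub_self, mul_zero, hr, placeValue_smul P _ (mem_place_of_mem_polarSp hPx hrL),
        mul_eq_zero, or_iff_right ha0] at e
      rw [hr, placeValue_smul P' _ (mem_place_of_mem_polarSp hP'x hrL)] at e'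
      have : v (δ f) = v (placeValue P' (ηl : F) * δ f) := by rw [map_mul, hηu, one_mul]
      rw [this, show placeValue P' (ηl : F) * δ f = (a : K) * δ r by
        simp only [hδ]; rw [← e', e, sub_zero], map_mul]
  -- generation
  haveI := R.finiteDimensional_polarSp m
  obtain ⟨e, hem, -, hespan⟩ := R.exists_lattice_basis (R.polarSp m)
  choose a ha L r hr hle using fun j => step m (e j) (hem j)
  have hgen : ∀ (j : ℕ) (Δ : _), (∀ l, v (δ (e l)) ≤ Δ) → ∀ f : R.integers,
      (f : F) ∈ R.polarSp (2 ^ j * m) → v (δ f) ≤ Δ := by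
    intro j Δ hΔ
    have hsmul : ∀ {N : ℕ} (c : A) (g : R.integers), (g : F) ∈ R.polarSp N → v (δ g) ≤ Δ →
        v (δ ((c : K) • (g : F))) ≤ Δ := by
      intro N c g hg h
      have : δ ((c : K) • (g : F)) = (c : K) * δ g := by
        simp only [hδ, placeValue_smul P _ (mem_place_of_mem_polarSp hPx hg),
          placeValue_smul P' _ (mem_place_of_mem_polarSp hP'x hg), mul_sub]
      rw [this, map_mul]
      exact (mul_le_of_le_one_left zero_le ((A.valuation_le_one_iff _).2 c.2)).trans h
    have hsum : ∀ {N : ℕ} {κ : Type} (s : Finset κ) (g : κ → F), (∀ l, g l ∈ R.polarSp N) →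
        (∀ l, v (δ (g l)) ≤ Δ) → v (δ (∑ l ∈ s, g l)) ≤ Δ := by
      intro N κ s g hg h
      induction s using Finset.induction_on with
      | empty => simp [hδ, placeValue_zero]
      | @insert l s hls ih =>
        have m1 := Submodule.sum_mem (R.polarSp N) (fun l' (_ : l' ∈ s) => hg l')
        have : δ (∑ l' ∈ insert l s, g l') = δ (g l) + δ (∑ l' ∈ s, g l') := by
          simp only [hδ, Finset.sum_insert hls,
            placeValue_add P (mem_place_of_mem_polarSp hPx (hg l)) (mem_place_of_mem_polarSp hPx m1),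
            placeValue_add P' (mem_place_of_mem_polarSp hP'x (hg l))
              (mem_place_of_mem_polarSp hP'x m1)]
          ring
        rw [this]
        exact v.map_add_le (h l) ih
    induction j with
    | zero =>
      intro f hf
      rw [pow_zero, one_mul] at hf
      obtain ⟨c, hc⟩ := hespan f hf
      rw [hc]
      exact hsum Finset.univ _ (fun l => Submodule.smul_mem _ _ (hem l))
        fun l => hsmul (c l) (e l) (hem l) (hΔ l)
    | succ j ih =>
      intro f hf
      set N := 2 ^ j * m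
      have hNm : m ≤ N := Nat.le_mul_of_pos_left m (pow_pos (by omega) j)
      have hN2 : 2 ^ (j + 1) * m = N + N := by simp only [N]; ring
      haveI := R.finiteDimensional_polarSp N
      haveI := R.finiteDimensional_polarSp (N + N)
      obtain ⟨e', he', -, hspan'⟩ := R.exists_lattice_basis (R.polarSp N)
      rw [hN2] at hf
      obtain ⟨s, c, hc⟩ := exists_integral_combination (U := R.polarSp (N + N))
        (fun l : Fin _ × Fin _ => e' l.1 * e' l.2)
        (fun l => R.mul_mem_polarSp (he' l.1) (he' l.2)) (by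
          rw [hm.spFibre_two_mul hNm, R.spFibre_eq_span e' he' hspan', Submodule.span_mul_span]
          refine Submodule.span_mono ?_
          rintro _ ⟨_, ⟨l, rfl⟩, _, ⟨l', rfl⟩, rfl⟩
          exact ⟨(l, l'), map_mul R.red _ _⟩) hf
      rw [hc]
      refine hsum s _ (fun l => Submodule.smul_mem _ _ (R.mul_mem_polarSp (he' l.1) (he' l.2)))
        fun l => hsmul (c l) (e' l.1 * e' l.2) (R.mul_mem_polarSp (he' l.1) (he' l.2)) ?_
      have m1 := fun {P₀ : Place K F} (h : 0 ≤ P₀.ord R.x) l => mem_place_of_mem_polarSp h (he' l)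
      have h1 := ih (e' l.1) (he' l.1)
      have h2 := ih (e' l.2) (he' l.2)
      show v (δ ((e' l.1 : F) * (e' l.2 : F))) ≤ Δ
      have : δ ((e' l.1 : F) * (e' l.2 : F)) = placeValue P' (e' l.1 : F) * δ (e' l.2)
          + δ (e' l.1) * placeValue P (e' l.2 : F) := by
        simp only [hδ, placeValue_mul P (m1 hPx _) (m1 hPx _),
          placeValue_mul P' (m1 hP'x _) (m1 hP'x _)]
        ring
      rw [this]
      refine v.map_add_le ?_ ?_ <;> rw [map_mul]
      · exact (mul_le_of_le_one_left zero_le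
          ((A.valuation_le_one_iff _).2 (hP' N _ (he' l.1)).1)).trans h2
      · exact (mul_le_of_le_one_right zero_le
          ((A.valuation_le_one_iff _).2 (hP N _ (he' l.2)).1)).trans h1
  have hle2 : ∀ L' : ℕ, L' ≤ 2 ^ L' * m := fun L' =>
    le_trans (Nat.lt_two_pow_self).le (Nat.le_mul_of_pos_right _ hm.pos)
  have hzero : ∀ l, δ (e l) = 0 := by
    by_contra hne
    push Not at hne
    obtain ⟨l₀, hl₀⟩ := hne
    obtain ⟨lm, -, hmax⟩ := Finset.exists_max_image Finset.univ (fun l => v (δ (e l)))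
      ⟨l₀, Finset.mem_univ l₀⟩
    have hpos : (0 : _) < v (δ (e lm)) :=
      lt_of_lt_of_le (zero_lt_iff.2 ((map_ne_zero v).2 hl₀)) (hmax l₀ (Finset.mem_univ _))
    have h1 := hgen (L lm) _ (fun l => hmax l (Finset.mem_univ l)) (r lm)
      (R.polarSp_mono (hle2 _) (hr lm))
    have hlt : v ((a lm : A) : K) < 1 :=
      (ValuationSubring.mem_nonunits_iff A).1 ((ValuationSubring.coe_mem_nonunits_iff).2 (ha lm))
    exact absurd ((hle lm).trans (mul_le_mul' le_rfl h1))
      (not_le.2 (mul_lt_of_lt_one_left hpos hlt))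
  intro N f hf
  rcases eq_or_ne f 0 with rfl | hf0
  · rw [placeValue_zero, placeValue_zero]
  obtain ⟨c', hc', hne⟩ := R.exists_scale_integers f hf0
  have hc0 : c' ≠ 0 := fun h => hne (by
    rw [show (⟨c' • f, hc'⟩ : R.integers) = 0 from Subtype.ext (by simp [h]), map_zero])
  have h := hgen N 0 (fun l => by rw [hzero l, map_zero]) ⟨_, hc'⟩
    (R.polarSp_mono (hle2 N) (Submodule.smul_mem _ _ hf))
  rw [le_zero_iff, map_eq_zero] at h
  simp only [hδ, placeValue_smul P _ (mem_place_of_mem_polarSp hPx hf),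
    placeValue_smul P' _ (mem_place_of_mem_polarSp hP'x hf), ← mul_sub, mul_eq_zero,
    or_iff_right hc0, sub_eq_zero] at h
  exact h

/-- Every smooth finite point of the special fibre has an equivariant lift. -/
theorem exists_lifts (E : Coeffs I) (hG : G.order ≤ 1) (hm : Large G n m)
    {Q : Σ i, Place k (Fb i)} (hQ : IsGoodBranch G Q) : ∃ P, Lifts I P Q := by
  obtain ⟨M, t, htM, htfix, ht, htQ, -⟩ := exists_fixed_param hG hQ E
  obtain ⟨P, hPt, hPx, hPA, hPπ⟩ := exists_zero_over hQ htM ht (by omega)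
  refine ⟨P, hPx, hPA, hPπ, fun g N f hf => ?_⟩
  set P' := I.gal g • P
  have hP't : 0 < P'.ord (t : F) := by
    have h := SemilinearAut.ord_smul (I.gal g) P (t : F)
    rw [SemilinearAut.smul_def, htfix g] at h
    show 0 < (I.gal g • P).ord (t : F)
    omega
  have hP'x : 0 ≤ P'.ord R.x := by
    have h := SemilinearAut.ord_smul (I.gal g) P R.x
    rw [SemilinearAut.smul_def, I.smul_x g] at h
    show 0 ≤ (I.gal g • P).ord R.x
    omega
  have hP' : ∀ (N : ℕ) (f : R.integers), (f : F) ∈ R.polarSp N →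
      ∃ h : placeValue P' (f : F) ∈ A, R.π ⟨_, h⟩ = bval Q (R.red f) := by
    intro N f hf
    obtain ⟨hi, hred⟩ := I.smul_mem_integers g⁻¹ f.2
    have hpol := I.toRingAut_mem_polarSp g⁻¹ hf
    have heq : placeValue P' (f : F) =
        g • placeValue P (SemilinearAut.toRingAut (I.gal g⁻¹) (f : F)) := by
      rw [← placeValue_gal (I := I) g (mem_place_of_mem_polarSp hPx hpol), map_inv,
        SemilinearAut.toRingAut_inv, RingEquiv.apply_symm_apply]
    have hA := hPA N ⟨_, hi⟩ hpol
    have hπ := hPπ N ⟨_, hi⟩ hpol hA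
    have hgA : g • placeValue P (SemilinearAut.toRingAut (I.gal g⁻¹) (f : F)) ∈ A := by
      rw [← A.valuation_le_one_iff, I.valuation_smul]
      exact (A.valuation_le_one_iff _).2 hA
    refine ⟨heq ▸ hgA, ?_⟩
    -- residual constants are fixed
    obtain ⟨i⟩ := R.nonempty
    have e2 := I.φ_eq g i ⟨algebraMap K F _, (R.mem_V_iff i _).2 hA⟩
    obtain ⟨e2m, e2⟩ := e2
    have e3 : R.φ i ⟨_, (R.mem_V_iff i _).2 hgA⟩ =
        R.φ i ⟨algebraMap K F _, (R.mem_V_iff i _).2 hA⟩ := by
      refine Eq.trans ?_ e2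
      refine congrArg (R.φ i) (Subtype.ext ?_)
      exact ((SemilinearAut.commutes (I.gal g) _).trans
        (congrArg (algebraMap K F) (I.baseAut_gal g _))).symm
    rw [R.φ_algebraMap i ⟨_, hgA⟩, R.φ_algebraMap i ⟨_, hA⟩] at e3
    have e4 := (algebraMap k (Fb i)).injective e3
    rw [hπ, hred] at e4
    rw [← e4]
    exact congrArg R.π (Subtype.ext heq)
  rw [← placeValue_gal (I := I) g (mem_place_of_mem_polarSp hPx hf)]
  exact (placeValue_eq_of_over hG hm hQ htM ht htQ hPt hP't hPx hP'x
    (fun N f hf => ⟨hPA N f hf, hPπ N f hf _⟩) hP' N _ (I.toRingAut_mem_polarSp g hf)).symm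

/-- Evaluations at lifted points cutting out a line of the special fibre. -/
structure Pins (G : Gluing R) (I : InertialAction R Γ) (m : ℕ) where
  /-- the index type -/
  σ : Type
  [fintype : Fintype σ]
  /-- the points -/
  pt : σ → Place K F
  /-- their reductions -/
  res : σ → Σ i, Place k (Fb i)
  good : ∀ q, IsGoodBranch G (res q)
  lifts : ∀ q, Lifts I (pt q) (res q)
  /-- the line -/
  e₀ : ∀ i, Fb i
  e₀_mem : e₀ ∈ R.spFibre (R.polarSp m)
  e₀_ne : ∀ i, e₀ i ≠ 0
  e₀_bval : ∀ q, bval (res q) e₀ = 0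
  line : ∀ y ∈ R.spFibre (R.polarSp m), (∀ q, bval (res q) y = 0) → ∃ c : k, y = c • e₀
  card_lt : Fintype.card σ < Module.finrank k (R.spFibre (R.polarSp m))

attribute [instance] Pins.fintype

theorem exists_pins (E : Coeffs I) (hA : RankLeOne A) (hG : G.order ≤ 1) (hm : Large G n m)
    (hι : Fintype.card ι ≤ 2) : Nonempty (Pins G I m) := by
  classical
  haveI := R.isAlgClosed_residue
  haveI := R.finiteDimensional_spFibre_polar m
  set W := R.spFibre (R.polarSp m)
  have hreg : ∀ (Q : {Q // IsGoodBranch G Q}) (y : W),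
      (y : ∀ i, Fb i) (Q : Σ i, Place k (Fb i)).1 ∈ (Q : Σ i, Place k (Fb i)).2.toValuationSubring :=
    fun Q y => R.mem_of_mem_polarFibre (R.spFibre_polar_le m y.2) Q.2.regular
  let Lf : {Q // IsGoodBranch G Q} → W →ₗ[k] k := fun Q =>
    { toFun := fun y => bval (Q : Σ i, Place k (Fb i)) (y : ∀ i, Fb i)
      map_add' := fun y y' => bval_add (hreg Q y) (hreg Q y')
      map_smul' := fun c y => bval_smul c (hreg Q y) }
  obtain ⟨J, φ, hdual, hrepr⟩ := exists_dual_family Lf fun y hy => by
    apply Subtype.ext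
    funext i
    by_contra hne
    haveI := AbelianVariety.Riemann.infinite_place (k := k) (F := Fb i)
    obtain ⟨w, hw⟩ := Infinite.exists_notMem_finset
      ((divisorOf k ((y : ∀ i, Fb i) i)).support ∪ (poleDivisor k (R.xb i)).support ∪
        G.B.preimage (fun w => (⟨i, w⟩ : Σ i, Place k (Fb i)))
          (sigma_mk_injective (β := fun i => Place k (Fb i))).injOn)
    simp only [Finset.mem_union, not_or, Finsupp.notMem_support_iff, Finset.mem_preimage,
      divisorOf_apply, poleDivisor_apply] at hw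
    have hgood : IsGoodBranch G ⟨i, w⟩ := ⟨hw.2, by
      show 0 ≤ w.ord (R.xb i)
      omega⟩
    have h0 : placeValue w ((y : ∀ i, Fb i) i) = 0 := hy ⟨_, hgood⟩
    rw [placeValue_eq_zero_iff w (hreg ⟨_, hgood⟩ y)] at h0
    have h1 : (1 : ℤ) ≤ w.ord ((y : ∀ i, Fb i) i) := h0.resolve_left hne
    omega
  -- one member of the dual family is non-zero on all components
  obtain ⟨a₀, ha₀⟩ : ∃ a, ∀ i, (φ a : ∀ i, Fb i) i ≠ 0 := by
    by_contra hcon
    push Not at hcon
    choose z hz using hcon
    obtain ⟨i₀⟩ := R.nonempty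
    by_cases hall : ∀ i, i = i₀
    · have h1 := congrArg (fun y : W => (y : ∀ i, Fb i) i₀)
        (hrepr ⟨1, R.one_mem_spFibre_polar m⟩)
      simp only [AddSubmonoidClass.coe_finsetSum, Finset.sum_apply, SetLike.val_smul,
        Pi.smul_apply, Pi.one_apply] at h1
      rw [Finset.sum_eq_zero fun a _ => by
        rw [show (φ a : ∀ i, Fb i) i₀ = 0 from hall (z a) ▸ hz a, smul_zero]] at h1
      exact one_ne_zero h1
    push Not at hall
    obtain ⟨i₁, hi₁⟩ := hall
    have htwo : ∀ i, i = i₀ ∨ i = i₁ := by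
      intro i
      by_contra h
      push Not at h
      have : ({i₀, i₁, i} : Finset ι).card = 3 := by
        rw [Finset.card_insert_of_notMem (by simp [Ne.symm hi₁, Ne.symm h.1]),
          Finset.card_insert_of_notMem (by simp [Ne.symm h.2]), Finset.card_singleton]
      have := Finset.card_le_univ ({i₀, i₁, i} : Finset ι)
      omega
    set s₀ := Finset.univ.filter fun a => z a = i₁
    set u : W := ∑ a ∈ s₀, Lf (J a) ⟨1, R.one_mem_spFibre_polar m⟩ • φ a with hu
    have hu1 : (u : ∀ i, Fb i) i₁ = 0 := by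
      simp only [hu, AddSubmonoidClass.coe_finsetSum, Finset.sum_apply, SetLike.val_smul,
        Pi.smul_apply]
      exact Finset.sum_eq_zero fun a ha => by
        have h := hz a
        rw [(Finset.mem_filter.1 ha).2] at h
        rw [h, smul_zero]
    have hu0 : (u : ∀ i, Fb i) i₀ = 1 := by
      have h1 := congrArg (fun y : W => (y : ∀ i, Fb i) i₀)
        (hrepr ⟨1, R.one_mem_spFibre_polar m⟩)
      simp only [AddSubmonoidClass.coe_finsetSum, Finset.sum_apply, SetLike.val_smul,
        Pi.smul_apply, Pi.one_apply] at h1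
      rw [← Finset.sum_filter_add_sum_filter_not Finset.univ (fun a => z a = i₁)] at h1
      rw [Finset.sum_eq_zero (s := Finset.univ.filter fun a => ¬ z a = i₁) fun a ha => by
        have h := hz a
        rw [(htwo (z a)).resolve_right (Finset.mem_filter.1 ha).2] at h
        rw [h, smul_zero], add_zero] at h1
      simp only [hu, AddSubmonoidClass.coe_finsetSum, Finset.sum_apply, SetLike.val_smul,
        Pi.smul_apply]
      exact h1.symm
    let c : ι → k := fun i => if i = i₀ then 1 else 0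
    have huc : (u : ∀ i, Fb i) = BGlue.constTuple c := by
      funext i
      rcases htwo i with rfl | rfl
      · simp [BGlue.constTuple, c, hu0]
      · simp [BGlue.constTuple, c, hu1, hi₁]
    have := BGlue.constTuple_eq_const hA G (c := c) (N := m) (huc ▸ u.2) i₀ i₁
    simp [c, hi₁] at this
  choose P hP using fun a => exists_lifts E hG hm (J a).2
  refine ⟨{ σ := {a // a ≠ a₀}
            pt := fun q => P q.1
            res := fun q => (J q.1).1
            good := fun q => (J q.1).2
            lifts := fun q => hP q.1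
            e₀ := φ a₀
            e₀_mem := (φ a₀).2
            e₀_ne := ha₀
            e₀_bval := fun q => (hdual q.1 a₀).trans (if_neg q.2)
            line := fun y hy hy0 => ⟨Lf (J a₀) ⟨y, hy⟩, ?_⟩
            card_lt := ?_ }⟩
  · have h := congrArg Subtype.val (hrepr ⟨y, hy⟩)
    rw [AddSubmonoidClass.coe_finsetSum] at h
    rw [Finset.sum_eq_single a₀ (fun a _ ha => by
      rw [show Lf (J a) ⟨y, hy⟩ = 0 from hy0 ⟨a, ha⟩, zero_smul]; rfl) (by simp)] at h
    exact h
  · calc Fintype.card {a // a ≠ a₀} < Fintype.card (Fin (Module.finrank k W)) :=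
          Fintype.card_subtype_lt (x := a₀) (by simp)
      _ = _ := Fintype.card_fin _

end Fermat.Agent.OrdinaryDatum

end
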