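/-
The subspaces of `L(2 m · poleX)` attached to kernel classes, their normalised bases.
-/
import Fermat.Agent.OrdinaryDatum.KernelPoints
import Fermat.Agent.Flat.JacobianSetting

set_option autoImplicit false

noncomputable section

namespace Fermat.Agent.OrdinaryDatum

open AlgebraicCurve IntermediateField Fermat.Agent.Curve Fermat.Agent.Bad
open Fermat.Agent.Bad.MultiReduction

universe uK uF uι uk uFb uG

variable {K : Type uK} [Field K] {A : ValuationSubring K}
  {F : Type uF} [Field F] [Algebra K F] {ι : Type uι} [Fintype ι]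
  {k : Type uk} [Field k] {Fb : ι → Type uFb} [∀ i, Field (Fb i)] [∀ i, Algebra k (Fb i)]
  [IsAlgClosed K] [IsFunctionFieldOne K F] [∀ i, IsFunctionFieldOne k (Fb i)]
  {R : MultiReduction A F k Fb} {G : Gluing R}
  {Γ : Type uG} [Group Γ] [MulSemiringAction Γ K] {I : InertialAction R Γ} {n m : ℕ}

omit [∀ i, IsFunctionFieldOne k (Fb i)] in
theorem mul_mem_polarSp_of_neg {D : Divisor K F} {M N : ℕ} {s c : F} (hs : s ∈ R.twistSp D M)
    (hc : c ∈ R.twistSp (-D) N) : s * c ∈ R.polarSp (M + N) := by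
  have := R.mul_mem_twistSp hs hc
  rwa [add_neg_cancel, R.twistSp_zero] at this

namespace Pins

variable (P : Pins G I m)

/-- Sections of the twist by `D` whose products with the opposite twist vanish at all pins. -/
def pinSpace (D : Divisor K F) : Submodule K F where
  carrier := {s | s ∈ R.twistSp D m ∧
    ∀ q, ∀ c ∈ R.twistSp (-D) m, placeValue (P.pt q) (s * c) = 0}
  zero_mem' := ⟨Submodule.zero_mem _, fun q c _ => by rw [zero_mul, placeValue_zero]⟩
  add_mem' := by
    rintro s s' ⟨hs, hs0⟩ ⟨hs', hs0'⟩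
    refine ⟨Submodule.add_mem _ hs hs', fun q c hc => ?_⟩
    rw [add_mul, placeValue_add _
      (mem_place_of_mem_polarSp (P.lifts q).regular (mul_mem_polarSp_of_neg hs hc))
      (mem_place_of_mem_polarSp (P.lifts q).regular (mul_mem_polarSp_of_neg hs' hc)),
      hs0 q c hc, hs0' q c hc, add_zero]
  smul_mem' := by
    rintro a s ⟨hs, hs0⟩
    refine ⟨Submodule.smul_mem _ _ hs, fun q c hc => ?_⟩
    rw [smul_mul_assoc, placeValue_smul _ _
      (mem_place_of_mem_polarSp (P.lifts q).regular (mul_mem_polarSp_of_neg hs hc)),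
      hs0 q c hc, mul_zero]

theorem pinSpace_le (D : Divisor K F) : P.pinSpace D ≤ R.twistSp D m := fun _ hs => hs.1

theorem finiteDimensional_pinSpace (D : Divisor K F) : FiniteDimensional K (P.pinSpace D) :=
  haveI := R.finiteDimensional_twistSp D m
  Submodule.finiteDimensional_of_le (P.pinSpace_le D)

variable {p : ℕ} [Fact p.Prime] (hm : Large G n m) {D : Divisor K F} {f : F}
  (hD : KerForm R n D f)

include hm hD

omit [Fact p.Prime] in
theorem spFibre_pinSpace_le : R.spFibre (P.pinSpace D) ≤ Submodule.span k {P.e₀} := by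
  rintro y ⟨s, hs, rfl⟩
  obtain ⟨c, hc, hcr⟩ := hm.exists_lift_one hD.neg le_rfl
  have hsW : R.red s ∈ R.spFibre (R.polarSp m) := by
    rw [← hm.twist_eq m le_rfl _ _ hD]
    exact ⟨s, hs.1, rfl⟩
  obtain ⟨a, ha⟩ := P.line _ hsW fun q => by
    have hpol : ((s * c : R.integers) : F) ∈ R.polarSp (m + m) := mul_mem_polarSp_of_neg hs.1 hc
    have hA := (P.lifts q).integral _ _ hpol
    have h := (P.lifts q).red_eq _ _ hpol hA
    have h0 : (⟨_, hA⟩ : A) = 0 := Subtype.ext (hs.2 q c hc)
    rw [h0, map_zero, map_mul, hcr, mul_one] at h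
    exact h.symm
  exact Submodule.mem_span_singleton.2 ⟨a, ha.symm⟩

omit [Fact p.Prime] in
theorem finrank_pinSpace_le : Module.finrank K (P.pinSpace D) ≤ 1 := by
  haveI := P.finiteDimensional_pinSpace D
  rw [← R.finrank_spFibre]
  refine (Submodule.finrank_mono (P.spFibre_pinSpace_le hm hD)).trans ?_
  exact (finrank_span_le_card _).trans (by simp)

omit [Fact p.Prime] in
theorem exists_pinned : ∃ s : R.integers, (s : F) ∈ P.pinSpace D ∧ R.red s = P.e₀ := by
  classical
  haveI := R.isAlgClosed_residue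
  haveI := R.finiteDimensional_twistSp D m
  obtain ⟨c, hc, hcr⟩ := hm.exists_lift_one hD.neg le_rfl
  have hreg : ∀ q, ∀ s : R.twistSp D m, (s : F) * (c : F) ∈ (P.pt q).toValuationSubring :=
    fun q s => mem_place_of_mem_polarSp (P.lifts q).regular (mul_mem_polarSp_of_neg s.2 hc)
  let T : R.twistSp D m →ₗ[K] (P.σ → K) :=
    { toFun := fun s q => placeValue (P.pt q) ((s : F) * (c : F))
      map_add' := fun s s' => funext fun q => by
        rw [Submodule.coe_add, add_mul, placeValue_add _ (hreg q s) (hreg q s')]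
        rfl
      map_smul' := fun a s => funext fun q => by
        rw [SetLike.val_smul, smul_mul_assoc, placeValue_smul _ _ (hreg q s)]
        rfl }
  have hker : LinearMap.ker T ≠ ⊥ := by
    intro hbot
    have h1 := LinearMap.finrank_le_finrank_of_injective (LinearMap.ker_eq_bot.1 hbot)
    rw [Module.finrank_pi, ← R.finrank_spFibre, hm.twist_eq m le_rfl _ _ hD] at h1
    exact absurd h1 (not_le.2 P.card_lt)
  obtain ⟨⟨s, hs⟩, hsker, hs0⟩ := Submodule.exists_mem_ne_zero_of_ne_bot hker
  have hspin : s ∈ P.pinSpace D := by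
    refine ⟨hs, fun q c' hc' => ?_⟩
    obtain ⟨e, he, her⟩ := hm.exists_lift_one hD le_rfl
    have hce : ((c * e : R.integers) : F) ∈ R.polarSp (m + m) := by
      rw [MulMemClass.coe_mul, mul_comm]
      exact mul_mem_polarSp_of_neg he hc
    have hA := (P.lifts q).integral _ _ hce
    have hne : placeValue (P.pt q) ((e : F) * (c : F)) ≠ 0 := by
      intro h0
      have h := (P.lifts q).red_eq _ _ hce hA
      rw [show (⟨_, hA⟩ : A) = 0 from Subtype.ext (by
        rw [ZeroMemClass.coe_zero, ← h0]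
        show placeValue _ ((c : F) * (e : F)) = _
        rw [mul_comm]), map_zero, map_mul, hcr, her, mul_one, bval_one] at h
      exact zero_ne_one h
    have m1 := hreg q ⟨s, hs⟩
    have m2 := mem_place_of_mem_polarSp (P.lifts q).regular (mul_mem_polarSp_of_neg he hc')
    have m3 := mem_place_of_mem_polarSp (P.lifts q).regular (mul_mem_polarSp_of_neg hs hc')
    have m4 := mem_place_of_mem_polarSp (P.lifts q).regular (mul_mem_polarSp_of_neg he hc)
    have h := congrArg (placeValue (P.pt q))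
      (show (s * (c : F)) * ((e : F) * c') = (s * c') * ((e : F) * (c : F)) by ring)
    rw [placeValue_mul _ m1 m2, placeValue_mul _ m3 m4,
      show placeValue (P.pt q) (s * (c : F)) = 0 from congrFun (LinearMap.mem_ker.1 hsker) q,
      zero_mul, eq_comm, mul_eq_zero, or_iff_left hne] at h
    exact h
  obtain ⟨a, ha, hane⟩ := R.exists_scale_integers s (fun h => hs0 (Subtype.ext h))
  obtain ⟨b, hb⟩ := Submodule.mem_span_singleton.1 (P.spFibre_pinSpace_le hm hD
    ⟨⟨_, ha⟩, Submodule.smul_mem _ a hspin, rfl⟩)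
  have hb0 : b ≠ 0 := fun h => hane (by rw [← hb, h, zero_smul])
  obtain ⟨u, hu⟩ := R.π_surjective b⁻¹
  refine ⟨⟨_, R.smul_mem_integers u ha⟩, Submodule.smul_mem _ _ (Submodule.smul_mem _ a hspin), ?_⟩
  rw [R.red_smul u ⟨_, ha⟩, hu, ← hb, smul_smul, inv_mul_cancel₀ hb0, one_smul]

omit hm hD [Fact p.Prime]

variable (D) in
/-- The subspace of functions attached to `D`. -/
def lineSp : Submodule K F := P.pinSpace D * R.twistSp (-D) m

theorem lineSp_le : P.lineSp D ≤ R.polarSp (m + m) :=
  Submodule.mul_le.2 fun _ hs _ hc => mul_mem_polarSp_of_neg hs.1 hc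

theorem finiteDimensional_lineSp : FiniteDimensional K (P.lineSp D) :=
  haveI := R.finiteDimensional_polarSp (m + m)
  Submodule.finiteDimensional_of_le P.lineSp_le

include hm hD

theorem lineSp_eq_map {s : R.integers} (hs : (s : F) ∈ P.pinSpace D) (hsr : R.red s = P.e₀) :
    P.lineSp D = (R.twistSp (-D) m).map (LinearMap.mulLeft K (s : F)) := by
  have hs0 : (s : F) ≠ 0 := by
    obtain ⟨i⟩ := R.nonempty
    exact R.red_ne_zero_of_ne (i := i) (by rw [hsr]; exact P.e₀_ne i)
  have hpin : P.pinSpace D = Submodule.span K {(s : F)} := by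
    haveI := P.finiteDimensional_pinSpace D
    refine (Submodule.eq_of_le_of_finrank_le ((Submodule.span_singleton_le_iff_mem _ _).2 hs) ?_).symm
    rw [finrank_span_singleton hs0]
    exact P.finrank_pinSpace_le hm hD
  refine le_antisymm ?_ ?_
  · rw [lineSp, hpin, Submodule.mul_le]
    intro a ha c hc
    obtain ⟨b, rfl⟩ := Submodule.mem_span_singleton.1 ha
    rw [smul_mul_assoc]
    exact Submodule.smul_mem _ _ ⟨c, hc, rfl⟩
  · rintro _ ⟨c, hc, rfl⟩
    exact Submodule.mul_mem_mul hs hc

theorem spFibre_lineSp : R.spFibre (P.lineSp D) =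
    (R.spFibre (R.polarSp m)).map (LinearMap.mulLeft k P.e₀) := by
  haveI := R.finiteDimensional_spFibre_polar m
  haveI : FiniteDimensional K (P.lineSp D) := P.finiteDimensional_lineSp
  haveI := R.finiteDimensional_spFibre (P.lineSp D)
  haveI := R.finiteDimensional_twistSp (-D) m
  obtain ⟨s, hs, hsr⟩ := P.exists_pinned hm hD
  have hs0 : (s : F) ≠ 0 := by
    obtain ⟨i⟩ := R.nonempty
    exact R.red_ne_zero_of_ne (i := i) (by rw [hsr]; exact P.e₀_ne i)
  refine (Submodule.eq_of_le_of_finrank_le ?_ ?_).symm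
  · rintro _ ⟨y, hy, rfl⟩
    rw [← hm.twist_eq m le_rfl _ _ hD.neg] at hy
    obtain ⟨c, hc, rfl⟩ := hy
    exact ⟨s * c, Submodule.mul_mem_mul hs hc, by rw [map_mul, hsr]; rfl⟩
  · rw [R.finrank_spFibre, P.lineSp_eq_map hm hD hs hsr]
    have hinj : Function.Injective (LinearMap.mulLeft k P.e₀) :=
      fun a b h => funext fun i => mul_left_cancel₀ (P.e₀_ne i) (congrFun h i)
    rw [← ((R.twistSp (-D) m).equivMapOfInjective _
      (mul_right_injective₀ hs0 : Function.Injective (LinearMap.mulLeft K (s : F)))).finrank_eq,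
      ← (Submodule.equivMapOfInjective _ hinj _).finrank_eq, ← R.finrank_spFibre,
      hm.twist_eq m le_rfl _ _ hD.neg]

omit hm hD

theorem lineSp_congr {D' : Divisor K F} {h : F} (hh : h ≠ 0)
    (hDD' : ∀ v : Place K F, v.ord h = D' v - D v) : P.lineSp D' = P.lineSp D := by
  have key : ∀ (D₁ D₂ : Divisor K F) (h : F), h ≠ 0 → (∀ v : Place K F, v.ord h = D₂ v - D₁ v) →
      ∀ {N : ℕ} {s : F}, s ∈ R.twistSp D₂ N → h * s ∈ R.twistSp D₁ N := by
    intro D₁ D₂ h hh hv N s hs
    rcases eq_or_ne s 0 with rfl | hs0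
    · rw [mul_zero]; exact zero_mem _
    refine (RedAux.mem_L_iff (mul_ne_zero hh hs0)).2 fun v => ?_
    have := (RedAux.mem_L_iff hs0).1 hs v
    simp only [Finsupp.add_apply] at this ⊢
    rw [v.ord_mul hh hs0, hv]
    linarith
  have hle : ∀ (D₁ D₂ : Divisor K F) (h : F), h ≠ 0 → (∀ v : Place K F, v.ord h = D₂ v - D₁ v) →
      P.lineSp D₂ ≤ P.lineSp D₁ := by
    intro D₁ D₂ h hh hv
    rw [lineSp, Submodule.mul_le]
    intro s hs c hc
    have hinv : ∀ v : Place K F, v.ord h⁻¹ = (-D₂) v - (-D₁) v := fun v => by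
      rw [v.ord_inv, hv, Finsupp.neg_apply, Finsupp.neg_apply]; ring
    have hinv' : ∀ v : Place K F, v.ord h = (-D₁) v - (-D₂) v := fun v => by
      rw [hv, Finsupp.neg_apply, Finsupp.neg_apply]; ring
    rw [show s * c = (h * s) * (h⁻¹ * c) by field_simp]
    refine Submodule.mul_mem_mul ⟨key D₁ D₂ h hh hv hs.1, fun q c' hc' => ?_⟩
      (key (-D₁) (-D₂) h⁻¹ (inv_ne_zero hh) hinv hc)
    rw [mul_comm h s, mul_assoc]
    exact hs.2 q _ (key (-D₂) (-D₁) h hh hinv' hc')
  refine le_antisymm (hle D D' h hh hDD') (hle D' D h⁻¹ (inv_ne_zero hh) fun v => ?_)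
  rw [v.ord_inv, hDD']; ring

include hm hD in
/-- The space determines the class. -/
theorem principal_of_lineSp_eq {E : Divisor K F} {g : F} (hE : KerForm R n E g)
    (heq : P.lineSp D = P.lineSp E) : ∃ h : F, h ≠ 0 ∧ ∀ v : Place K F, v.ord h = D v - E v := by
  obtain ⟨s, hs, hsr⟩ := P.exists_pinned hm hD
  obtain ⟨t, ht, htr⟩ := P.exists_pinned hm hE
  rw [P.lineSp_eq_map hm hD hs hsr, P.lineSp_eq_map hm hE ht htr] at heq
  have hne : ∀ {u : R.integers}, R.red u = P.e₀ → (u : F) ≠ 0 := fun hu => by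
    obtain ⟨i⟩ := R.nonempty
    exact R.red_ne_zero_of_ne (i := i) (by rw [hu]; exact P.e₀_ne i)
  have key : ∀ (X : Divisor K F) (u : F), u ≠ 0 →
      (riemannRochSpace X).map (LinearMap.mulLeft K u) =
        riemannRochSpace (X - divisorOf K u) := by
    intro X u hu
    ext y
    constructor
    · rintro ⟨c, hc, rfl⟩
      rcases eq_or_ne c 0 with rfl | hc0
      · simp
      refine (RedAux.mem_L_iff (mul_ne_zero hu hc0)).2 fun v => ?_
      have := (RedAux.mem_L_iff hc0).1 hc v
      simp only [Finsupp.sub_apply, divisorOf_apply, LinearMap.mulLeft_apply] at this ⊢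
      rw [v.ord_mul hu hc0]
      omega
    · intro hy
      refine ⟨u⁻¹ * y, ?_, by simp [hu]⟩
      rcases eq_or_ne y 0 with rfl | hy0
      · simp
      refine (RedAux.mem_L_iff (mul_ne_zero (inv_ne_zero hu) hy0)).2 fun v => ?_
      have := (RedAux.mem_L_iff hy0).1 hy v
      simp only [Finsupp.sub_apply, divisorOf_apply] at this
      rw [v.ord_mul (inv_ne_zero hu) hy0, v.ord_inv]
      omega
  simp only [MultiReduction.twistSp, key _ _ (hne hsr), key _ _ (hne htr)] at heq
  have hdeg : ∀ (X : Divisor K F) (u : F), Divisor.degree X = 0 →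
      Divisor.degree (m • R.poleX + -X - divisorOf K u) = ((m * xDeg R : ℕ) : ℤ) := by
    intro X u hX
    rw [map_sub, map_add, map_neg, hX, degree_divisorOf, R.degree_nsmul_poleX]
    ring
  have hdiv := FlatModel.JacSpaces.eq_of_space_eq (FlatModel.JacSetting.rrFormula K F)
    (by rw [hdeg D _ hD.degree_zero]; exact hm.deg_le)
    (by rw [hdeg E _ hE.degree_zero]; exact hm.deg_le) heq
  refine ⟨(t : F) / (s : F), div_ne_zero (hne htr) (hne hsr), fun v => ?_⟩
  have := congrArg (fun X : Divisor K F => X v) hdiv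
  simp only [Finsupp.sub_apply, Finsupp.add_apply, Finsupp.neg_apply, divisorOf_apply] at this
  rw [ord_div v (hne htr) (hne hsr)]
  omega

/-- The action on the spaces. -/
theorem toRingAut_mem_lineSp (g : Γ) {y : F} (hy : y ∈ P.lineSp D) :
    SemilinearAut.toRingAut (I.gal g) y ∈ P.lineSp (I.gal g • D) := by
  have hpole : I.gal g • R.poleX = R.poleX := Finsupp.ext fun v => by
    rw [SemilinearAut.divisor_smul_apply]
    simp only [MultiReduction.poleX, poleDivisor_apply]
    have h := SemilinearAut.ord_smul (I.gal g) ((I.gal g)⁻¹ • v) R.x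
    rw [smul_inv_smul, SemilinearAut.smul_def, I.smul_x] at h
    rw [h]
  have htw : ∀ (X : Divisor K F) (N : ℕ) (u : F), u ∈ R.twistSp X N ↔
      SemilinearAut.toRingAut (I.gal g) u ∈ R.twistSp (I.gal g • X) N := by
    intro X N u
    have e : I.gal g • (N • R.poleX + X) = N • R.poleX + I.gal g • X := by
      rw [smul_add, smul_comm, hpole]
    rw [MultiReduction.twistSp, MultiReduction.twistSp, ← e,
      FlatModel.JacSetting.toRingAut_mem_L_iff]
  refine Submodule.mul_induction_on hy (fun s hs c hc => ?_) fun a b ha hb => ?_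
  · rw [map_mul]
    refine Submodule.mul_mem_mul ⟨(htw _ _ _).1 hs.1, fun q c' hc' => ?_⟩ ?_
    · obtain ⟨c₀, rfl⟩ := (SemilinearAut.toRingAut (I.gal g)).surjective c'
      rw [← smul_neg, ← htw] at hc'
      rw [← map_mul, (P.lifts q).equivariant g _ _ (mul_mem_polarSp_of_neg hs.1 hc'),
        hs.2 q c₀ hc', smul_zero]
    · rw [← smul_neg, ← htw]
      exact hc
  · rw [map_add]
    exact Submodule.add_mem _ ha hb

end Pins

/-- A divisor of a kernel class. -/
def kerDiv (c : kernelGroup R n) : Divisor K F := (c.2.choose : Divisor.degZero (K := K) (F := F))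

/-- The function of a kernel class. -/
def kerFun (c : kernelGroup R n) : F := c.2.choose_spec.choose

theorem kerForm_kerDiv (c : kernelGroup R n) : KerForm R n (kerDiv c) (kerFun c) :=
  c.2.choose_spec.choose_spec.2

namespace Pins

variable (P : Pins G I m)

/-- The space of functions of a kernel class. -/
def classSp (c : kernelGroup R n) : Submodule K F := P.lineSp (kerDiv c)

theorem classSp_eq {c : kernelGroup R n} {D : Divisor.degZero (K := K) (F := F)}
    (hc : Pic0.mk D = (c : Pic0 K F)) : P.classSp c = P.lineSp (D : Divisor K F) := by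
  have h : Pic0.mk D = Pic0.mk c.2.choose := hc.trans c.2.choose_spec.choose_spec.1.symm
  have h' := QuotientAddGroup.eq_iff_sub_mem.1 h
  rw [AddSubgroup.mem_addSubgroupOf, AddSubgroupClass.coe_sub] at h'
  obtain ⟨u, hu, huv⟩ := h'
  refine (P.lineSp_congr (D := kerDiv c) (D' := (D : Divisor K F)) hu fun v => ?_).symm
  have := huv v
  rw [Finsupp.sub_apply] at this
  exact this.symm

theorem classSp_injective (hm : Large G n m) {c d : kernelGroup R n}
    (h : P.classSp c = P.classSp d) : c = d := by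
  obtain ⟨u, hu, huv⟩ := P.principal_of_lineSp_eq hm (kerForm_kerDiv c) (kerForm_kerDiv d) h
  apply Subtype.ext
  rw [← c.2.choose_spec.choose_spec.1, ← d.2.choose_spec.choose_spec.1]
  refine QuotientAddGroup.eq_iff_sub_mem.2 ?_
  rw [AddSubgroup.mem_addSubgroupOf, AddSubgroupClass.coe_sub]
  exact ⟨u, hu, fun v => by rw [Finsupp.sub_apply]; exact (huv v).symm⟩

end Pins

end Fermat.Agent.OrdinaryDatum

end
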