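/-
Algebras of congruent equivariant integral functions on a finite set: inverses and solutions of
linear systems with injective reduction.
-/
import Fermat.Agent.OrdinaryDatum.Infinitesimal
import Fermat.Agent.OrdinaryDatum.KernelCoeff
import Mathlib.LinearAlgebra.Matrix.NonsingularInverse
import Mathlib.RingTheory.Adjoin.Basic
import Mathlib.RingTheory.IntegralClosure.IsIntegral.Basic
import Mathlib.RingTheory.Polynomial.Basic

set_option autoImplicit false

noncomputable section

namespace Fermat.Agent.OrdinaryDatum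

universe uK uG uY uk

variable {K : Type uK} [Field K] {A : ValuationSubring K} {Γ : Type uG} [Group Γ]
  [MulSemiringAction Γ K] {Y : Type uY} (act : Γ → Y → Y) (y₀ : Y)

variable (A Γ) in
/-- Integral equivariant functions congruent to their value at `y₀`. -/
def congFun : Subalgebra (fixedInt A Γ) (Y → K) where
  carrier := {h | (∀ y, h y ∈ A) ∧ (∀ g y, h (act g y) = g • h y) ∧
    ∀ y, h y - h y₀ ∈ A.nonunits}
  algebraMap_mem' c := ⟨fun _ => c.2.1, fun g _ => (c.2.2 g).symm, fun _ => by
    show ((c : K)) - (c : K) ∈ A.nonunits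
    rw [sub_self]
    exact (ValuationSubring.mem_nonunits_iff A).2 (by rw [map_zero]; exact zero_lt_one)⟩
  mul_mem' := fun {f h} hf hh => ⟨fun y => mul_mem (hf.1 y) (hh.1 y),
    fun g y => by simp only [Pi.mul_apply, hf.2.1, hh.2.1, smul_mul'], fun y => by
      rw [Pi.mul_apply, Pi.mul_apply, show f y * h y - f y₀ * h y₀ =
        f y * (h y - h y₀) + (f y - f y₀) * h y₀ by ring, ValuationSubring.mem_nonunits_iff]
      refine A.valuation.map_add_lt ?_ ?_ <;> rw [map_mul]
      · exact lt_of_le_of_lt (mul_le_of_le_one_left zero_le ((A.valuation_le_one_iff _).2 (hf.1 y)))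
          ((ValuationSubring.mem_nonunits_iff A).1 (hh.2.2 y))
      · exact lt_of_le_of_lt (mul_le_of_le_one_right zero_le ((A.valuation_le_one_iff _).2 (hh.1 y₀)))
          ((ValuationSubring.mem_nonunits_iff A).1 (hf.2.2 y))⟩
  add_mem' := fun {f h} hf hh => ⟨fun y => add_mem (hf.1 y) (hh.1 y),
    fun g y => by simp only [Pi.add_apply, hf.2.1, hh.2.1, smul_add], fun y => by
      rw [Pi.add_apply, Pi.add_apply, show f y + h y - (f y₀ + h y₀) =
        (f y - f y₀) + (h y - h y₀) by ring, ValuationSubring.mem_nonunits_iff]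
      exact A.valuation.map_add_lt ((ValuationSubring.mem_nonunits_iff A).1 (hf.2.2 y))
        ((ValuationSubring.mem_nonunits_iff A).1 (hh.2.2 y))⟩

variable {act y₀}

theorem mem_congFun {h : Y → K} :
    h ∈ congFun A Γ act y₀ ↔ (∀ y, h y ∈ A) ∧ (∀ g y, h (act g y) = g • h y) ∧
      ∀ y, h y - h y₀ ∈ A.nonunits := Iff.rfl

open Polynomial in
/-- A monic polynomial over the fixed ring killing a congruent function. -/
theorem exists_fixed_poly [Finite Y] (hact : ∀ g, Function.Bijective (act g)) {h : Y → K}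
    (hh : h ∈ congFun A Γ act y₀) :
    ∃ P : (fixedInt A Γ)[X], P.Monic ∧ aeval h P = 0 ∧
      ((∀ y, A.valuation (h y) = 1) → A.valuation ((P.coeff 0 : fixedInt A Γ) : K) = 1) := by
  classical
  haveI := Fintype.ofFinite Y
  set PK : K[X] := ∏ y, (X - C (h y)) with hPK
  set PA : A[X] := ∏ y, (X - C (⟨h y, hh.1 y⟩ : A)) with hPA
  have hmap : PA.map A.subtype = PK := by
    rw [hPA, hPK, Polynomial.map_prod]
    exact Finset.prod_congr rfl fun y _ => by rw [Polynomial.map_sub, map_X, map_C]; rfl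
  have hfix : ∀ g : Γ, PK.map (MulSemiringAction.toRingHom Γ K g) = PK := by
    intro g
    rw [hPK, Polynomial.map_prod]
    refine Fintype.prod_bijective (act g) (hact g) _ _ fun y => ?_
    rw [Polynomial.map_sub, map_X, map_C, MulSemiringAction.toRingHom_apply, hh.2.1]
  have hcoef : ∀ j, PK.coeff j ∈ fixedInt A Γ := fun j => ⟨by
    rw [← hmap, coeff_map]
    exact (PA.coeff j).2, fun g => by
      conv_rhs => rw [← hfix g, coeff_map, MulSemiringAction.toRingHom_apply]⟩
  have hlift : PK ∈ Polynomial.lifts (fixedInt A Γ).subtype :=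
    (Polynomial.lifts_iff_coeff_lifts _).2 fun j => ⟨⟨_, hcoef j⟩, rfl⟩
  have hmonK : PK.Monic := monic_prod_of_monic _ _ fun y _ => monic_X_sub_C _
  obtain ⟨P, hP, -, hPm⟩ := Polynomial.lifts_and_degree_eq_and_monic hlift hmonK
  refine ⟨P, hPm, ?_, fun hu => ?_⟩
  · funext y
    have e : (aeval h P) y = aeval (h y) P :=
      (Polynomial.aeval_algHom_apply (Pi.evalAlgHom (fixedInt A Γ) (fun _ : Y => K) y) h P).symm
    rw [e, aeval_def, show algebraMap (fixedInt A Γ) K = (fixedInt A Γ).subtype from rfl,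
      ← eval_map, hP, hPK, eval_prod, Pi.zero_apply]
    exact Finset.prod_eq_zero (Finset.mem_univ y) (by simp)
  · have : ((P.coeff 0 : fixedInt A Γ) : K) = PK.coeff 0 := by rw [← hP, coeff_map]; rfl
    rw [this, coeff_zero_eq_eval_zero, hPK, eval_prod, map_prod]
    exact Finset.prod_eq_one fun y _ => by simp [hu y]

/-- Congruent functions with unit values are units in every algebra containing them. -/
theorem inv_mem_of_units [Finite Y] (hact : ∀ g, Function.Bijective (act g))
    {B : Subalgebra (fixedInt A Γ) (Y → K)} (hB : B ≤ congFun A Γ act y₀) {h : Y → K}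
    (hh : h ∈ B) (hu : ∀ y, A.valuation (h y) = 1) : h⁻¹ ∈ B := by
  obtain ⟨P, -, hP, hP0⟩ := exists_fixed_poly hact (hB hh)
  set c₀ := P.coeff 0
  have hc0 : ((c₀ : fixedInt A Γ) : K) ≠ 0 := fun h0 => by
    have := hP0 hu
    rw [h0, map_zero] at this
    exact zero_ne_one this
  have hc0inv : ((c₀ : fixedInt A Γ) : K)⁻¹ ∈ fixedInt A Γ := ⟨by
    show ((c₀ : fixedInt A Γ) : K)⁻¹ ∈ A
    rw [← A.valuation_le_one_iff, map_inv₀, hP0 hu, inv_one],
    fun g => by rw [smul_inv'', c₀.2.2 g]⟩
  have key : h⁻¹ = (-(⟨_, hc0inv⟩ : fixedInt A Γ)) • Polynomial.aeval h P.divX := by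
    have e := congrArg (Polynomial.aeval h) P.X_mul_divX_add
    rw [map_add, map_mul, Polynomial.aeval_X, Polynomial.aeval_C, hP] at e
    funext y
    have ey := congrFun e y
    simp only [Pi.add_apply, Pi.mul_apply, Pi.zero_apply, Pi.algebraMap_apply] at ey
    change h y * _ + ((c₀ : fixedInt A Γ) : K) = 0 at ey
    have hy : h y ≠ 0 := fun h0 => by
      have := hu y
      rw [h0, map_zero] at this
      exact zero_ne_one this
    rw [Pi.inv_apply, Pi.smul_apply, Subring.smul_def, smul_eq_mul]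
    show (h y)⁻¹ = -((c₀ : fixedInt A Γ) : K)⁻¹ * _
    field_simp
    linear_combination ey
  rw [key]
  refine B.smul_mem ?_ _
  rw [show Polynomial.aeval h P.divX =
    ((Polynomial.aeval (⟨h, hh⟩ : B) P.divX : B) : Y → K) from
      Polynomial.aeval_algHom_apply B.val ⟨h, hh⟩ _]
  exact Subtype.coe_prop _

theorem isIntegral_of_mem_congFun [Finite Y] (hact : ∀ g, Function.Bijective (act g))
    {h : Y → K} (hh : h ∈ congFun A Γ act y₀) : IsIntegral (fixedInt A Γ) h := by
  obtain ⟨P, hPm, hP, -⟩ := exists_fixed_poly hact hh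
  exact ⟨P, hPm, by rwa [← Polynomial.aeval_def]⟩

/-- Pointwise integral solutions of a system with coefficients in an algebra of congruent
functions, injective on the special fibre, lie in the algebra. -/
theorem solve_mem [Finite Y] (hact : ∀ g, Function.Bijective (act g))
    {k : Type uk} [Field k] {π : A →+* k} (hπ : Function.Surjective π)
    (hπ0 : ∀ a : A, π a = 0 ↔ (a : K) ∈ A.nonunits)
    {B : Subalgebra (fixedInt A Γ) (Y → K)} (hB : B ≤ congFun A Γ act y₀)
    {ε υ : Type*} [Fintype υ] (M : ε → υ → Y → K) (hM : ∀ e u, M e u ∈ B)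
    (b : ε → Y → K) (hb : ∀ e, b e ∈ B) (v : υ → Y → K) (hv : ∀ u y, v u y ∈ A)
    (hsol : ∀ e y, ∑ u, M e u y * v u y = b e y)
    (hinj : ∀ w : υ → A, (∀ e, ∑ u, M e u y₀ * (w u : K) ∈ A.nonunits) →
      ∀ u, (w u : K) ∈ A.nonunits) :
    ∀ u, v u ∈ B := by
  classical
  let MA : Y → ε → υ → A := fun y e u => ⟨M e u y, (hB (hM e u)).1 y⟩
  let Lf : ε → (υ → k) →ₗ[k] k := fun e => ∑ u, π (MA y₀ e u) • LinearMap.proj u
  have hLinj : ∀ c, (∀ e, Lf e c = 0) → c = 0 := by
    intro c hc
    choose w hw using fun u => hπ (c u)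
    funext u
    rw [← hw u, Pi.zero_apply, hπ0]
    refine hinj w (fun e => ?_) u
    have h0 : π (∑ u, MA y₀ e u * w u) = 0 := by
      rw [← hc e]
      simp [Lf, map_sum, map_mul, hw]
    rw [hπ0, AddSubmonoidClass.coe_finsetSum] at h0
    exact h0
  obtain ⟨J, φ, hdual, -⟩ := exists_dual_family Lf hLinj
  let eu : υ ≃ Fin (Module.finrank k (υ → k)) :=
    (Fintype.equivFin υ).trans (finCongr (Module.finrank_pi k).symm)
  let N : Matrix υ υ B := Matrix.of fun a u => ⟨M (J (eu a)) u, hM _ u⟩
  let ev : Y → (B →+* A) := fun y =>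
    { toFun := fun f => ⟨(f : Y → K) y, (hB f.2).1 y⟩
      map_one' := rfl
      map_mul' := fun _ _ => rfl
      map_zero' := rfl
      map_add' := fun _ _ => rfl }
  have hdet0 : π (ev y₀ N.det) ≠ 0 := by
    let Φ : Matrix υ υ k := Matrix.of fun u a => φ (eu a) u
    have hprod : (N.map (π.comp (ev y₀))) * Φ = 1 := by
      ext a a'
      rw [Matrix.mul_apply, Matrix.one_apply]
      have h := hdual (eu a) (eu a')
      simp only [Lf, LinearMap.sum_apply, LinearMap.smul_apply, LinearMap.proj_apply,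
        smul_eq_mul, eu.apply_eq_iff_eq] at h
      exact h
    have h := congrArg Matrix.det hprod
    rw [Matrix.det_mul, Matrix.det_one] at h
    rw [show π (ev y₀ N.det) = (N.map (π.comp (ev y₀))).det from
      RingHom.map_det (π.comp (ev y₀)) N]
    exact left_ne_zero_of_mul_eq_one h
  have hunit : ∀ y, A.valuation (((N.det : B) : Y → K) y) = 1 := by
    intro y
    refine le_antisymm ((A.valuation_le_one_iff _).2 ((hB N.det.2).1 y)) (not_lt.1 fun hlt => ?_)
    apply hdet0
    rw [hπ0, ValuationSubring.mem_nonunits_iff]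
    show A.valuation (((N.det : B) : Y → K) y₀) < 1
    have e : ((N.det : B) : Y → K) y₀ =
        ((N.det : B) : Y → K) y - (((N.det : B) : Y → K) y - ((N.det : B) : Y → K) y₀) := by ring
    rw [e]
    exact A.valuation.map_sub_lt hlt ((ValuationSubring.mem_nonunits_iff A).1 ((hB N.det.2).2.2 y))
  have hdetinv := inv_mem_of_units hact hB N.det.2 hunit
  let dinv : B := ⟨_, hdetinv⟩
  let sol : υ → B := fun u => dinv * ∑ a, N.adjugate u a * ⟨b (J (eu a)), hb _⟩
  suffices hvs : ∀ u, v u = (sol u : Y → K) by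
    intro u; rw [hvs u]; exact (sol u).2
  intro u
  funext y
  let evK : B →+* K := A.subtype.comp (ev y)
  have hne : evK N.det ≠ 0 := by
    intro h0
    have h := hunit y
    change A.valuation (evK N.det) = 1 at h
    rw [h0, map_zero] at h
    exact zero_ne_one h
  have hsys : (N.map evK).mulVec (fun u => v u y) =
      fun a => evK ⟨b (J (eu a)), hb _⟩ := funext fun a => hsol _ y
  have h1 := congrArg ((N.adjugate.map evK).mulVec) hsys
  rw [Matrix.mulVec_mulVec, ← Matrix.map_mul, Matrix.adjugate_mul, Matrix.map_smul' evK _ _ (map_mul evK),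
    Matrix.map_one evK (map_zero evK) (map_one evK), Matrix.smul_mulVec, Matrix.one_mulVec] at h1
  have h2 := congrFun h1 u
  simp only [Pi.smul_apply, smul_eq_mul, Matrix.mulVec, dotProduct, Matrix.map_apply] at h2
  show v u y = evK (sol u)
  rw [show evK (sol u) = (evK N.det)⁻¹ * ∑ a, evK (N.adjugate u a) * evK ⟨b (J (eu a)), hb _⟩ by
    simp only [sol, map_mul, map_sum]
    rfl, ← h2, inv_mul_cancel_left₀ hne]

end Fermat.Agent.OrdinaryDatum

end
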