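/-
Families of integral functions with coefficients in an algebra of functions; normalised bases
of the spaces attached to kernel classes and their coordinates.
-/
import Fermat.Agent.OrdinaryDatum.KernelSolve
import Fermat.Agent.OrdinaryDatum.KernelLine

set_option autoImplicit false

noncomputable section

namespace Fermat.Agent.OrdinaryDatum

open AlgebraicCurve IntermediateField Fermat.Agent.Curve Fermat.Agent.Bad
open Fermat.Agent.Bad.MultiReduction

universe uK uF uι uk uFb uG uY

variable {K : Type uK} [Field K] {A : ValuationSubring K}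
  {F : Type uF} [Field F] [Algebra K F] {ι : Type uι} [Fintype ι]
  {k : Type uk} [Field k] {Fb : ι → Type uFb} [∀ i, Field (Fb i)] [∀ i, Algebra k (Fb i)]
  [IsAlgClosed K] [IsFunctionFieldOne K F] [∀ i, IsFunctionFieldOne k (Fb i)]
  {R : MultiReduction A F k Fb} {G : Gluing R}
  {Γ : Type uG} [Group Γ] [MulSemiringAction Γ K] {I : InertialAction R Γ} {n m : ℕ}
  (E : Coeffs I)

omit [IsAlgClosed K] [∀ i, IsFunctionFieldOne k (Fb i)] in
theorem zero_mem_nonunits : (0 : K) ∈ A.nonunits :=
  (ValuationSubring.mem_nonunits_iff A).2 (by rw [map_zero]; exact zero_lt_one)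

/-- A fixed element of `A` as an element of the fixed ring. -/
def fixedElem {x : K} (hA : x ∈ A) (hfix : ∀ g : Γ, g • x = x) : fixedInt A Γ :=
  ⟨x, hA, hfix⟩

/-- Coefficients of fixed integral functions are fixed. -/
def coefElem (j : E.Idx) {N : ℕ} {f : F} (hf : f ∈ R.integers) (hfN : f ∈ R.polarSp N)
    (hfix : ∀ g : Γ, SemilinearAut.toRingAut (I.gal g) f = f) : fixedInt A Γ :=
  fixedElem (E.coef_mem hf hfN j) fun g => by rw [← E.coef_gal, hfix]

variable {Y : Type uY} (B : Subalgebra (fixedInt A Γ) (Y → K))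

omit [IsAlgClosed K] [∀ i, IsFunctionFieldOne k (Fb i)] in
theorem const_mul_mem {h : Y → K} (hh : h ∈ B) (c : fixedInt A Γ) :
    (fun y => (c : K) * h y) ∈ B := B.smul_mem hh c

/-- A family of integral functions of bounded degree with coefficients in `B`. -/
structure Reg (N : ℕ) (f : Y → F) : Prop where
  polar : ∀ y, f y ∈ R.polarSp N
  integral : ∀ y, f y ∈ R.integers
  coef_mem : ∀ j, (fun y => E.coef j (f y)) ∈ B

variable {E B}

omit [∀ i, IsFunctionFieldOne k (Fb i)] in
theorem Reg.of_coords {N : ℕ} (C : E.Chart (R.polarSp N)) {f : Y → F}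
    (hf : ∀ y, f y ∈ R.polarSp N) (hint : ∀ a y, E.coef (C.J a) (f y) ∈ A)
    (hB : ∀ a, (fun y => E.coef (C.J a) (f y)) ∈ B) : Reg E B N f := by
  refine ⟨hf, fun y => C.mem_integers (hf y) fun a => hint a y, fun j => ?_⟩
  have e : (fun y => E.coef j (f y)) = ∑ a, fun y =>
      ((coefElem E j (C.e a).2 (C.mem a) (C.gal_e (fun g _ h => I.toRingAut_mem_polarSp g h) · a) :
        fixedInt A Γ) : K) * E.coef (C.J a) (f y) := by
    funext y
    conv_lhs => rw [C.repr _ (hf y)]
    rw [map_sum, Finset.sum_apply]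
    refine Finset.sum_congr rfl fun a _ => ?_
    rw [map_smul, smul_eq_mul, mul_comm]
    rfl
  rw [e]
  exact sum_mem fun a _ => const_mul_mem B (hB a) _

omit [IsAlgClosed K] [∀ i, IsFunctionFieldOne k (Fb i)] in
theorem Reg.mono {N N' : ℕ} {f : Y → F} (hf : Reg E B N f) (h : N ≤ N') : Reg E B N' f :=
  ⟨fun y => R.polarSp_mono h (hf.polar y), hf.integral, hf.coef_mem⟩

omit [IsAlgClosed K] [∀ i, IsFunctionFieldOne k (Fb i)] in
theorem Reg.const {N : ℕ} {f : F} (hf : f ∈ R.polarSp N) (hint : f ∈ R.integers)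
    (hfix : ∀ g : Γ, SemilinearAut.toRingAut (I.gal g) f = f) :
    Reg E B N (fun _ : Y => f) :=
  ⟨fun _ => hf, fun _ => hint, fun j => B.algebraMap_mem (coefElem E j hint hf hfix)⟩

omit [IsAlgClosed K] [∀ i, IsFunctionFieldOne k (Fb i)] in
theorem Reg.sum_smul {N : ℕ} {κ : Type*} [Fintype κ] (c : κ → fixedInt A Γ) {f : κ → Y → F}
    (hf : ∀ l, Reg E B N (f l)) : Reg E B N fun y => ∑ l, ((c l : fixedInt A Γ) : K) • f l y := by
  refine ⟨fun y => Submodule.sum_mem _ fun l _ => Submodule.smul_mem _ _ ((hf l).polar y),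
    fun y => sum_mem fun l _ => R.smul_mem_integers ⟨_, (c l).2.1⟩ ((hf l).integral y), fun j => ?_⟩
  have e : (fun y => E.coef j (∑ l, ((c l : fixedInt A Γ) : K) • f l y)) =
      ∑ l, fun y => ((c l : fixedInt A Γ) : K) * E.coef j (f l y) := by
    funext y
    rw [map_sum, Finset.sum_apply]
    exact Finset.sum_congr rfl fun l _ => map_smul _ _ _
  rw [e]
  exact sum_mem fun l _ => const_mul_mem B ((hf l).coef_mem j) _

omit [∀ i, IsFunctionFieldOne k (Fb i)] in
theorem Reg.mul {M N : ℕ} {f g : Y → F} (hf : Reg E B M f) (hg : Reg E B N g) :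
    Reg E B (M + N) fun y => f y * g y := by
  haveI := R.finiteDimensional_polarSp M
  haveI := R.finiteDimensional_polarSp N
  obtain ⟨C⟩ := E.exists_chart (R.polarSp M) le_rfl
  obtain ⟨C'⟩ := E.exists_chart (R.polarSp N) le_rfl
  refine ⟨fun y => R.mul_mem_polarSp (hf.polar y) (hg.polar y),
    fun y => mul_mem (hf.integral y) (hg.integral y), fun j => ?_⟩
  have hfix : ∀ (a : Fin C.d) (a' : Fin C'.d) (s : Γ),
      SemilinearAut.toRingAut (I.gal s) ((C.e a : F) * (C'.e a' : F)) =
        (C.e a : F) * (C'.e a' : F) := fun a a' s => by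
    rw [map_mul, C.gal_e (fun g _ h => I.toRingAut_mem_polarSp g h),
      C'.gal_e (fun g _ h => I.toRingAut_mem_polarSp g h)]
  have e : (fun y => E.coef j (f y * g y)) = ∑ a, ∑ a', fun y =>
      ((coefElem E j (mul_mem (C.e a).2 (C'.e a').2)
        (R.mul_mem_polarSp (C.mem a) (C'.mem a')) (hfix a a') : fixedInt A Γ) : K) *
        (E.coef (C.J a) (f y) * E.coef (C'.J a') (g y)) := by
    funext y
    conv_lhs => rw [C.repr _ (hf.polar y), C'.repr _ (hg.polar y)]
    rw [Finset.sum_mul_sum]
    simp only [smul_mul_smul_comm, map_sum, map_smul, smul_eq_mul, Finset.sum_apply]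
    exact Finset.sum_congr rfl fun a _ => Finset.sum_congr rfl fun a' _ => by
      rw [mul_comm]; rfl
  rw [e]
  exact sum_mem fun a _ => sum_mem fun a' _ =>
    const_mul_mem B (mul_mem (hf.coef_mem _) (hg.coef_mem _)) _

theorem Lifts.value_fixed {P₀ : Place K F} {Q : Σ i, Place k (Fb i)} (hP : Lifts I P₀ Q) {N : ℕ}
    {f : F} (hf : f ∈ R.polarSp N) (hint : f ∈ R.integers)
    (hfix : ∀ g : Γ, SemilinearAut.toRingAut (I.gal g) f = f) :
    placeValue P₀ f ∈ fixedInt A Γ :=
  ⟨hP.integral N ⟨f, hint⟩ hf, fun g => by rw [← hP.equivariant g N f hf, hfix]⟩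

theorem placeValue_sum {P₀ : Place K F} (hP : 0 ≤ P₀.ord R.x) {N : ℕ} {κ : Type*}
    (s : Finset κ) (c : κ → K) (f : κ → F) (hf : ∀ l, f l ∈ R.polarSp N) :
    placeValue P₀ (∑ l ∈ s, c l • f l) = ∑ l ∈ s, c l * placeValue P₀ (f l) := by
  classical
  induction s using Finset.induction_on with
  | empty => simp [placeValue_zero]
  | @insert l s hls ih =>
    have h1 := mem_place_of_mem_polarSp hP
      (Submodule.sum_mem (R.polarSp N) fun l' (_ : l' ∈ s) => Submodule.smul_mem _ (c l') (hf l'))
    have h2 := mem_place_of_mem_polarSp hP (Submodule.smul_mem _ (c l) (hf l))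
    rw [Finset.sum_insert hls, Finset.sum_insert hls, placeValue_add _ h2 h1, ih,
      placeValue_smul _ _ (mem_place_of_mem_polarSp hP (hf l))]

variable (E)
variable (P : Pins G I m) (hm : Large G n m)

omit hm in
theorem finiteDimensional_classSp (c : kernelGroup R n) : FiniteDimensional K (P.classSp c) :=
  P.finiteDimensional_lineSp

/-- Coordinates on the space of the trivial class. -/
def baseChart : E.Chart (P.lineSp (0 : Divisor K F)) :=
  haveI := P.finiteDimensional_lineSp (D := (0 : Divisor K F))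
  (E.exists_chart _ P.lineSp_le).some

/-- Coordinates on `L(2 m · poleX)`. -/
def bigChart (N : ℕ) : E.Chart (R.polarSp N) :=
  haveI := R.finiteDimensional_polarSp N
  (E.exists_chart _ le_rfl).some

include hm in
theorem exists_normVec (c : kernelGroup R n) :
    ∃ b : Fin (baseChart E P).d → R.integers, (∀ a, (b a : F) ∈ P.classSp c) ∧
      (∀ a a', E.coef ((baseChart E P).J a) (b a' : F) = if a = a' then 1 else 0) ∧
      (∀ f ∈ P.classSp c, f = ∑ a, E.coef ((baseChart E P).J a) f • (b a : F)) ∧
      ∀ a, R.red (b a) = R.red ((baseChart E P).e a) :=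
  haveI := finiteDimensional_classSp P c
  haveI := P.finiteDimensional_lineSp (D := (0 : Divisor K F))
  (baseChart E P).exists_transfer (N := m + m) P.lineSp_le ((P.spFibre_lineSp hm (kerForm_kerDiv c)).trans
    (P.spFibre_lineSp hm (KerForm.zero (R := R) (n := n))).symm)

/-- The normalised basis of the space of a class. -/
def normVec (c : kernelGroup R n) : Fin (baseChart E P).d → R.integers :=
  (exists_normVec E P hm c).choose

theorem normVec_mem (c : kernelGroup R n) (a : Fin (baseChart E P).d) :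
    (normVec E P hm c a : F) ∈ P.classSp c := (exists_normVec E P hm c).choose_spec.1 a

theorem normVec_dual (c : kernelGroup R n) (a a' : Fin (baseChart E P).d) :
    E.coef ((baseChart E P).J a) (normVec E P hm c a' : F) = if a = a' then 1 else 0 :=
  (exists_normVec E P hm c).choose_spec.2.1 a a'

theorem normVec_repr (c : kernelGroup R n) {f : F} (hf : f ∈ P.classSp c) :
    f = ∑ a, E.coef ((baseChart E P).J a) f • (normVec E P hm c a : F) :=
  (exists_normVec E P hm c).choose_spec.2.2.1 f hf

theorem red_normVec (c : kernelGroup R n) (a : Fin (baseChart E P).d) :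
    R.red (normVec E P hm c a) = R.red ((baseChart E P).e a) :=
  (exists_normVec E P hm c).choose_spec.2.2.2 a

theorem classSp_le (c : kernelGroup R n) : P.classSp c ≤ R.polarSp (m + m) := P.lineSp_le

variable (n) in
/-- The action on the kernel group. -/
def kerAct (g : Γ) : kernelGroup R n →+ kernelGroup R n :=
  ((DistribSMul.toAddMonoidHom (Pic0 K F) (I.gal g)).comp (kernelGroup R n).subtype).codRestrict _
    fun c => smul_mem_kernelGroup I g c.2

theorem coe_kerAct (g : Γ) (c : kernelGroup R n) :
    ((kerAct (I := I) n g c : kernelGroup R n) : Pic0 K F) = I.gal g • (c : Pic0 K F) := rfl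

theorem gal_normVec (g : Γ) (c : kernelGroup R n) (a : Fin (baseChart E P).d) :
    SemilinearAut.toRingAut (I.gal g) (normVec E P hm c a : F) =
      (normVec E P hm (kerAct (I := I) n g c) a : F) := by
  have hmem : SemilinearAut.toRingAut (I.gal g) (normVec E P hm c a : F) ∈
      P.classSp (kerAct (I := I) n g c) := by
    have hD : Pic0.mk (SemilinearAut.degZeroSMulHom (I.gal g) c.2.choose) =
        ((kerAct (I := I) n g c : kernelGroup R n) : Pic0 K F) := by
      rw [coe_kerAct]
      exact (SemilinearAut.pic0_smul_mk _ _).symm.trans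
        (congrArg (fun z : Pic0 K F => I.gal g • z) c.2.choose_spec.choose_spec.1)
    rw [P.classSp_eq hD, SemilinearAut.coe_degZeroSMulHom]
    exact P.toRingAut_mem_lineSp g (normVec_mem E P hm c a)
  rw [normVec_repr E P hm _ hmem, Finset.sum_eq_single a]
  · rw [E.coef_gal, normVec_dual, if_pos rfl, smul_one, one_smul]
  · intro b _ hb
    rw [E.coef_gal, normVec_dual, if_neg hb, smul_zero, zero_smul]
  · simp

/-- The coordinates of a class. -/
def coordFun (q : Fin (baseChart E P).d × Fin (bigChart E (m + m)).d) : kernelGroup R n → K :=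
  fun c => E.coef ((bigChart E (m + m)).J q.2) (normVec E P hm c q.1 : F)

theorem coordFun_mem_congFun (q : Fin (baseChart E P).d × Fin (bigChart E (m + m)).d) :
    coordFun E P hm q ∈ congFun A Γ (fun g => kerAct (I := I) n g) 0 := by
  refine ⟨fun c => E.coef_mem (normVec E P hm c q.1).2
    (classSp_le P c (normVec_mem E P hm c q.1)) _, fun g c => ?_, fun c => ?_⟩
  · show E.coef _ _ = g • E.coef _ _
    rw [← gal_normVec E P hm g c, E.coef_gal]
  · show E.coef _ _ - E.coef _ _ ∈ A.nonunits
    rw [← map_sub]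
    refine E.coef_nonunits_of_red_eq_zero (N := m + m)
      (f := ((normVec E P hm c q.1 - normVec E P hm 0 q.1 : R.integers) : F)) (Subtype.coe_prop _)
      (Submodule.sub_mem _ (classSp_le P c (normVec_mem E P hm c q.1))
        (classSp_le P 0 (normVec_mem E P hm 0 q.1))) ?_ _
    show R.red (normVec E P hm c q.1 - normVec E P hm 0 q.1) = 0
    rw [map_sub, red_normVec, red_normVec, sub_self]

/-- The algebra of coordinates. -/
def coordAlg : Subalgebra (fixedInt A Γ) (kernelGroup R n → K) :=
  Algebra.adjoin (fixedInt A Γ) (Set.range (coordFun E P hm))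

theorem coordAlg_le : coordAlg E P hm ≤ congFun A Γ (fun g => kerAct (I := I) n g) 0 :=
  Algebra.adjoin_le (Set.range_subset_iff.2 (coordFun_mem_congFun E P hm))

end Fermat.Agent.OrdinaryDatum

end
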