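/-
The coordinates of a sum of kernel classes are polynomial in those of the summands; the kernel
group has no trivial constituent.
-/
import Fermat.Agent.OrdinaryDatum.KernelRegular

set_option autoImplicit false

noncomputable section

namespace Fermat.Agent.OrdinaryDatum

open AlgebraicCurve IntermediateField Fermat.Agent.Curve Fermat.Agent.Bad
open Fermat.Agent.Bad.MultiReduction

universe uK uF uι uk uFb uG

variable {K : Type uK} [Field K] {A : ValuationSubring K}
  {F : Type uF} [Field F] [Algebra K F] {ι : Type uι} [Fintype ι]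
  {k : Type uk} [Field k] {Fb : ι → Type uFb} [∀ i, Field (Fb i)] [∀ i, Algebra k (Fb i)]
  [IsAlgClosed K] [IsFunctionFieldOne K F] [∀ i, IsFunctionFieldOne k (Fb i)]
  {R : MultiReduction A F k Fb} {G : Gluing R}
  {Γ : Type uG} [Group Γ] [MulSemiringAction Γ K] {I : InertialAction R Γ} {n m : ℕ}
  (E : Coeffs I) (P : Pins G I m) (hm : Large G n m)

variable (R I n) in
/-- The diagonal action on pairs. -/
def pairAct (g : Γ) (y : kernelGroup R n × kernelGroup R n) :
    kernelGroup R n × kernelGroup R n :=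
  (kerAct (I := I) n g y.1, kerAct (I := I) n g y.2)

/-- The algebra generated by the coordinates of two classes. -/
def pairAlg : Subalgebra (fixedInt A Γ) (kernelGroup R n × kernelGroup R n → K) :=
  Algebra.adjoin (fixedInt A Γ)
    (Set.range (fun q y => coordFun E P hm q y.1) ∪ Set.range (fun q y => coordFun E P hm q y.2))

theorem pairAlg_le :
    pairAlg E P hm ≤ congFun A Γ (pairAct R I n) ((0, 0) : kernelGroup R n × kernelGroup R n) := by
  refine Algebra.adjoin_le ?_
  rintro _ (⟨q, rfl⟩ | ⟨q, rfl⟩) <;> have h := coordFun_mem_congFun E P hm q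
  · exact ⟨fun y => h.1 y.1, fun g y => h.2.1 g y.1, fun y => h.2.2 y.1⟩
  · exact ⟨fun y => h.1 y.2, fun g y => h.2.1 g y.2, fun y => h.2.2 y.2⟩

theorem bijective_kerAct [Finite (kernelGroup R n)] (g : Γ) :
    Function.Bijective (kerAct (I := I) (R := R) n g) :=
  Finite.injective_iff_bijective.1 fun c d h => by
    have := congrArg Subtype.val h
    rw [coe_kerAct, coe_kerAct] at this
    exact Subtype.ext (MulAction.injective (I.gal g) this)

theorem bijective_pairAct [Finite (kernelGroup R n)] (g : Γ) :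
    Function.Bijective (pairAct R I n g) :=
  Function.Bijective.prodMap (bijective_kerAct g) (bijective_kerAct g)

theorem reg_normVec_fst (a : Fin (baseChart E P).d) :
    Reg E (pairAlg E P hm) (m + m) fun y => (normVec E P hm y.1 a : F) :=
  Reg.of_coords (bigChart E (m + m)) (fun y => classSp_le P y.1 (normVec_mem E P hm y.1 a))
    (fun _ y => E.coef_mem (normVec E P hm y.1 a).2 (classSp_le P y.1 (normVec_mem E P hm y.1 a)) _)
    fun j => Algebra.subset_adjoin (Or.inl ⟨(a, j), rfl⟩)

theorem reg_normVec_snd (a : Fin (baseChart E P).d) :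
    Reg E (pairAlg E P hm) (m + m) fun y => (normVec E P hm y.2 a : F) :=
  Reg.of_coords (bigChart E (m + m)) (fun y => classSp_le P y.2 (normVec_mem E P hm y.2 a))
    (fun _ y => E.coef_mem (normVec E P hm y.2 a).2 (classSp_le P y.2 (normVec_mem E P hm y.2 a)) _)
    fun j => Algebra.subset_adjoin (Or.inr ⟨(a, j), rfl⟩)

theorem e₀_mul_injective : Function.Injective (LinearMap.mulLeft k P.e₀) :=
  fun _ _ h => funext fun i => mul_left_cancel₀ (P.e₀_ne i) (congrFun h i)

/-- The divisor of a pair of classes. -/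
def pairDiv (y : kernelGroup R n × kernelGroup R n) : Divisor K F := kerDiv y.1 + kerDiv y.2

include hm in
theorem exists_cofactor (c : kernelGroup R n) (a : Fin (baseChart E P).d) {s : R.integers}
    (hs : (s : F) ∈ P.pinSpace (kerDiv c)) (hsr : R.red s = P.e₀) :
    ∃ t : R.integers, (t : F) ∈ R.twistSp (-kerDiv c) m ∧ (normVec E P hm c a : F) = s * t := by
  have h : (normVec E P hm c a : F) ∈ P.lineSp (kerDiv c) := normVec_mem E P hm c a
  rw [P.lineSp_eq_map hm (kerForm_kerDiv c) hs hsr] at h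
  obtain ⟨t, ht, hts⟩ := h
  have hne : ∀ i, R.red s i ≠ 0 := fun i => by rw [hsr]; exact P.e₀_ne i
  obtain ⟨i⟩ := R.nonempty
  have hs0 : (s : F) ≠ 0 := R.red_ne_zero_of_ne (hne i)
  refine ⟨⟨t, ?_⟩, ht, hts.symm⟩
  have ht' : t = (s : F)⁻¹ * (normVec E P hm c a : F) := by
    rw [← hts, LinearMap.mulLeft_apply, inv_mul_cancel_left₀ hs0]
  rw [ht']
  exact mul_mem (R.inv_mem_integers hne) (normVec E P hm c a).2

include hm in
/-- A regular family of bases of the products of the spaces of two classes. -/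
theorem exists_pairBasis :
    ∃ (κ : Type) (_ : Fintype κ) (p : κ → kernelGroup R n × kernelGroup R n → F)
      (c : κ → kernelGroup R n × kernelGroup R n → R.integers)
      (u : kernelGroup R n × kernelGroup R n → R.integers) (yb : κ → ∀ i, Fb i),
      (∀ l, Reg E (pairAlg E P hm) ((m + m) + (m + m)) (p l)) ∧
      (∀ y l, p l y = (u y : F) * (c l y : F)) ∧
      (∀ y, R.red (u y) = P.e₀ * P.e₀) ∧
      (∀ y l, (c l y : F) ∈ R.twistSp (-pairDiv y) (m + m)) ∧
      (∀ y l, R.red (c l y) = yb l) ∧ LinearIndependent k yb ∧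
      (∀ l, yb l ∈ R.spFibre (R.polarSp (m + m))) ∧
      R.spFibre (R.polarSp (m + m)) ≤ Submodule.span k (Set.range yb) := by
  classical
  set C := baseChart E P
  haveI : FiniteDimensional K (P.lineSp (0 : Divisor K F)) := P.finiteDimensional_lineSp
  have hfib := P.spFibre_lineSp hm (KerForm.zero (R := R) (n := n))
  have hη : ∀ a, ∃ η ∈ R.spFibre (R.polarSp m), R.red (C.e a) = P.e₀ * η := fun a => by
    have h : R.red (C.e a) ∈ R.spFibre (P.lineSp (0 : Divisor K F)) := ⟨C.e a, C.mem a, rfl⟩
    rw [hfib] at h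
    obtain ⟨η, hη, h⟩ := h
    exact ⟨η, hη, h.symm⟩
  choose η hηW hηe using hη
  have hspan : R.spFibre (R.polarSp m) ≤ Submodule.span k (Set.range η) := by
    intro y hy
    have h : P.e₀ * y ∈ R.spFibre (P.lineSp (0 : Divisor K F)) := hfib ▸ ⟨y, hy, rfl⟩
    obtain ⟨f, hf, hfy⟩ := h
    rw [show f = (⟨(f : F), f.2⟩ : R.integers) from rfl, C.red_eq hf f.2] at hfy
    simp only [hηe, ← mul_smul_comm, ← Finset.mul_sum] at hfy
    rw [← e₀_mul_injective P (show LinearMap.mulLeft k P.e₀ _ = LinearMap.mulLeft k P.e₀ y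
      from hfy)]
    exact Submodule.sum_mem _ fun a _ => Submodule.smul_mem _ _ (Submodule.subset_span ⟨a, rfl⟩)
  obtain ⟨κ, em, hem, hsp, hli⟩ :=
    exists_linearIndependent' k (fun l : Fin C.d × Fin C.d => η l.1 * η l.2)
  haveI : Fintype κ := Fintype.ofInjective em hem
  choose s hs hsr using fun c : kernelGroup R n => P.exists_pinned hm (kerForm_kerDiv c)
  choose t ht hts using fun (c : kernelGroup R n) a => exists_cofactor E P hm c a (hs c) (hsr c)
  have htr : ∀ c a, R.red (t c a) = η a := by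
    intro c a
    refine e₀_mul_injective P ?_
    show P.e₀ * R.red (t c a) = P.e₀ * η a
    rw [← hηe, ← red_normVec E P hm c a, ← hsr c, ← map_mul]
    exact congrArg _ (Subtype.ext (hts c a).symm)
  refine ⟨κ, inferInstance,
    fun l y => (normVec E P hm y.1 (em l).1 : F) * (normVec E P hm y.2 (em l).2 : F),
    fun l y => t y.1 (em l).1 * t y.2 (em l).2, fun y => s y.1 * s y.2,
    fun l => η (em l).1 * η (em l).2,
    fun l => (reg_normVec_fst E P hm _).mul (reg_normVec_snd E P hm _),
    fun y l => ?_, fun y => by rw [map_mul, hsr, hsr], fun y l => ?_,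
    fun y l => by rw [map_mul, htr, htr], hli,
    fun l => R.mul_mem_spFibre_polar (hηW _) (hηW _), ?_⟩
  · show (normVec E P hm y.1 (em l).1 : F) * (normVec E P hm y.2 (em l).2 : F) = _
    rw [hts y.1, hts y.2, MulMemClass.coe_mul, MulMemClass.coe_mul]
    ring
  · rw [pairDiv, neg_add]
    exact R.mul_mem_twistSp (ht y.1 _) (ht y.2 _)
  · rw [hm.spFibre_two_mul le_rfl]
    refine (mul_le_mul' hspan hspan).trans ?_
    rw [Submodule.span_mul_span]
    refine Submodule.span_le.2 ?_
    rintro _ ⟨_, ⟨a, rfl⟩, _, ⟨a', rfl⟩, rfl⟩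
    exact hsp.ge (Submodule.subset_span ⟨(a, a'), rfl⟩)

variable {E}

omit [IsAlgClosed K] [∀ i, IsFunctionFieldOne k (Fb i)] in
theorem coef_sum_mul {κ : Type*} (s : Finset κ) (c : κ → K) (e : κ → F) (q : F) (j : E.Idx) :
    E.coef j ((∑ i ∈ s, c i • e i) * q) = ∑ i ∈ s, E.coef j (e i * q) * c i := by
  rw [Finset.sum_mul, map_sum]
  exact Finset.sum_congr rfl fun i _ => by
    rw [smul_mul_assoc, map_smul, smul_eq_mul, mul_comm]

variable (E)

include hm in
/-- A regular family spanning the space of the sum, in a larger degree. -/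
theorem exists_pairLine [Finite (kernelGroup R n)] {κ : Type} [Fintype κ]
    (p : κ → kernelGroup R n × kernelGroup R n → F)
    (c : κ → kernelGroup R n × kernelGroup R n → R.integers)
    (u : kernelGroup R n × kernelGroup R n → R.integers) (yb : κ → ∀ i, Fb i)
    (hp : ∀ l, Reg E (pairAlg E P hm) ((m + m) + (m + m)) (p l))
    (hpc : ∀ y l, p l y = (u y : F) * (c l y : F))
    (hu : ∀ y, R.red (u y) = P.e₀ * P.e₀)
    (hc : ∀ y l, (c l y : F) ∈ R.twistSp (-pairDiv y) (m + m))
    (hcr : ∀ y l, R.red (c l y) = yb l)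
    (hspan : R.spFibre (R.polarSp (m + m)) ≤ Submodule.span k (Set.range yb)) :
    ∃ (v : κ → kernelGroup R n × kernelGroup R n → F)
      (e : kernelGroup R n × kernelGroup R n → R.integers),
      (∀ l, Reg E (pairAlg E P hm) (m + (m + m)) (v l)) ∧
      (∀ y, (e y : F) ∈ P.pinSpace (pairDiv y)) ∧ (∀ y, R.red (e y) = P.e₀) ∧
      ∀ y l, v l y = (e y : F) * (c l y : F) := by
  classical
  haveI := R.isAlgClosed_residue
  set L := m + (m + m)
  set B := pairAlg E P hm
  -- the distinguished element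
  obtain ⟨ν, hν⟩ := (Submodule.mem_span_range_iff_exists_fun k).1
    (hspan (R.one_mem_spFibre_polar (m + m)))
  choose νl hνl hνfix using fun l => E.exists_fixed_lift (ν l)
  let νe : κ → fixedInt A Γ := fun l => fixedElem (νl l).2 (hνfix l)
  let c₁ : kernelGroup R n × kernelGroup R n → F := fun y => ∑ l, (νl l : K) • (c l y : F)
  let q₁ : kernelGroup R n × kernelGroup R n → F := fun y => ∑ l, (νl l : K) • p l y
  have hq₁ : Reg E B ((m + m) + (m + m)) q₁ := Reg.sum_smul νe hp
  have hc₁i : ∀ y, c₁ y ∈ R.integers := fun y =>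
    sum_mem fun l _ => R.smul_mem_integers (νl l) (c l y).2
  have hc₁r : ∀ y, R.red ⟨c₁ y, hc₁i y⟩ = 1 := fun y => by
    rw [R.red_sum_smul Finset.univ νl (fun l => c l y) (hc₁i y), ← hν]
    exact Finset.sum_congr rfl fun l _ => by rw [hνl, hcr]
  have hc₁t : ∀ y, c₁ y ∈ R.twistSp (-pairDiv y) (m + m) := fun y =>
    Submodule.sum_mem _ fun l _ => Submodule.smul_mem _ _ (hc y l)
  have hq₁u : ∀ y, q₁ y = (u y : F) * c₁ y := fun y => by
    simp only [q₁, c₁, Finset.mul_sum]
    exact Finset.sum_congr rfl fun l _ => by rw [hpc, mul_smul_comm]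
  -- the normalisation
  set C := bigChart E L
  have hstab := fun g f (h : f ∈ R.polarSp L) => I.toRingAut_mem_polarSp g h
  obtain ⟨w₀, hw₀, hw₀r, hw₀fix⟩ := C.exists_fixed_lift hstab
    (R.spFibre_polar_mono (show m ≤ L by omega) P.e₀_mem)
  obtain ⟨a₀, ha₀⟩ : ∃ a, E.coef (C.J a) (w₀ : F) ∉ A.nonunits := by
    by_contra hcon
    push Not at hcon
    obtain ⟨i⟩ := R.nonempty
    have h := C.red_eq_zero hw₀ w₀.2 hcon
    rw [show (⟨(w₀ : F), w₀.2⟩ : R.integers) = w₀ from rfl, hw₀r] at h
    exact P.e₀_ne i (congrFun h i)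
  set γ₀ : fixedInt A Γ := coefElem E (C.J a₀) w₀.2 hw₀ hw₀fix
  -- the pointwise solution
  have hker : ∀ y : kernelGroup R n × kernelGroup R n, KerForm R n (pairDiv y)
      (kerFun y.1 * kerFun y.2) := fun y => (kerForm_kerDiv y.1).add (kerForm_kerDiv y.2)
  choose s hs hsr using fun y => P.exists_pinned hm (hker y)
  have hsc : ∀ y, (s y : F) * c₁ y ∈ R.polarSp L := fun y =>
    mul_mem_polarSp_of_neg (hs y).1 (hc₁t y)
  have hscr : ∀ y, R.red (s y * ⟨c₁ y, hc₁i y⟩) = P.e₀ := fun y => by
    rw [map_mul, hsr, hc₁r, mul_one]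
  set γ : kernelGroup R n × kernelGroup R n → A := fun y =>
    ⟨_, E.coef_mem (mul_mem (s y).2 (hc₁i y)) (hsc y) (C.J a₀)⟩
  have hγ : ∀ y, R.π (γ y) = R.π ⟨_, γ₀.2.1⟩ := fun y => by
    rw [← sub_eq_zero, ← map_sub, π_eq_zero_iff_nonunits]
    have h := E.coef_nonunits_of_red_eq_zero (N := L)
      (f := ((s y * ⟨c₁ y, hc₁i y⟩ - w₀ : R.integers) : F)) (Subtype.coe_prop _)
      (Submodule.sub_mem _ (hsc y) hw₀)
      (by show R.red (s y * ⟨c₁ y, hc₁i y⟩ - w₀) = 0; rw [map_sub, hscr, hw₀r, sub_self]) (C.J a₀)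
    simp only [AddSubgroupClass.coe_sub, MulMemClass.coe_mul, map_sub] at h
    exact h
  have hγ0 : R.π ⟨_, γ₀.2.1⟩ ≠ 0 := fun h => ha₀ ((π_eq_zero_iff_nonunits R _).1 h)
  have hγu : ∀ y, IsUnit (γ y) := fun y => not_not.1 fun h =>
    hγ0 ((hγ y).symm.trans ((R.π_eq_zero_iff _).2 h))
  choose γi hγi using fun y => isUnit_iff_exists_inv.1 (hγu y)
  set lam : kernelGroup R n × kernelGroup R n → A := fun y => ⟨_, γ₀.2.1⟩ * γi y
  have hlam : ∀ y, R.π (lam y) = 1 := fun y => by
    have h := congrArg R.π (hγi y)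
    rw [map_mul, map_one, hγ] at h
    rw [map_mul]
    exact h
  let e : kernelGroup R n × kernelGroup R n → R.integers := fun y =>
    ⟨_, R.smul_mem_integers (lam y) (s y).2⟩
  have he : ∀ y, (e y : F) ∈ P.pinSpace (pairDiv y) := fun y => Submodule.smul_mem _ _ (hs y)
  have her : ∀ y, R.red (e y) = P.e₀ := fun y => by
    show R.red ⟨(lam y : K) • (s y : F), _⟩ = _
    rw [R.red_smul, hlam, one_smul, hsr]
  refine ⟨fun l y => (e y : F) * (c l y : F), e, ?_, he, her, fun _ _ => rfl⟩
  let w : kernelGroup R n × kernelGroup R n → F := fun y => (e y : F) * c₁ y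
  have hwi : ∀ y, w y ∈ R.integers := fun y => mul_mem (e y).2 (hc₁i y)
  have hwp : ∀ y, w y ∈ R.polarSp L := fun y => mul_mem_polarSp_of_neg (he y).1 (hc₁t y)
  have hvp : ∀ y l, (e y : F) * (c l y : F) ∈ R.polarSp L := fun y l =>
    mul_mem_polarSp_of_neg (he y).1 (hc y l)
  have hwa : ∀ y, E.coef (C.J a₀) (w y) = ((γ₀ : fixedInt A Γ) : K) := fun y => by
    have h1 : w y = (lam y : K) • ((s y : F) * c₁ y) := by
      show ((lam y : K) • (s y : F)) * c₁ y = _
      rw [smul_mul_assoc]
    have h2 : (lam y * γ y : A) = ⟨_, γ₀.2.1⟩ := by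
      show (⟨_, γ₀.2.1⟩ * γi y) * γ y = _
      rw [mul_assoc, mul_comm (γi y), hγi, mul_one]
    rw [h1, map_smul, smul_eq_mul]
    exact congrArg Subtype.val h2
  have hwq : ∀ q y, placeValue (P.pt q) (w y) = 0 := fun q y => by
    have h := hc₁t y
    have hsplit := hm.twistSp_mul (hker y).neg (KerForm.zero (R := R) (n := n)) (le_refl m)
    rw [add_zero] at hsplit
    rw [← hsplit] at h
    suffices H : ∀ z ∈ R.twistSp (-pairDiv y) m * R.twistSp 0 m,
        z ∈ R.twistSp (-pairDiv y) (m + m) ∧ placeValue (P.pt q) ((e y : F) * z) = 0 from (H _ h).2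
    intro z hz
    refine Submodule.mul_induction_on hz (fun a ha b hb => ⟨?_, ?_⟩) fun a b ha hb => ⟨?_, ?_⟩
    · have := R.mul_mem_twistSp ha hb
      rwa [add_zero] at this
    · rw [R.twistSp_zero] at hb
      rw [← mul_assoc, placeValue_mul _
        (mem_place_of_mem_polarSp (P.lifts q).regular (mul_mem_polarSp_of_neg (he y).1 ha))
        (mem_place_of_mem_polarSp (P.lifts q).regular hb), (he y).2 q a ha, zero_mul]
    · exact Submodule.add_mem _ ha.1 hb.1
    · rw [mul_add, placeValue_add _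
        (mem_place_of_mem_polarSp (P.lifts q).regular (mul_mem_polarSp_of_neg (he y).1 ha.1))
        (mem_place_of_mem_polarSp (P.lifts q).regular (mul_mem_polarSp_of_neg (he y).1 hb.1)),
        ha.2, hb.2, add_zero]
  -- the system
  set C' := bigChart E (L + ((m + m) + (m + m)))
  have hCfix := C.gal_e hstab
  have hregC : ∀ i, Reg E B L fun _ => (C.e i : F) := fun i =>
    Reg.const (C.mem i) (C.e i).2 fun g => hCfix g i
  let M : ((κ × Fin C'.d) ⊕ (P.σ ⊕ Unit)) → (Fin C.d ⊕ (κ × Fin C.d)) →
      kernelGroup R n × kernelGroup R n → K := fun eq un y =>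
    match eq, un with
    | .inl (l, a), .inl i => E.coef (C'.J a) ((C.e i : F) * p l y)
    | .inl (l, a), .inr (l', i) => if l' = l then -E.coef (C'.J a) ((C.e i : F) * q₁ y) else 0
    | .inr (.inl q), .inl i => placeValue (P.pt q) (C.e i : F)
    | .inr (.inl _), .inr _ => 0
    | .inr (.inr _), .inl i => if i = a₀ then 1 else 0
    | .inr (.inr _), .inr _ => 0
  let b : ((κ × Fin C'.d) ⊕ (P.σ ⊕ Unit)) → kernelGroup R n × kernelGroup R n → K := fun eq _ =>
    match eq with
    | .inl _ => 0
    | .inr (.inl _) => 0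
    | .inr (.inr _) => ((γ₀ : fixedInt A Γ) : K)
  let v : (Fin C.d ⊕ (κ × Fin C.d)) → kernelGroup R n × kernelGroup R n → K := fun un y =>
    match un with
    | .inl i => E.coef (C.J i) (w y)
    | .inr (l, i) => E.coef (C.J i) ((e y : F) * (c l y : F))
  have hsolve := solve_mem (act := pairAct R I n) (y₀ := ((0, 0) : kernelGroup R n × kernelGroup R n))
    (fun g => bijective_pairAct g) R.π_surjective (π_eq_zero_iff_nonunits R)
    (pairAlg_le E P hm) M ?hM b ?hb v ?hv ?hsol ?hinj
  case hM =>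
    rintro (⟨l, a⟩ | q | _) (i | ⟨l', i⟩)
    · exact ((hregC i).mul (hp l)).coef_mem _
    · by_cases h : l' = l
      · have e1 : M (.inl (l, a)) (.inr (l', i)) =
            -fun y => E.coef (C'.J a) ((C.e i : F) * q₁ y) := funext fun y => if_pos h
        rw [e1]; exact B.neg_mem (((hregC i).mul hq₁).coef_mem _)
      · have e1 : M (.inl (l, a)) (.inr (l', i)) = 0 := funext fun y => if_neg h
        rw [e1]; exact B.zero_mem
    · exact B.algebraMap_mem
        ⟨_, Lifts.value_fixed (P.lifts q) (C.mem i) (C.e i).2 fun g => hCfix g i⟩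
    · exact B.zero_mem
    · by_cases h : i = a₀
      · have e1 : M (.inr (.inr PUnit.unit)) (.inl i) = 1 := funext fun y => if_pos h
        rw [e1]; exact B.one_mem
      · have e1 : M (.inr (.inr PUnit.unit)) (.inl i) = 0 := funext fun y => if_neg h
        rw [e1]; exact B.zero_mem
    · exact B.zero_mem
  case hb =>
    rintro (⟨l, a⟩ | q | _)
    · exact B.zero_mem
    · exact B.zero_mem
    · exact B.algebraMap_mem γ₀
  case hv =>
    rintro (i | ⟨l, i⟩) y
    · exact E.coef_mem (hwi y) (hwp y) _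
    · exact E.coef_mem (mul_mem (e y).2 (c l y).2) (hvp y l) _
  case hsol =>
    rintro (⟨l, a⟩ | q | _) y <;> rw [Fintype.sum_sum_type]
    · have e1 : ∑ i, M (.inl (l, a)) (.inl i) y * v (.inl i) y =
          E.coef (C'.J a) (w y * p l y) := by
        conv_rhs => rw [C.repr _ (hwp y), coef_sum_mul]
      have e2 : ∑ x, M (.inl (l, a)) (.inr x) y * v (.inr x) y =
          -E.coef (C'.J a) (((e y : F) * (c l y : F)) * q₁ y) := by
        rw [Fintype.sum_prod_type, Finset.sum_eq_single l (fun l' _ hl' =>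
          Finset.sum_eq_zero fun i _ => by simp [M, hl']) (by simp)]
        conv_rhs => rw [C.repr _ (hvp y l), coef_sum_mul, ← Finset.sum_neg_distrib]
        exact Finset.sum_congr rfl fun i _ => by simp [M, v]
      rw [e1, e2, show w y * p l y = ((e y : F) * (c l y : F)) * q₁ y by
        rw [hpc, hq₁u]; simp only [w]; ring]
      exact add_neg_cancel _
    · rw [Finset.sum_eq_zero (s := Finset.univ (α := κ × Fin C.d)) fun x _ => by simp [M], add_zero]
      show _ = (0 : K)
      rw [← hwq q y]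
      conv_rhs => rw [C.repr _ (hwp y),
        placeValue_sum (P.lifts q).regular _ _ _ fun i => C.mem i]
      exact Finset.sum_congr rfl fun i _ => mul_comm _ _
    · rw [Finset.sum_eq_zero (s := Finset.univ (α := κ × Fin C.d)) fun x _ => by simp [M], add_zero,
        Finset.sum_eq_single a₀ (fun i _ hi => by simp [M, hi]) (by simp)]
      simp [M, v, b, hwa]
  case hinj =>
    intro wt hwt
    set y₀ : kernelGroup R n × kernelGroup R n := (0, 0)
    set W : R.integers := ⟨∑ i, (wt (.inl i) : K) • (C.e i : F),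
      sum_mem fun i _ => R.smul_mem_integers _ (C.e i).2⟩
    set V : κ → R.integers := fun l => ⟨∑ i, (wt (.inr (l, i)) : K) • (C.e i : F),
      sum_mem fun i _ => R.smul_mem_integers _ (C.e i).2⟩
    have hWp : ∑ i, (wt (.inl i) : K) • (C.e i : F) ∈ R.polarSp L :=
      Submodule.sum_mem _ fun i _ => Submodule.smul_mem _ _ (C.mem i)
    have hVp : ∀ l, ∑ i, (wt (.inr (l, i)) : K) • (C.e i : F) ∈ R.polarSp L := fun l =>
      Submodule.sum_mem _ fun i _ => Submodule.smul_mem _ _ (C.mem i)
    set pI : κ → R.integers := fun l => ⟨p l y₀, (hp l).integral y₀⟩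
    set qI : R.integers := ⟨q₁ y₀, hq₁.integral y₀⟩
    have hpr : ∀ l, R.red (pI l) = P.e₀ * P.e₀ * yb l := fun l => by
      rw [show pI l = u y₀ * c l y₀ from Subtype.ext (hpc y₀ l), map_mul, hu, hcr]
    have hqr : R.red qI = P.e₀ * P.e₀ := by
      rw [show qI = u y₀ * ⟨c₁ y₀, hc₁i y₀⟩ from Subtype.ext (hq₁u y₀), map_mul, hu, hc₁r, mul_one]
    have hrel : ∀ l, R.red W * yb l = R.red (V l) := by
      intro l
      have hmem : ((W * pI l - V l * qI : R.integers) : F) ∈
          R.polarSp (L + ((m + m) + (m + m))) :=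
        Submodule.sub_mem _ (R.mul_mem_polarSp hWp ((hp l).polar _))
          (R.mul_mem_polarSp (hVp l) (hq₁.polar _))
      have h0 := C'.red_eq_zero hmem (Subtype.coe_prop _) fun a => by
        have h := hwt (.inl (l, a))
        rw [Fintype.sum_sum_type, Fintype.sum_prod_type, Finset.sum_eq_single l (fun l' _ hl' =>
          Finset.sum_eq_zero fun i _ => by simp [M, hl']) (by simp)] at h
        rw [show E.coef (C'.J a) ((W * pI l - V l * qI : R.integers) : F) =
          ∑ i, M (.inl (l, a)) (.inl i) y₀ * (wt (.inl i) : K) +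
            ∑ i, M (.inl (l, a)) (.inr (l, i)) y₀ * (wt (.inr (l, i)) : K) by
          simp only [AddSubgroupClass.coe_sub, MulMemClass.coe_mul, W, V, pI, qI, map_sub,
            coef_sum_mul, M, if_pos, neg_mul, Finset.sum_neg_distrib, ← sub_eq_add_neg]]
        exact h
      have h1 : R.red (W * pI l - V l * qI) = 0 := h0
      rw [map_sub, map_mul, map_mul, hpr, hqr, sub_eq_zero] at h1
      funext i
      have h2 := congrFun h1 i
      simp only [Pi.mul_apply] at h2 ⊢
      have hne : P.e₀ i * P.e₀ i ≠ 0 := mul_ne_zero (P.e₀_ne i) (P.e₀_ne i)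
      refine mul_right_cancel₀ hne ?_
      linear_combination h2
    have hW1 : R.red W ∈ R.spFibre (R.polarSp m) := by
      refine mem_spFibre_of_mul_pow (a := L) (j := m + m) hm.bound_le ⟨W, hWp, rfl⟩ ?_
      have hx := hspan (R.pow_mem_spFibre_polar R.xb_mem_spFibre_polar (m + m) |> fun h => by
        rwa [mul_one] at h : xTuple R ^ (m + m) ∈ R.spFibre (R.polarSp (m + m)))
      obtain ⟨μ, hμ⟩ := (Submodule.mem_span_range_iff_exists_fun k).1 hx
      rw [← hμ, Finset.mul_sum]
      refine Submodule.sum_mem _ fun l _ => ?_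
      rw [mul_smul_comm, hrel]
      exact Submodule.smul_mem _ _ ⟨V l, hVp l, rfl⟩
    have hWq : ∀ q, bval (P.res q) (R.red W) = 0 := by
      intro q
      have hA := (P.lifts q).integral L W hWp
      rw [← (P.lifts q).red_eq L W hWp hA, π_eq_zero_iff_nonunits]
      have h := hwt (.inr (.inl q))
      rw [Fintype.sum_sum_type,
        Finset.sum_eq_zero (s := Finset.univ (α := κ × Fin C.d)) fun x _ => by simp [M],
        add_zero] at h
      show placeValue (P.pt q) (W : F) ∈ A.nonunits
      rw [show placeValue (P.pt q) (W : F) = ∑ i, M (.inr (.inl q)) (.inl i) y₀ *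
        (wt (.inl i) : K) by
        show placeValue (P.pt q) (∑ i, (wt (.inl i) : K) • (C.e i : F)) = _
        rw [placeValue_sum (P.lifts q).regular _ _ _ fun i => C.mem i]
        exact Finset.sum_congr rfl fun i _ => mul_comm _ _]
      exact h
    obtain ⟨μ, hμ⟩ := P.line _ hW1 hWq
    have hμ0 : μ = 0 := by
      obtain ⟨μl, hμl⟩ := R.π_surjective μ
      have hWa : E.coef (C.J a₀) (W : F) = (wt (.inl a₀) : K) := C.coef_sum _ _
      have hwa0 : (wt (.inl a₀) : K) ∈ A.nonunits := by
        have h := hwt (.inr (.inr PUnit.unit))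
        rw [Fintype.sum_sum_type,
          Finset.sum_eq_zero (s := Finset.univ (α := κ × Fin C.d)) fun x _ => by simp [M], add_zero,
          Finset.sum_eq_single a₀ (fun i _ hi => by simp [M, hi]) (by simp)] at h
        simpa [M] using h
      have hsmall := E.coef_nonunits_of_red_eq_zero
        (f := ((W - ⟨_, R.smul_mem_integers μl w₀.2⟩ : R.integers) : F)) (Subtype.coe_prop _)
        (Submodule.sub_mem _ hWp (Submodule.smul_mem _ _ hw₀))
        (by show R.red (W - ⟨_, R.smul_mem_integers μl w₀.2⟩) = 0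
            rw [map_sub, R.red_smul μl w₀, hμl, hw₀r, hμ, sub_self]) (C.J a₀)
      have h3 : R.π (wt (.inl a₀)) - μ * R.π ⟨_, γ₀.2.1⟩ = 0 := by
        rw [← hμl, ← map_mul, ← map_sub, π_eq_zero_iff_nonunits]
        simp only [AddSubgroupClass.coe_sub, map_sub, map_smul, smul_eq_mul, hWa] at hsmall
        exact hsmall
      rw [(π_eq_zero_iff_nonunits R _).2 hwa0, zero_sub, neg_eq_zero, mul_eq_zero] at h3
      exact h3.resolve_right hγ0
    have hW0 : R.red W = 0 := by rw [hμ, hμ0, zero_smul]
    rintro (i | ⟨l, i⟩)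
    · have h := E.coef_nonunits_of_red_eq_zero W.2 hWp hW0 (C.J i)
      rwa [show E.coef (C.J i) (W : F) = (wt (.inl i) : K) from C.coef_sum _ _] at h
    · have h := E.coef_nonunits_of_red_eq_zero (V l).2 (hVp l)
        (show R.red (V l) = 0 by rw [← hrel l, hW0, zero_mul]) (C.J i)
      rwa [show E.coef (C.J i) (V l : F) = (wt (.inr (l, i)) : K) from C.coef_sum _ _] at h
  intro l
  exact Reg.of_coords C (fun y => hvp y l) (fun i y => E.coef_mem (mul_mem (e y).2 (c l y).2) (hvp y l) _)
    fun i => hsolve (.inr (l, i))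

include hm in
/-- The coordinates of a sum lie in the algebra of the pair. -/
theorem coordFun_add_mem [Finite (kernelGroup R n)]
    (q : Fin (baseChart E P).d × Fin (bigChart E (m + m)).d) :
    (fun y : kernelGroup R n × kernelGroup R n => coordFun E P hm q (y.1 + y.2)) ∈
      pairAlg E P hm := by
  classical
  obtain ⟨κ, hκ, p, c, u, yb, hp, hpc, hu, hc, hcr, hli, hyb, hspan⟩ := exists_pairBasis E P hm
  obtain ⟨v, e, hv, he, her, hve⟩ := exists_pairLine E P hm p c u yb hp hpc hu hc hcr hspan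
  revert q
  set B := pairAlg E P hm
  set L := m + (m + m)
  set C₁ := baseChart E P
  set C₂ := bigChart E (m + m)
  set C₃ := bigChart E L
  rintro ⟨a, j⟩
  haveI : FiniteDimensional K (P.lineSp (0 : Divisor K F)) := P.finiteDimensional_lineSp
  have hker : ∀ y : kernelGroup R n × kernelGroup R n, KerForm R n (pairDiv y)
      (kerFun y.1 * kerFun y.2) := fun y => (kerForm_kerDiv y.1).add (kerForm_kerDiv y.2)
  have hline : ∀ y : kernelGroup R n × kernelGroup R n,
      P.classSp (y.1 + y.2) = P.lineSp (pairDiv y) := by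
    intro y
    rw [P.classSp_eq (D := y.1.2.choose + y.2.2.choose) ?_]
    · rfl
    · show Pic0.mk (y.1.2.choose + y.2.2.choose) = _
      rw [Pic0.mk_add, AddSubgroup.coe_add]
      exact congrArg₂ (· + ·) y.1.2.choose_spec.choose_spec.1 y.2.2.choose_spec.choose_spec.1
  have hxpow : R.x ^ m ∈ R.polarSp m := by
    simpa using R.pow_mem_polarSp R.x_mem_polarSp m
  -- the pointwise coefficients
  have hcomb : ∀ y, ∀ z : R.integers, (z : F) ∈ R.twistSp (-pairDiv y) (m + m) →
      ∃ ν : κ → A, (z : F) = ∑ l, (ν l : K) • (c l y : F) := by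
    intro y z hz
    haveI := R.finiteDimensional_twistSp (-pairDiv y) (m + m)
    obtain ⟨s, cf, h⟩ := exists_integral_combination (fun l => c l y) (hc y) (by
      rw [hm.twist_eq _ (by omega) _ _ (hker y).neg,
        show (fun l => R.red (c l y)) = yb from funext (hcr y)]
      exact hspan) hz
    refine ⟨fun l => if l ∈ s then cf l else 0, h.trans ?_⟩
    rw [← Finset.sum_subset (Finset.subset_univ s) fun l _ hl => by simp [hl]]
    exact Finset.sum_congr rfl fun l hl => by simp [hl]
  have hcof : ∀ y, ∃ t : R.integers, (t : F) ∈ R.twistSp (-pairDiv y) m ∧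
      (normVec E P hm (y.1 + y.2) a : F) = (e y : F) * (t : F) := by
    intro y
    have h := normVec_mem E P hm (y.1 + y.2) a
    rw [hline, P.lineSp_eq_map hm (hker y) (he y) (her y)] at h
    obtain ⟨t, ht, hts⟩ := h
    have hne : ∀ i, R.red (e y) i ≠ 0 := fun i => by rw [her]; exact P.e₀_ne i
    obtain ⟨i⟩ := R.nonempty
    refine ⟨⟨t, ?_⟩, ht, hts.symm⟩
    rw [show t = (e y : F)⁻¹ * (normVec E P hm (y.1 + y.2) a : F) by
      rw [← hts, LinearMap.mulLeft_apply, inv_mul_cancel_left₀ (R.red_ne_zero_of_ne (hne i))]]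
    exact mul_mem (R.inv_mem_integers hne) (normVec E P hm _ a).2
  choose t ht hts using hcof
  choose ν hν using fun y => hcomb y (t y) (R.twistSp_mono (Nat.le_add_right m m) (ht y))
  choose ν' hν' using fun y => hcomb y
    (t y * ⟨R.x, R.x_mem_integers⟩ ^ m) (by
      have := R.mul_mem_twistSp (D' := 0) (ht y) (show R.x ^ m ∈ R.twistSp 0 m by
        rwa [R.twistSp_zero])
      rw [add_zero] at this
      simpa using this)
  have hCfix := C₂.gal_e fun g f (h : f ∈ R.polarSp (m + m)) => I.toRingAut_mem_polarSp g h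
  have hregC : ∀ i, Reg E B (m + m) fun _ => (C₂.e i : F) := fun i =>
    Reg.const (C₂.mem i) (C₂.e i).2 fun g => hCfix g i
  have hregx : Reg E B m fun _ => R.x ^ m :=
    Reg.const hxpow (pow_mem R.x_mem_integers m) fun g => by rw [map_pow, I.smul_x]
  have hlev : (m + m) + m = L := by omega
  let M : (Fin C₃.d ⊕ (Fin C₃.d ⊕ Fin C₁.d)) → (Fin C₂.d ⊕ (κ ⊕ κ)) →
      kernelGroup R n × kernelGroup R n → K := fun eq un y =>
    match eq, un with
    | .inl i, .inl i' => E.coef (C₃.J i) (C₂.e i' : F)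
    | .inl i, .inr (.inl l) => -E.coef (C₃.J i) (v l y)
    | .inl _, .inr (.inr _) => 0
    | .inr (.inl i), .inl i' => E.coef (C₃.J i) ((C₂.e i' : F) * R.x ^ m)
    | .inr (.inl _), .inr (.inl _) => 0
    | .inr (.inl i), .inr (.inr l) => -E.coef (C₃.J i) (v l y)
    | .inr (.inr a'), .inl i' => E.coef (C₁.J a') (C₂.e i' : F)
    | .inr (.inr _), .inr _ => 0
  let b : (Fin C₃.d ⊕ (Fin C₃.d ⊕ Fin C₁.d)) → kernelGroup R n × kernelGroup R n → K := fun eq _ =>
    match eq with
    | .inl _ => 0
    | .inr (.inl _) => 0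
    | .inr (.inr a') => if a' = a then 1 else 0
  let z : (Fin C₂.d ⊕ (κ ⊕ κ)) → kernelGroup R n × kernelGroup R n → K := fun un y =>
    match un with
    | .inl i' => coordFun E P hm (a, i') (y.1 + y.2)
    | .inr (.inl l) => (ν y l : K)
    | .inr (.inr l) => (ν' y l : K)
  have hsolve := solve_mem (act := pairAct R I n) (y₀ := ((0, 0) : kernelGroup R n × kernelGroup R n))
    (fun g => bijective_pairAct g) R.π_surjective (π_eq_zero_iff_nonunits R)
    (pairAlg_le E P hm) M ?hM b ?hb z ?hv ?hsol ?hinj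
  case hM =>
    rintro (i | i | a') (i' | l | l)
    · exact B.algebraMap_mem (coefElem E (C₃.J i) (C₂.e i').2 (C₂.mem i') fun g => hCfix g i')
    · exact B.neg_mem ((hv l).coef_mem _)
    · exact B.zero_mem
    · exact (((hregC i').mul hregx)).coef_mem _
    · exact B.zero_mem
    · exact B.neg_mem ((hv l).coef_mem _)
    · exact B.algebraMap_mem (coefElem E (C₁.J a') (C₂.e i').2 (C₂.mem i') fun g => hCfix g i')
    · exact B.zero_mem
    · exact B.zero_mem
  case hb =>
    rintro (i | i | a')
    · exact B.zero_mem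
    · exact B.zero_mem
    · by_cases h : a' = a
      · have e1 : b (.inr (.inr a')) = 1 := funext fun _ => if_pos h
        rw [e1]; exact B.one_mem
      · have e1 : b (.inr (.inr a')) = 0 := funext fun _ => if_neg h
        rw [e1]; exact B.zero_mem
  case hv =>
    rintro (i' | l | l) y
    · exact E.coef_mem (normVec E P hm _ a).2 (classSp_le P _ (normVec_mem E P hm _ a)) _
    · exact (ν y l).2
    · exact (ν' y l).2
  case hsol =>
    intro eq y
    have hrep := C₂.repr _ (classSp_le P _ (normVec_mem E P hm (y.1 + y.2) a))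
    rw [Fintype.sum_sum_type, Fintype.sum_sum_type]
    rcases eq with i | i | a'
    · rw [Finset.sum_eq_zero (s := Finset.univ (α := κ)) (f := fun l =>
        M (.inl i) (.inr (.inr l)) y * z (.inr (.inr l)) y) fun l _ => by simp [M], add_zero]
      show _ = (0 : K)
      rw [show ∑ i', M (.inl i) (.inl i') y * z (.inl i') y =
          E.coef (C₃.J i) (normVec E P hm (y.1 + y.2) a : F) by
        conv_rhs => rw [hrep, map_sum]
        exact Finset.sum_congr rfl fun i' _ => by
          rw [map_smul, smul_eq_mul, mul_comm]; rfl]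
      rw [show ∑ l, M (.inl i) (.inr (.inl l)) y * z (.inr (.inl l)) y =
          -E.coef (C₃.J i) ((e y : F) * (t y : F)) by
        rw [hν y, Finset.mul_sum, map_sum, ← Finset.sum_neg_distrib]
        exact Finset.sum_congr rfl fun l _ => by
          rw [mul_smul_comm, map_smul, smul_eq_mul, ← hve]
          simp [M, z, mul_comm]]
      rw [← hts, add_neg_cancel]
    · rw [Finset.sum_eq_zero (s := Finset.univ (α := κ)) (f := fun l =>
        M (.inr (.inl i)) (.inr (.inl l)) y * z (.inr (.inl l)) y) fun l _ => by simp [M], zero_add]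
      show _ = (0 : K)
      rw [show ∑ i', M (.inr (.inl i)) (.inl i') y * z (.inl i') y =
          E.coef (C₃.J i) ((normVec E P hm (y.1 + y.2) a : F) * R.x ^ m) by
        conv_rhs => rw [hrep, coef_sum_mul]
        exact Finset.sum_congr rfl fun i' _ => rfl]
      rw [show ∑ l, M (.inr (.inl i)) (.inr (.inr l)) y * z (.inr (.inr l)) y =
          -E.coef (C₃.J i) ((e y : F) * ((t y * ⟨R.x, R.x_mem_integers⟩ ^ m : R.integers) : F)) by
        rw [hν' y, Finset.mul_sum, map_sum, ← Finset.sum_neg_distrib]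
        exact Finset.sum_congr rfl fun l _ => by
          rw [mul_smul_comm, map_smul, smul_eq_mul, ← hve]
          simp [M, z, mul_comm]]
      rw [hts, MulMemClass.coe_mul, SubmonoidClass.coe_pow, ← mul_assoc, add_neg_cancel]
    · rw [Finset.sum_eq_zero (s := Finset.univ (α := κ)) (f := fun l =>
        M (.inr (.inr a')) (.inr (.inl l)) y * z (.inr (.inl l)) y) fun l _ => by simp [M],
        Finset.sum_eq_zero (s := Finset.univ (α := κ)) (f := fun l =>
        M (.inr (.inr a')) (.inr (.inr l)) y * z (.inr (.inr l)) y) fun l _ => by simp [M],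
        add_zero, add_zero]
      show _ = if a' = a then (1 : K) else 0
      rw [← normVec_dual E P hm (y.1 + y.2) a' a]
      conv_rhs => rw [hrep, map_sum]
      exact Finset.sum_congr rfl fun i' _ => by rw [map_smul, smul_eq_mul, mul_comm]; rfl
  case hinj =>
    intro wt hwt
    set y₀ : kernelGroup R n × kernelGroup R n := (0, 0)
    set H : R.integers := ⟨∑ i', (wt (.inl i') : K) • (C₂.e i' : F),
      sum_mem fun i' _ => R.smul_mem_integers _ (C₂.e i').2⟩
    have hHp : ∑ i', (wt (.inl i') : K) • (C₂.e i' : F) ∈ R.polarSp (m + m) :=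
      Submodule.sum_mem _ fun i' _ => Submodule.smul_mem _ _ (C₂.mem i')
    set vI : κ → R.integers := fun l => ⟨v l y₀, (hv l).integral y₀⟩
    have hvr : ∀ l, R.red (vI l) = P.e₀ * yb l := fun l => by
      rw [show vI l = e y₀ * c l y₀ from Subtype.ext (hve y₀ l), map_mul, her, hcr]
    set S₁ : R.integers := ∑ l, ⟨_, R.smul_mem_integers (wt (.inr (.inl l))) (vI l).2⟩
    set S₂ : R.integers := ∑ l, ⟨_, R.smul_mem_integers (wt (.inr (.inr l))) (vI l).2⟩
    have hS₁r : R.red S₁ = P.e₀ * ∑ l, R.π (wt (.inr (.inl l))) • yb l := by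
      rw [map_sum, Finset.mul_sum]
      exact Finset.sum_congr rfl fun l _ => by rw [R.red_smul, hvr, mul_smul_comm]
    have hS₂r : R.red S₂ = P.e₀ * ∑ l, R.π (wt (.inr (.inr l))) • yb l := by
      rw [map_sum, Finset.mul_sum]
      exact Finset.sum_congr rfl fun l _ => by rw [R.red_smul, hvr, mul_smul_comm]
    have hSp : ∀ f : κ → A, ((∑ l, ⟨_, R.smul_mem_integers (f l) (vI l).2⟩ : R.integers) : F) ∈
        R.polarSp L := fun f => by
      rw [AddSubmonoidClass.coe_finsetSum]
      exact Submodule.sum_mem _ fun l _ => Submodule.smul_mem _ _ ((hv l).polar _)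
    set xI : R.integers := ⟨R.x, R.x_mem_integers⟩ ^ m
    have hHx : ((H * xI : R.integers) : F) ∈ R.polarSp L := by
      rw [← hlev, MulMemClass.coe_mul]
      exact R.mul_mem_polarSp hHp (by simpa [xI] using hxpow)
    have e₁ : R.red H = P.e₀ * ∑ l, R.π (wt (.inr (.inl l))) • yb l := by
      rw [← hS₁r, ← sub_eq_zero, ← map_sub]
      refine C₃.red_eq_zero (f := ((H - S₁ : R.integers) : F))
        (Submodule.sub_mem _ (R.polarSp_mono (by omega) hHp) (hSp _)) (Subtype.coe_prop _) fun i => ?_
      have h := hwt (.inl i)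
      rw [Fintype.sum_sum_type, Fintype.sum_sum_type,
        Finset.sum_eq_zero (s := Finset.univ (α := κ)) (f := fun l =>
          M (.inl i) (.inr (.inr l)) y₀ * (wt (.inr (.inr l)) : K)) fun l _ => by simp [M],
        add_zero] at h
      rw [AddSubgroupClass.coe_sub, map_sub, sub_eq_add_neg]
      convert h using 2
      · show E.coef _ (∑ i', (wt (.inl i') : K) • (C₂.e i' : F)) = _
        rw [map_sum]
        exact Finset.sum_congr rfl fun i' _ => by rw [map_smul, smul_eq_mul, mul_comm]
      · rw [AddSubmonoidClass.coe_finsetSum, map_sum, ← Finset.sum_neg_distrib]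
        exact Finset.sum_congr rfl fun l _ => by simp [M, vI, mul_comm]
    have e₂ : R.red H * xTuple R ^ m = P.e₀ * ∑ l, R.π (wt (.inr (.inr l))) • yb l := by
      rw [← hS₂r, show xTuple R ^ m = R.red xI by simp only [xI, map_pow]; rfl, ← map_mul,
        ← sub_eq_zero, ← map_sub]
      refine C₃.red_eq_zero (f := ((H * xI - S₂ : R.integers) : F))
        (Submodule.sub_mem _ hHx (hSp _)) (Subtype.coe_prop _) fun i => ?_
      have h := hwt (.inr (.inl i))
      rw [Fintype.sum_sum_type, Fintype.sum_sum_type,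
        Finset.sum_eq_zero (s := Finset.univ (α := κ)) (f := fun l =>
          M (.inr (.inl i)) (.inr (.inl l)) y₀ * (wt (.inr (.inl l)) : K)) fun l _ => by simp [M],
        zero_add] at h
      rw [AddSubgroupClass.coe_sub, map_sub, sub_eq_add_neg]
      convert h using 2
      · show E.coef _ ((∑ i', (wt (.inl i') : K) • (C₂.e i' : F)) * R.x ^ m) = _
        rw [coef_sum_mul]
      · rw [AddSubmonoidClass.coe_finsetSum, map_sum, ← Finset.sum_neg_distrib]
        exact Finset.sum_congr rfl fun l _ => by simp [M, vI, mul_comm]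
    set τ₁ := ∑ l, R.π (wt (.inr (.inl l))) • yb l
    set τ₂ := ∑ l, R.π (wt (.inr (.inr l))) • yb l
    have hτW : ∀ f : κ → k, ∑ l, f l • yb l ∈ R.spFibre (R.polarSp (m + m)) := fun f =>
      Submodule.sum_mem _ fun l _ => Submodule.smul_mem _ _ (hyb l)
    have hτ21 : τ₁ * xTuple R ^ m = τ₂ := e₀_mul_injective P (by
      show P.e₀ * (τ₁ * xTuple R ^ m) = P.e₀ * τ₂
      rw [← mul_assoc, ← e₁, e₂])
    have hτ₁ : τ₁ ∈ R.spFibre (R.polarSp m) :=
      mem_spFibre_of_mul_pow (a := m + m) (j := m) hm.bound_le (hτW _) (hτ21 ▸ hτW _)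
    obtain ⟨f₀, hf₀, hf₀r⟩ : R.red H ∈ R.spFibre (P.lineSp (0 : Divisor K F)) := by
      rw [P.spFibre_lineSp hm (KerForm.zero (R := R) (n := n)), e₁]
      exact ⟨τ₁, hτ₁, rfl⟩
    have hH0 : R.red H = 0 := by
      rw [← hf₀r]
      refine C₁.red_eq_zero hf₀ f₀.2 fun a' => ?_
      have hsub := E.coef_nonunits_of_red_eq_zero (N := m + m) (f := ((f₀ - H : R.integers) : F))
        (Subtype.coe_prop _) (Submodule.sub_mem _ (P.lineSp_le hf₀) hHp) (by show R.red (f₀ - H) = 0; rw [map_sub, hf₀r, sub_self]) (C₁.J a')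
      have hH : E.coef (C₁.J a') (H : F) ∈ A.nonunits := by
        have h := hwt (.inr (.inr a'))
        rw [Fintype.sum_sum_type, Finset.sum_eq_zero (s := Finset.univ (α := κ ⊕ κ)) (f := fun l =>
          M (.inr (.inr a')) (.inr l) y₀ * (wt (.inr l) : K)) fun l _ => by simp [M], add_zero] at h
        convert h using 1
        show E.coef _ (∑ i', (wt (.inl i') : K) • (C₂.e i' : F)) = _
        rw [map_sum]
        exact Finset.sum_congr rfl fun i' _ => by rw [map_smul, smul_eq_mul, mul_comm]
      rw [AddSubgroupClass.coe_sub, map_sub] at hsub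
      rw [ValuationSubring.mem_nonunits_iff] at hsub hH ⊢
      rw [show E.coef (C₁.J a') (f₀ : F) = (E.coef (C₁.J a') (f₀ : F) - E.coef (C₁.J a') (H : F))
        + E.coef (C₁.J a') (H : F) by ring]
      exact A.valuation.map_add_lt hsub hH
    have hτ₁0 : τ₁ = 0 := e₀_mul_injective P (by
      show P.e₀ * τ₁ = P.e₀ * 0
      rw [← e₁, hH0, mul_zero])
    have hτ₂0 : τ₂ = 0 := by rw [← hτ21, hτ₁0, zero_mul]
    rintro (i' | l | l)
    · have h := E.coef_nonunits_of_red_eq_zero H.2 hHp hH0 (C₂.J i')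
      rwa [show E.coef (C₂.J i') (H : F) = (wt (.inl i') : K) from C₂.coef_sum _ _] at h
    · exact (π_eq_zero_iff_nonunits R _).1
        (linearIndependent_iff'.1 hli Finset.univ _ hτ₁0 l (Finset.mem_univ l))
    · exact (π_eq_zero_iff_nonunits R _).1
        (linearIndependent_iff'.1 hli Finset.univ _ hτ₂0 l (Finset.mem_univ l))
  have hfin := hsolve (.inl j)
  simp only [z] at hfin

  exact hfin

theorem exists_pairForm {h : kernelGroup R n × kernelGroup R n → K} (hh : h ∈ pairAlg E P hm) :
    ∃ (r : ℕ) (a b : Fin r → kernelGroup R n → K), (∀ i, a i ∈ coordAlg E P hm) ∧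
      (∀ i, b i ∈ coordAlg E P hm) ∧ ∀ y, h y = ∑ i, a i y.1 * b i y.2 := by
  let S : Submodule (fixedInt A Γ) (kernelGroup R n × kernelGroup R n → K) :=
    Submodule.span _ {f | ∃ a ∈ coordAlg E P hm, ∃ b ∈ coordAlg E P hm,
      f = fun y => a y.1 * b y.2}
  have hone : (1 : kernelGroup R n × kernelGroup R n → K) ∈ S :=
    Submodule.subset_span ⟨1, one_mem _, 1, one_mem _, funext fun _ => (one_mul _).symm⟩
  have hmul : ∀ f f', f ∈ S → f' ∈ S → f * f' ∈ S := by
    intro f f' hf hf'
    have h := Submodule.mul_mem_mul hf hf'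
    rw [Submodule.span_mul_span] at h
    refine Submodule.span_mono ?_ h
    rintro _ ⟨_, ⟨a, ha, b, hb, rfl⟩, _, ⟨a', ha', b', hb', rfl⟩, rfl⟩
    exact ⟨a * a', mul_mem ha ha', b * b', mul_mem hb hb', funext fun y => by
      simp only [Pi.mul_apply]; ring⟩
  have hS : h ∈ S := by
    have hle : pairAlg E P hm ≤ S.toSubalgebra hone hmul := by
      refine Algebra.adjoin_le ?_
      rintro _ (⟨q, rfl⟩ | ⟨q, rfl⟩)
      · exact Submodule.subset_span ⟨_, Algebra.subset_adjoin ⟨q, rfl⟩, 1, one_mem _,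
          funext fun y => (mul_one _).symm⟩
      · exact Submodule.subset_span ⟨1, one_mem _, _, Algebra.subset_adjoin ⟨q, rfl⟩,
          funext fun y => (one_mul _).symm⟩
    exact hle hh
  clear hh
  induction hS using Submodule.span_induction with
  | mem f hf =>
    obtain ⟨a, ha, b, hb, rfl⟩ := hf
    exact ⟨1, fun _ => a, fun _ => b, fun _ => ha, fun _ => hb, fun y => by simp⟩
  | zero => exact ⟨0, Fin.elim0, Fin.elim0, fun i => i.elim0, fun i => i.elim0, fun y => by simp⟩
  | add f f' _ _ hf hf' =>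
    obtain ⟨r, a, b, ha, hb, hab⟩ := hf
    obtain ⟨r', a', b', ha', hb', hab'⟩ := hf'
    exact ⟨r + r', Fin.append a a', Fin.append b b',
      fun i => by refine Fin.addCases (fun i => ?_) (fun i => ?_) i <;> simp [ha, ha'],
      fun i => by refine Fin.addCases (fun i => ?_) (fun i => ?_) i <;> simp [hb, hb'],
      fun y => by simp [Fin.sum_univ_add, hab, hab']⟩
  | smul c f _ hf =>
    obtain ⟨r, a, b, ha, hb, hab⟩ := hf
    refine ⟨r, fun i => c • a i, b, fun i => Subalgebra.smul_mem _ (ha i) c, hb, fun y => ?_⟩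
    rw [Pi.smul_apply, hab, Finset.smul_sum]
    exact Finset.sum_congr rfl fun i _ => (smul_mul_assoc c (a i y.1) (b i y.2)).symm

include hm in
/-- The order of coordinate functions on the kernel group. -/
def kernelFunOrder [Finite (kernelGroup R n)] :
    FunOrder A Γ (kernelGroup R n) (fun g => kerAct (I := I) n g) where
  alg := coordAlg E P hm
  finite := Module.Finite.iff_fg.2
    (fg_adjoin_of_finite (Set.finite_range _) fun h hh => by
      obtain ⟨q, rfl⟩ := hh
      exact isIntegral_of_mem_congFun (fun g => bijective_kerAct g) (coordFun_mem_congFun E P hm q))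
  integral h hh := (coordAlg_le E P hm hh).1
  equivariant h hh g x := (coordAlg_le E P hm hh).2.1 g x
  congruent h hh := (coordAlg_le E P hm hh).2.2
  separates c d hcd := by
    refine P.classSp_injective hm ?_
    have hvec : ∀ a, (normVec E P hm c a : F) = (normVec E P hm d a : F) := fun a => by
      rw [(bigChart E (m + m)).repr _ (classSp_le P c (normVec_mem E P hm c a))]
      conv_rhs => rw [(bigChart E (m + m)).repr _ (classSp_le P d (normVec_mem E P hm d a))]
      refine Finset.sum_congr rfl fun j _ => ?_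
      rw [show E.coef ((bigChart E (m + m)).J j) (normVec E P hm c a : F) =
        E.coef ((bigChart E (m + m)).J j) (normVec E P hm d a : F) from
          hcd _ (Algebra.subset_adjoin ⟨(a, j), rfl⟩)]
    refine le_antisymm (fun f hf => ?_) fun f hf => ?_
    · rw [normVec_repr E P hm c hf]
      exact Submodule.sum_mem _ fun a _ =>
        Submodule.smul_mem _ _ (hvec a ▸ normVec_mem E P hm d a)
    · rw [normVec_repr E P hm d hf]
      exact Submodule.sum_mem _ fun a _ =>
        Submodule.smul_mem _ _ ((hvec a).symm ▸ normVec_mem E P hm c a)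
  translate h hh := by
    let add₂ : (kernelGroup R n → K) →ₐ[fixedInt A Γ]
        (kernelGroup R n × kernelGroup R n → K) :=
      AlgHom.pi fun y => Pi.evalAlgHom (fixedInt A Γ) (fun _ : kernelGroup R n => K) (y.1 + y.2)
    have hle : coordAlg E P hm ≤ (pairAlg E P hm).comap add₂ :=
      Algebra.adjoin_le (Set.range_subset_iff.2 (coordFun_add_mem E P hm))
    obtain ⟨r, a, b, ha, hb, hab⟩ := exists_pairForm E P hm (hle hh)
    exact ⟨r, a, b, ha, hb, fun x y => hab (x, y)⟩

include E in
/-- The kernel of reduction has no trivial constituent. -/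
theorem noTriv_kernelGroup (hA : RankLeOne A) (hι : Fintype.card ι ≤ 2) (hG : G.order ≤ 1)
    {p : ℕ} [Fact p.Prime] [CharP k p] (e : ℕ) [Finite (kernelGroup R (p ^ e))] (hp3 : 3 ≤ p)
    (hpK : (p : K) ≠ 0) (hpA : (p : K) ∈ A.nonunits)
    (hval : ∀ c : K, c ≠ 0 → (∀ g : Γ, g • c = c) →
      ∃ z : ℤ, A.valuation c = A.valuation (p : K) ^ z) :
    NoTriv p (fun g => DistribSMul.toAddMonoidHom (Pic0 K F) (I.gal g))
      (kernelGroup R (p ^ e)) := by
  obtain ⟨M, -, hM⟩ := exists_large p e hG 0
  obtain ⟨Q⟩ := exists_pins E hA hG hM hι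
  have h := FunOrder.noTriv (Fact.out : p.Prime) hp3 hpK hpA hval
    (fun g => (bijective_kerAct g).1) (kernelFunOrder E Q hM)
  have h2 := h.map (act' := fun g => DistribSMul.toAddMonoidHom (Pic0 K F) (I.gal g))
    (fun g x _ => AddSubgroup.mem_top _) (kernelGroup R (p ^ e)).subtype fun g x _ => rfl
  rwa [← AddMonoidHom.range_eq_map, AddSubgroup.range_subtype] at h2

end Fermat.Agent.OrdinaryDatum

end
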