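/-
The kernel of reduction on the `p`-power torsion of `J₀(M p)`, `p ∤ M`, at a place over `p`: the
inertia action on the two-component reduction, coefficient functionals at the cusps `∞` and
`w_p ∞`, and the absence of trivial constituents.
-/
import Fermat.Agent.OrdinaryDatum.KernelTranslate
import Fermat.Agent.OrdinaryDatum.BoundedExpansion
import Fermat.Agent.OrdinaryDatum.Assembly
import Fermat.Agent.BadReduction.X0Conductor
import Fermat.Agent.MazurPrinciple.Uniformiser
import Fermat.Agent.Mazur.LocalRank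
import Fermat.Agent.Flat.JacobianBase
import Fermat.Agent.Flat.BModularSetting
import Fermat.Agent.ES.SpecialCongruence
import Fermat.Prelude.Thm_ModularCurve_coeff_jqModC_pow_self
import Fermat.Prelude.Thm_ModularCurve_coeff_jqModC_pow_of_lt

set_option autoImplicit false
set_option linter.style.haveILetI false
set_option linter.unusedSectionVars false
set_option synthInstance.maxHeartbeats 100000
set_option maxHeartbeats 1000000

noncomputable section

open ModularCurve IntermediateField IsLocalRing AlgebraicCurve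
open Fermat.Agent.Curve Fermat.Agent.Bad Fermat.Agent.BadReduction
open Fermat.Agent.Carayol (finCoeff isFinCoeff_single)

namespace Fermat.Agent.OrdinaryDatum

local notation "ℚbar" => AlgebraicClosure ℚ
local notation "Γℚ" => AlgebraicClosure ℚ ≃ₐ[ℚ] AlgebraicClosure ℚ

/-- A monic polynomial in `j` is a unit in integral Laurent series. -/
theorem isUnit_eval₂_jqModC {P : Polynomial ℤ} (hP : P.Monic) :
    IsUnit (Polynomial.eval₂ (Int.castRingHom (LaurentSeries ℤ)) (jqModC ℤ) P) := by
  set u := Polynomial.eval₂ (Int.castRingHom (LaurentSeries ℤ)) (jqModC ℤ) P with hu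
  have hcoeff : ∀ n, u.coeff n =
      ∑ i ∈ Finset.range (P.natDegree + 1), P.coeff i * (jqModC ℤ ^ i).coeff n := fun n => by
    rw [hu, Polynomial.eval₂_eq_sum_range, HahnSeries.coeff_sum]
    refine Finset.sum_congr rfl fun i _ => ?_
    rw [eq_intCast, ← zsmul_eq_mul, HahnSeries.coeff_smul, zsmul_eq_mul]
    rfl
  have h1 : u.coeff (-(P.natDegree : ℤ)) = 1 := by
    rw [hcoeff, Finset.sum_eq_single P.natDegree]
    · rw [ModularCurve.coeff_jqModC_pow_self, mul_one, hP.coeff_natDegree]
    · intro i hi hne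
      have := Finset.mem_range.1 hi
      rw [ModularCurve.coeff_jqModC_pow_of_lt ℤ (by omega), mul_zero]
    · simp
  have hne : u ≠ 0 := fun h0 => by
    rw [h0, HahnSeries.coeff_zero] at h1; exact zero_ne_one h1
  have hord : u.order = -(P.natDegree : ℤ) := by
    refine le_antisymm (HahnSeries.order_le_of_coeff_ne_zero (by rw [h1]; exact one_ne_zero)) ?_
    by_contra hlt
    apply HahnSeries.leadingCoeff_ne_zero.2 hne
    rw [HahnSeries.leadingCoeff_eq, hcoeff]
    refine Finset.sum_eq_zero fun i hi => ?_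
    have := Finset.mem_range.1 hi
    rw [ModularCurve.coeff_jqModC_pow_of_lt ℤ (by omega), mul_zero]
  refine HahnSeries.isUnit_iff.2 ?_
  rw [HahnSeries.leadingCoeff_eq, hord, h1]
  exact isUnit_one

variable {M p : ℕ} [NeZero M] [hp : Fact p.Prime]

local instance neZero_primeOD : NeZero p := ⟨hp.out.ne_zero⟩

variable (hpM : ¬ p ∣ M) (A : ValuationSubring ℚbar) (hA : A.LiesOverPrime p)

/-- The inertia action on the two-component reduction. -/
def x0InertialAction :
    InertialAction (x0Reduction hpM A hA) (A.inertiaSubgroupIn ℚ) where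
  gal := (arithmeticGalois (modularFunctionFieldFull (M * p))).comp
    (A.inertiaSubgroupIn ℚ).subtype
  baseAut_gal _ _ := rfl
  valuation_smul g a := MazurPrinciple.valuation_inertia_apply g.2 a
  φ_eq g i f := compPhi_galois hpM A hA g.2 i f
  smul_x g := by
    have hJ : arithmeticRingAut (modularFunctionFieldFull (M * p)) (g : Γℚ) (cubicJ M p) =
        cubicJ M p := by
      rw [cubicJ, aeval_int_eq]
      refine (Polynomial.hom_eval₂ _ _
        (arithmeticRingAut (modularFunctionFieldFull (M * p)) (g : Γℚ)).toRingHom _).trans ?_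
      congr 1
      · exact RingHom.ext_int _ _
      · rw [jBar_eq_jd]
        exact galois_smul_jdBar (g : Γℚ) _
    show arithmeticRingAut (modularFunctionFieldFull (M * p)) (g : Γℚ) (x0Fun hpM) = x0Fun hpM
    rw [x0Fun, map_inv₀, map_mul, hJ]
    congr 2
    refine ((atkinLehner_galois hpM (g : Γℚ) (cubicJ M p)).symm.trans ?_)
    exact congrArg (atkinLehner hpM) hJ

/-- The expansion of a value of the cubic at a `j (d τ)`. -/
theorem coe_cubic_jdBar (d : {d : ℕ // d ∈ (M * p).divisors}) [NeZero d.1] :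
    ((Polynomial.eval₂ (Int.castRingHom (X0F M p)) (⟨jdBar d, jdBar_mem d⟩ : X0F M p) (cubic p) :
      X0F M p) : LaurentSeries ℚbar) = coeffMap (Int.castRingHom ℚbar)
        (qExpand ℤ d.1 (Polynomial.eval₂ (Int.castRingHom (LaurentSeries ℤ)) (jqModC ℤ)
          (cubic p))) := by
  have e : (jdBar d : LaurentSeries ℚbar) =
      coeffMap (Int.castRingHom ℚbar) (qExpand ℤ d.1 (jqModC ℤ)) := by
    rw [jdBar, BadReduction.coeffEmb_qExpand_jq]
  rw [Polynomial.hom_eval₂, Polynomial.hom_eval₂, ← e]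
  refine (Polynomial.hom_eval₂ _ _ (modularFunctionFieldBar (M * p)).val.toRingHom _).trans ?_
  exact congrArg (fun f => Polynomial.eval₂ f (jdBar d) (cubic p)) (RingHom.ext_int _ _)

/-- The expansion of `x` is integral. -/
theorem x0Fun_mem_finCoeff : ((x0Fun hpM : X0F M p) : LaurentSeries ℚbar) ∈ finCoeff ℚbar := by
  haveI : NeZero (oneIdx M p).1 := ⟨one_ne_zero⟩
  haveI : NeZero (swapIdx hpM (oneIdx M p)).1 :=
    ⟨(Nat.pos_of_mem_divisors (swapIdx hpM (oneIdx M p)).2).ne'⟩
  set u : LaurentSeries ℤ := qExpand ℤ (oneIdx M p).1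
      (Polynomial.eval₂ (Int.castRingHom (LaurentSeries ℤ)) (jqModC ℤ) (cubic p)) *
    qExpand ℤ (swapIdx hpM (oneIdx M p)).1
      (Polynomial.eval₂ (Int.castRingHom (LaurentSeries ℤ)) (jqModC ℤ) (cubic p)) with hu
  have hunit : IsUnit u := ((isUnit_eval₂_jqModC (cubic_monic (q := p))).map _).mul
    ((isUnit_eval₂_jqModC (cubic_monic (q := p))).map _)
  obtain ⟨v, hv⟩ := hunit.exists_right_inv
  have hx : ((x0Fun hpM : X0F M p) : LaurentSeries ℚbar) =
      coeffMap (Int.castRingHom ℚbar) v := by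
    have hprod : ((cubicJ M p * atkinLehner hpM (cubicJ M p) : X0F M p) : LaurentSeries ℚbar) =
        coeffMap (Int.castRingHom ℚbar) u := by
      have h1 : cubicJ M p = Polynomial.eval₂ (Int.castRingHom (X0F M p))
          (⟨jdBar (oneIdx M p), jdBar_mem _⟩ : X0F M p) (cubic p) := by
        rw [cubicJ, aeval_int_eq, jBar_eq_jd]
      have h2 : atkinLehner hpM (cubicJ M p) = Polynomial.eval₂ (Int.castRingHom (X0F M p))
          (⟨jdBar (swapIdx hpM (oneIdx M p)), jdBar_mem _⟩ : X0F M p) (cubic p) := by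
        rw [h1]
        refine (Polynomial.hom_eval₂ _ _ (atkinLehner hpM : X0F M p →+* X0F M p) _).trans ?_
        rw [RingHom.ext_int ((atkinLehner hpM : X0F M p →+* X0F M p).comp _) (Int.castRingHom _)]
        congr 1
        exact atkinHom_jdBar hpM _
      rw [IntermediateField.coe_mul, h2, h1, coe_cubic_jdBar, coe_cubic_jdBar, hu, map_mul]
    rw [x0Fun, IntermediateField.coe_inv, hprod]
    exact inv_eq_of_mul_eq_one_right (by rw [← map_mul, hv, map_one])
  rw [hx]
  exact isFinCoeff_coeffMap_int v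

variable {A}

include hA in
/-- The expansion at `∞` of an integral function with poles only at those of `x` is integral. -/
theorem expansion_mem_intSeries {f : X0F M p} (hf : f ∈ infV M p A)
    (hint : ModelAux.IntOver ℚbar (x0Fun hpM) f) : (f : LaurentSeries ℚbar) ∈ intSeries A :=
  mem_intSeries_of_isIntegral (Mazur.rankLeOne_of_liesOverPrime hp.out hA)
    (modularFunctionFieldBar_le_finFrac (M * p) f.2) hf
    (isIntegral_finCoeff_of_intOver (modularFunctionFieldBar (M * p)).val
      (x0Fun_mem_finCoeff hpM) hint)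

include hA in
theorem intOver_of_mem_polarSp {N : ℕ} {f : X0F M p}
    (hf : f ∈ (x0Reduction hpM A hA).polarSp N) : ModelAux.IntOver ℚbar (x0Fun hpM) f := by
  refine ModelAux.intOver_iff.2 fun v hv => ?_
  rcases eq_or_ne f 0 with rfl | h0
  · simp
  have h := (RedAux.mem_L_iff h0).1 hf v
  simp only [Finsupp.smul_apply, MultiReduction.poleX, poleDivisor_apply] at h
  rw [max_eq_right (by
    show -v.ord (x0Fun hpM) ≤ 0
    omega), smul_zero, neg_zero] at h
  exact h

theorem intOver_atkinLehner {f : X0F M p} (hf : ModelAux.IntOver ℚbar (x0Fun hpM) f) :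
    ModelAux.IntOver ℚbar (x0Fun hpM) (atkinLehner hpM f) := by
  obtain ⟨P, hP, he⟩ := hf
  have hle : Algebra.adjoin ℚbar ({x0Fun hpM} : Set (X0F M p)) ≤
      (Algebra.adjoin ℚbar ({x0Fun hpM} : Set (X0F M p))).comap
        (atkinLehner hpM : X0F M p →ₐ[ℚbar] X0F M p) := by
    refine Algebra.adjoin_le ?_
    rintro _ rfl
    show atkinLehner hpM (x0Fun hpM) ∈ Algebra.adjoin ℚbar ({x0Fun hpM} : Set (X0F M p))
    rw [atkinLehner_x0Fun]
    exact Algebra.subset_adjoin rfl
  let ψ : Algebra.adjoin ℚbar ({x0Fun hpM} : Set (X0F M p)) →+*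
      Algebra.adjoin ℚbar ({x0Fun hpM} : Set (X0F M p)) :=
    ((atkinLehner hpM : X0F M p →+* X0F M p).comp
      (Algebra.adjoin ℚbar ({x0Fun hpM} : Set (X0F M p))).val.toRingHom).codRestrict
      (Algebra.adjoin ℚbar ({x0Fun hpM} : Set (X0F M p))).toSubring fun r => hle r.2
  refine ⟨P.map ψ, hP.map ψ, ?_⟩
  rw [Polynomial.eval₂_map]
  have h1 := congrArg (atkinLehner hpM : X0F M p →+* X0F M p) he
  rw [map_zero, Polynomial.hom_eval₂] at h1
  exact h1

variable (A)

/-- An expansion coefficient at `∞`. -/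
def x0CuspCoef (n : ℤ) : X0F M p →ₗ[ℚbar] ℚbar where
  toFun f := (f : LaurentSeries ℚbar).coeff n
  map_add' f g := by rw [IntermediateField.coe_add, HahnSeries.coeff_add]
  map_smul' c f := by
    rw [IntermediateField.coe_smul, RingHom.id_apply, smul_eq_mul, Algebra.smul_def,
      algebraMap_laurentSeries_eq_single, HahnSeries.coeff_single_zero_mul]

/-- Expansion coefficients at the two cusps. -/
def x0Coef : Fin 2 × ℤ → X0F M p →ₗ[ℚbar] ℚbar
  | (0, n) => x0CuspCoef (M := M) (p := p) n
  | (1, n) => (x0CuspCoef (M := M) (p := p) n).comp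
      (atkinLehner hpM).toLinearMap

theorem x0Coef_zero (n : ℤ) (f : X0F M p) :
    x0Coef hpM (0, n) f = (f : LaurentSeries ℚbar).coeff n := rfl

theorem x0Coef_one (n : ℤ) (f : X0F M p) :
    x0Coef hpM (1, n) f = (atkinLehner hpM f : LaurentSeries ℚbar).coeff n := rfl

include hA in
theorem x0Coef_mem {N : ℕ} {f : X0F M p} (hf : f ∈ (x0Reduction hpM A hA).integers)
    (hfN : f ∈ (x0Reduction hpM A hA).polarSp N) : ∀ j, x0Coef hpM j f ∈ A := by
  have hV := (x0Reduction hpM A hA).mem_integers.1 hf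
  have hI := intOver_of_mem_polarSp hpM hA hfN
  intro j
  obtain ⟨i, n⟩ := j
  fin_cases i
  · exact (mem_intSeries_iff A).1 (expansion_mem_intSeries hpM hA (hV 0) hI) n
  · exact (mem_intSeries_iff A).1
      (expansion_mem_intSeries hpM hA (hV 1) (intOver_atkinLehner hpM hI)) n

/-- The reduction at `∞` of a function with small coefficients vanishes. -/
theorem infRed_eq_zero_of_coeff {f : X0F M p} (hf : f ∈ infV M p A)
    (hint : (f : LaurentSeries ℚbar) ∈ intSeries A)
    (h : ∀ n, (f : LaurentSeries ℚbar).coeff n ∈ A.nonunits) :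
    infRed M p A ⟨f, hf⟩ = 0 := by
  obtain ⟨y, hy⟩ := hint
  refine (gaussValRed_coeffMap _ (modularFunctionFieldBar_le_finFrac (M * p)) A y hy.symm).trans ?_
  ext n
  rw [coeffMap_coeff, HahnSeries.coeff_zero, IsLocalRing.residue_eq_zero_iff,
    ← ValuationSubring.coe_mem_nonunits_iff]
  have := h n
  rw [← hy, coeffMap_coeff] at this
  exact this

/-- The coefficient functionals of the reduction. -/
def x0Coeffs : Coeffs (x0InertialAction hpM A hA) where
  Idx := Fin 2 × ℤ
  coef := x0Coef hpM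
  coef_gal g j f := by
    obtain ⟨i, n⟩ := j
    fin_cases i
    · show (((arithmeticGalois (modularFunctionFieldFull (M * p)) (g : Γℚ) • f : X0F M p) :
        LaurentSeries ℚbar)).coeff n = (g : Γℚ) ((f : LaurentSeries ℚbar).coeff n)
      rw [coe_galois_smul, coeffMap_coeff]
      rfl
    · show ((atkinLehner hpM (arithmeticGalois (modularFunctionFieldFull (M * p)) (g : Γℚ) • f) :
        X0F M p) : LaurentSeries ℚbar).coeff n =
          (g : Γℚ) ((atkinLehner hpM f : LaurentSeries ℚbar).coeff n)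
      rw [atkinLehner_galois, coe_galois_smul, coeffMap_coeff]
      rfl
  coef_mem := x0Coef_mem hpM A hA
  red_eq_zero {N f} hf hfN h := by
    have hV := (x0Reduction hpM A hA).mem_integers.1 hf
    have hI := intOver_of_mem_polarSp hpM hA hfN
    funext i
    rw [MultiReduction.red_apply]
    fin_cases i
    · exact Subtype.ext (infRed_eq_zero_of_coeff A (hV 0)
        (expansion_mem_intSeries hpM hA (hV 0) hI) fun n => h (0, n))
    · exact Subtype.ext (infRed_eq_zero_of_coeff A (hV 1)
        (expansion_mem_intSeries hpM hA (hV 1) (intOver_atkinLehner hpM hI)) fun n => h (1, n))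
  exists_fixed_lift c := by
    obtain ⟨z, hz, hfix⟩ := FlatModel.JacBase.exists_lift_fixed hA c
    exact ⟨z, hz, fun g => hfix g g.2⟩

/-- The kernel of reduction on the `p ^ e`-torsion of `J₀(M p)`. -/
abbrev x0Kernel (e : ℕ) : AddSubgroup (JZero (M * p)) :=
  kernelGroup (x0Reduction hpM A hA) (p ^ e)

theorem smul_mem_x0Kernel (e : ℕ) {σ : Γℚ} (hσ : σ ∈ A.inertiaSubgroupIn ℚ)
    {x : JZero (M * p)} (hx : x ∈ x0Kernel hpM A hA e) : σ • x ∈ x0Kernel hpM A hA e :=
  smul_mem_kernelGroup (x0InertialAction hpM A hA) ⟨σ, hσ⟩ hx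

/-- Inertia is trivial modulo the kernel. -/
theorem smul_sub_mem_x0Kernel (e : ℕ) {σ : Γℚ} (hσ : σ ∈ A.inertiaSubgroupIn ℚ)
    {x : JZero (M * p)} (hx : p ^ e • x = 0) : σ • x - x ∈ x0Kernel hpM A hA e := by
  haveI : IsAlgClosed (ResidueField A) := (x0Reduction hpM A hA).isAlgClosed_residue
  exact smul_sub_mem_kernelGroup (x0InertialAction hpM A hA) (pow_ne_zero e hp.out.ne_zero)
    ⟨σ, hσ⟩ hx

theorem finite_x0Kernel (e : ℕ) : Finite (x0Kernel hpM A hA e) := by
  haveI := FlatModel.BModular.finite_torsionBy_pow (M * p) p e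
  refine Finite.of_injective (fun x => (⟨(x : JZero (M * p)), ?_⟩ :
    Submodule.torsionBy ℤ (JZero (M * p)) ((p : ℤ) ^ e))) fun x y h => ?_
  · rw [Submodule.mem_torsionBy_iff, ← Nat.cast_pow, natCast_zsmul]
    exact nsmul_eq_zero_of_mem_kernelGroup x.2
  · exact Subtype.ext (congrArg Subtype.val h :)

/-- A gluing datum with reduced conductor. -/
theorem exists_x0Gluing :
    ∃ G : Gluing (x0Reduction hpM A hA), G.order ≤ 1 := by
  obtain ⟨B, hreg, hmeets, hZ⟩ := exists_conductor_proof hpM A hA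
  exact ⟨Gluing.ofVanishing (x0Reduction hpM A hA) B hreg hmeets hZ, le_rfl⟩

/-- The kernel has no trivial constituent. -/
theorem noTriv_x0Kernel (hp3 : 3 ≤ p) (e : ℕ) :
    NoTriv p (jAct (M * p) A) (x0Kernel hpM A hA e) := by
  haveI := ES.charP_residueField A hp.out hA
  haveI := finite_x0Kernel hpM A hA e
  obtain ⟨G, hG⟩ := exists_x0Gluing hpM A hA
  exact noTriv_kernelGroup (G := G) (x0Coeffs hpM A hA)
    (Mazur.rankLeOne_of_liesOverPrime hp.out hA) (by rw [Fintype.card_fin]) hG e hp3
    (Nat.cast_ne_zero.2 hp.out.ne_zero) hA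
    fun c hc hfix => AtP.exists_zpow_valuation_eq hp.out hA hc fun σ hσ => hfix ⟨σ, hσ⟩

/-- Kernels on the torsion of `J₀(M p)`. -/
theorem hasTorsionKernels_mul {M p : ℕ} [NeZero M] [Fact p.Prime] (hpM : ¬ p ∣ M) (hp3 : 3 ≤ p) : HasTorsionKernels (M * p) p := fun P hP e =>
  ⟨x0Kernel hpM P hP e, fun _ hσ _ hx => smul_mem_x0Kernel hpM P hP e hσ hx,
    fun _ hσ _ hx => smul_sub_mem_x0Kernel hpM P hP e hσ hx, noTriv_x0Kernel hpM P hP hp3 e⟩

omit [NeZero M] in
include hp in
/-- Kernels on the torsion of `J₀(N)`, `p` exactly dividing `N`. -/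
theorem hasTorsionKernels_of_dvd {N : ℕ} [NeZero N] (hp2 : p ≠ 2) (hN : p ∣ N)
    (hN2 : ¬ p ^ 2 ∣ N) : HasTorsionKernels N p := by
  obtain ⟨M', rfl⟩ := hN
  haveI : NeZero M' := ⟨fun h => NeZero.ne (p * M') (by rw [h, mul_zero])⟩
  have hM' : ¬ p ∣ M' := fun h => hN2 (by rw [pow_two]; exact mul_dvd_mul_left p h)
  rw [mul_comm p M']
  exact hasTorsionKernels_mul hM' (by
    have := hp.out.two_le
    omega)

end Fermat.Agent.OrdinaryDatum

end
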