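/-
The kernel of reduction on the `p`-power torsion of `J₀(N)` at a good odd prime `p`: the pull-back
`α^* : J₀(N) → J₀(N p)` is injective on `p`-power torsion and carries it into the kernel of
reduction of the two-component model of `X₀(N p)`, so it has no trivial constituent.
-/
import Fermat.Agent.OrdinaryDatum.KernelX0
import Fermat.Agent.BadReduction.X0Compat
import Fermat.Agent.NewformRep.Degeneracy
import Fermat.Agent.ES.SpecialMain
import Fermat.Agent.HeckeJ.Operator

set_option autoImplicit false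
set_option linter.style.haveILetI false
set_option synthInstance.maxHeartbeats 200000

noncomputable section

open ModularCurve IntermediateField IsLocalRing AlgebraicCurve
open Fermat.Agent.Curve Fermat.Agent.Bad Fermat.Agent.BadReduction

namespace Fermat.Agent.OrdinaryDatum

local notation "ℚbar" => AlgebraicClosure ℚ
local notation "Γℚ" => AlgebraicClosure ℚ ≃ₐ[ℚ] AlgebraicClosure ℚ

/-- `NoTriv` along an equivariant homomorphism which is injective on the subgroup. -/
theorem NoTriv.of_map_le {G M M' : Type*} [AddCommGroup M] [AddCommGroup M'] {p : ℕ}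
    {act : G → M →+ M} {act' : G → M' →+ M'} {C : AddSubgroup M} {C' : AddSubgroup M'}
    (h : NoTriv p act' C') (f : M →+ M') (hinj : ∀ x ∈ C, f x = 0 → x = 0)
    (hle : ∀ x ∈ C, f x ∈ C') (hcomm : ∀ g x, f (act g x) = act' g (f x)) :
    NoTriv p act C := by
  intro B hBC hB φ hφ
  let fB : B →+ B.map f := (f.comp B.subtype).codRestrict _ fun x => ⟨x, x.2, rfl⟩
  have hbij : Function.Bijective fB := by
    refine ⟨fun x y hxy => ?_, fun ⟨y, x, hx, e⟩ => ⟨⟨x, hx⟩, Subtype.ext e⟩⟩
    have h0 : f ((x : M) - y) = 0 := by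
      rw [map_sub, sub_eq_zero]
      exact congrArg Subtype.val hxy
    exact Subtype.ext (sub_eq_zero.1 (hinj _ (hBC (sub_mem x.2 y.2)) h0))
  let e := AddEquiv.ofBijective fB hbij
  have hst : ∀ g, ∀ y ∈ B.map f, act' g y ∈ B.map f := by
    rintro g _ ⟨x, hx, rfl⟩
    exact ⟨_, hB g x hx, hcomm g x⟩
  have h0 := h (B.map f) (by rintro _ ⟨x, hx, rfl⟩; exact hle x (hBC hx)) hst
    (φ.comp e.symm.toAddMonoidHom) fun g y => by
      obtain ⟨x, rfl⟩ := e.surjective y
      have he : (⟨act' g (e x), hst g _ (e x).2⟩ : B.map f) = e ⟨act g x, hB g x x.2⟩ :=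
        Subtype.ext (hcomm g x).symm
      show φ (e.symm _) = φ (e.symm (e x))
      rw [he, AddEquiv.symm_apply_apply, AddEquiv.symm_apply_apply, hφ]
  refine DFunLike.ext _ _ fun x => ?_
  have := DFunLike.congr_fun h0 (e x)
  simpa using this

section Along

variable {K F F' : Type*} [Field K] [Field F] [Field F'] [Algebra K F] [Algebra K F']
  [HasPrincipalDivisors K F'] (φ : F →ₐ[K] F') (hφ : φ.toRingHom.IsIntegral)

/-- Pull-back on degree-zero divisor classes along an embedding of function fields. -/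
def picPullAlong (hFI : FundamentalIdentityAlong K φ hφ) : Pic0 K F →+ Pic0 K F' :=
  QuotientAddGroup.map _ _
    (((Divisor.pullbackAlong φ hφ).domRestrict (Divisor.degZero (K := K) (F := F))).codRestrict
      _ fun D => Divisor.pullbackAlong_mem_degZero φ hφ hFI D.2) (by
    rintro ⟨D, hD0⟩ hD
    simp only [AddSubgroup.mem_addSubgroupOf] at hD ⊢
    exact Divisor.isPrincipal_pullbackAlong φ hφ hD)

theorem picPullAlong_mk (hFI : FundamentalIdentityAlong K φ hφ)
    (D : Divisor.degZero (K := K) (F := F)) :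
    picPullAlong φ hφ hFI (Pic0.mk D) =
      Pic0.mk ⟨Divisor.pullbackAlong φ hφ D, Divisor.pullbackAlong_mem_degZero φ hφ hFI D.2⟩ :=
  rfl

/-- Push-forward of a pull-back is multiplication by the degree. -/
theorem pushforwardAlong_pullbackAlong (hFI : FundamentalIdentityAlong K φ hφ)
    (h1 : ∀ v : Place K F, v.deg = 1) (h1' : ∀ w : Place K F', w.deg = 1) (D : Divisor K F) :
    Divisor.pushforwardAlong φ hφ (Divisor.pullbackAlong φ hφ D) =
      (finrankAlong K φ : ℤ) • D := by
  letI := algebraAlong φ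
  haveI := isScalarTower_along φ
  haveI := isIntegral_along φ hφ
  haveI : FundamentalIdentity K F F' := hFI
  show Divisor.pushforward F (Divisor.pullback F' D) = (Module.finrank F F' : ℤ) • D
  induction D using Finsupp.induction with
  | zero => simp
  | single_add v n D _ _ ih =>
    rw [map_add, map_add, smul_add, ih]
    congr 1
    rw [Divisor.pullback_single, map_sum]
    have hsum := FundamentalIdentity.sum_ramificationIndex_mul_deg (K := K) (F := F) (F' := F') v
    rw [h1 v, Nat.cast_one, mul_one] at hsum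
    simp only [h1', Nat.cast_one, mul_one] at hsum
    rw [Finsupp.smul_single, smul_eq_mul, ← hsum, Finset.sum_mul, Finsupp.single_finset_sum]
    refine Finset.sum_congr rfl fun w hw => ?_
    have hin : w.inertiaDeg F = 1 := by
      have := w.deg_restrict_mul_inertiaDeg (F := F)
      rwa [h1, h1', one_mul] at this
    rw [Divisor.pushforward_single, Place.mem_fiber.mp hw, hin, Nat.cast_one, mul_one, mul_comm]

end Along

variable (N p : ℕ) [NeZero N] [hp : Fact p.Prime]

local instance neZero_primeGood : NeZero p := ⟨hp.out.ne_zero⟩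

/-- Pull-back along `α : F_N → F_{Np}`. -/
def pullAlpha : JZero N →+ JZero (N * p) :=
  picPullAlong (heckeAlphaBar ℚbar N p) (Curve.isIntegral_toRingHom _)
    (Curve.fundamentalIdentityAlong _ _ (Curve.finiteAlong _))

theorem pullAlpha_galois_smul (σ : Γℚ) (x : JZero N) :
    pullAlpha N p (σ • x) = σ • pullAlpha N p x := by
  obtain ⟨D, rfl⟩ := Pic0.mk_surjective x
  rw [galois_smul_pic0_def, galois_smul_pic0_def, pullAlpha, SemilinearAut.pic0_smul_mk,
    picPullAlong_mk, picPullAlong_mk, SemilinearAut.pic0_smul_mk]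
  exact congrArg Pic0.mk (Subtype.ext (HeckeJ.pullbackAlong_smul (φ := heckeAlphaBar ℚbar N p) _
    (NewformRep.intertwines_heckeAlphaBar N p σ) (D : Divisor ℚbar (modularFunctionFieldBar N))))

theorem pushAlpha_pullAlpha (hpN : ¬ p ∣ N) (x : JZero N) :
    NewformRep.pushAlpha N p (pullAlpha N p x) = (p + 1) • x := by
  obtain ⟨D, rfl⟩ := Pic0.mk_surjective x
  rw [pullAlpha, picPullAlong_mk, NewformRep.pushAlpha, NewformRep.picPushAlong_mk]
  refine Eq.trans ?_ (QuotientAddGroup.mk_nsmul _ D (p + 1))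
  refine congrArg Pic0.mk (Subtype.ext ?_)
  show Divisor.pushforwardAlong (heckeAlphaBar ℚbar N p) _
    (Divisor.pullbackAlong (heckeAlphaBar ℚbar N p) _ (D : Divisor ℚbar _)) = _
  rw [pushforwardAlong_pullbackAlong _ _
      (Curve.fundamentalIdentityAlong _ _ (Curve.finiteAlong _))
      (fun v => IsCurveOver.deg_eq_one_of_isAlgClosed v)
      (fun w => IsCurveOver.deg_eq_one_of_isAlgClosed w),
    finrankAlong_alpha hpN, natCast_zsmul]
  rfl

theorem eq_zero_of_pullAlpha_eq_zero (hpN : ¬ p ∣ N) {K : ℕ} {x : JZero N}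
    (hx : p ^ K • x = 0) (h : pullAlpha N p x = 0) : x = 0 := by
  have h1 : (p + 1) • x = 0 := by rw [← pushAlpha_pullAlpha N p hpN, h, map_zero]
  have hcop : Nat.Coprime (p + 1) (p ^ K) := by
    refine Nat.Coprime.pow_right K ?_
    rw [Nat.coprime_comm, Nat.coprime_self_add_right]
    exact Nat.coprime_one_right p
  rw [← AddMonoid.addOrderOf_eq_one_iff]
  exact Nat.eq_one_of_dvd_coprimes hcop (addOrderOf_dvd_of_nsmul_eq_zero h1)
    (addOrderOf_dvd_of_nsmul_eq_zero hx)

variable (A : ValuationSubring ℚbar)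

/-- The `p ^ K`-torsion killed by reduction. -/
def goodKernel (K : ℕ) : AddSubgroup (JZero N) where
  carrier := {x | reductionModL A N x = 0 ∧ p ^ K • x = 0}
  zero_mem' := ⟨map_zero _, smul_zero _⟩
  add_mem' := fun {x y} hx hy =>
    ⟨by rw [map_add, hx.1, hy.1, add_zero], by rw [nsmul_add, hx.2, hy.2, add_zero]⟩
  neg_mem' := fun {x} hx => ⟨by rw [map_neg, hx.1, neg_zero], by
    have h := hx.2
    rw [← neg_eq_zero] at h
    simpa using h⟩

variable {N p} (hpN : ¬ p ∣ N) (hA : A.LiesOverPrime p)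

include hpN hA in
/-- Reduction of functions of `X₀(N)` carries divisors to divisors. -/
theorem mapDomain_placeReductionModL (h : ReductionInputsModL A N)
    (T : (Igusa.x0GoodReduction hpN hA).V) (hT : (Igusa.x0GoodReduction hpN hA).φ T ≠ 0)
    (D : Divisor ℚbar (modularFunctionFieldBar N))
    (hD : ∀ P, D P = P.ord (T : modularFunctionFieldBar N))
    (Q : Place (ResidueField A) (X0Res N A)) :
    Finsupp.mapDomain (placeReductionModL h) D Q =
      Q.ord ((Igusa.x0GoodReduction hpN hA).φ T) := by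
  haveI := ES.charP_residueField A hp.out hA
  haveI : IsAlgClosed (ResidueField A) := Igusa.isAlgClosed_residueField hpN hA
  obtain ⟨u, v, hv, e, hu', hv'⟩ := Igusa.x0GoodReduction_exists_quotient hpN hA T
  have hg := red_mul_of_quotient hpN A hA T u v e hu' hv'
  have hvk := Igusa.coeffMap_residue_mem hpN hA v hv'
  have huk := Igusa.coeffMap_residue_mem hpN hA u hu'
  have hu : coeffMap (residue A) u ≠ 0 := by
    rw [← hg]
    exact mul_ne_zero (fun h0 => hT (Subtype.ext h0)) hv
  have hv0 : (⟨coeffMap A.subtype v, hv'⟩ : modularFunctionFieldBar N) ≠ 0 := fun h0 => hv (by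
    rw [show v = 0 from HahnSeries.ext (funext fun m => Subtype.val_injective (by
      simpa [coeffMap_coeff] using congrArg (fun z : LaurentSeries ℚbar => z.coeff m) (congrArg Subtype.val h0))),
      map_zero])
  have hT0 : (T : modularFunctionFieldBar N) ≠ 0 := fun h0 => hT (by
    rw [show T = 0 from Subtype.ext h0, map_zero])
  have hE : ∀ P : Place ℚbar (modularFunctionFieldBar N),
      (D + divisorOf ℚbar (⟨coeffMap A.subtype v, hv'⟩ : modularFunctionFieldBar N)) P =
        P.ord (⟨coeffMap A.subtype u, hu'⟩ : modularFunctionFieldBar N) := fun P => by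
    rw [Finsupp.add_apply, divisorOf_apply, hD, ← P.ord_mul hT0 hv0]
    exact congrArg P.ord (Subtype.ext e)
  have hr := (isPlaceReductionModL_placeReductionModL h).2
  have h1 := hr u hu' huk hu _ hE Q
  have h2 := hr v hv' hvk hv _ (fun P => divisorOf_apply _ P) Q
  rw [Finsupp.mapDomain_add, Finsupp.add_apply, h2] at h1
  have hTv : (Igusa.x0GoodReduction hpN hA).φ T *
      (⟨coeffMap (residue A) v, hvk⟩ : X0Res N A) = ⟨coeffMap (residue A) u, huk⟩ :=
    Subtype.ext hg
  rw [← hTv, Q.ord_mul hT (fun h0 => hv (congrArg Subtype.val h0))] at h1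
  linarith

include hpN hA in
/-- `α^*` carries the good kernel into the kernel of reduction of `X₀(N p)`. -/
theorem pullAlpha_mem_x0Kernel (K : ℕ) {x : JZero N} (hx : x ∈ goodKernel N p A K) :
    pullAlpha N p x ∈ x0Kernel hpN A hA K := by
  haveI := ES.charP_residueField A hp.out hA
  haveI : IsAlgClosed (ResidueField A) := Igusa.isAlgClosed_residueField hpN hA
  have hin : ReductionInputsModL A N := Igusa.reductionInputsModL hpN hA
  obtain ⟨hred, htor⟩ := hx
  obtain ⟨D, rfl⟩ := Pic0.mk_surjective x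
  set n := p ^ K with hn
  have hn0 : n ≠ 0 := pow_ne_zero _ hp.out.ne_zero
  -- `n D = div T` with `T` integral of non-zero reduction
  obtain ⟨f, hf0, hf⟩ : Divisor.IsPrincipal
      ((n : ℤ) • (D : Divisor ℚbar (modularFunctionFieldBar N))) := by
    have h1 : Pic0.mk ((n : ℤ) • D) = 0 := by
      rw [natCast_zsmul]; exact (QuotientAddGroup.mk_nsmul _ D n).trans htor
    exact (QuotientAddGroup.eq_zero_iff _).1 h1
  obtain ⟨c, hc, hne⟩ := (Igusa.x0GoodReduction hpN hA).exists_scale f hf0
  have hc0 : c ≠ 0 := fun h0 => hne (by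
    rw [show (⟨c • f, hc⟩ : (Igusa.x0GoodReduction hpN hA).V) = 0 from
      Subtype.ext ((congrArg (fun e => e • f) h0).trans (zero_smul _ f)), map_zero])
  set T : (Igusa.x0GoodReduction hpN hA).V := ⟨c • f, hc⟩ with hTdef
  have hT : ∀ P, ((n : ℤ) • (D : Divisor ℚbar (modularFunctionFieldBar N))) P =
      P.ord (T : modularFunctionFieldBar N) := fun P => by
    rw [hf P]
    show _ = P.ord (c • f)
    rw [Algebra.smul_def, Igusa.ord_algebraMap_mul P hc0 hf0]
  -- the reduction of `T` is an `n`-th power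
  obtain ⟨g, hg0, hg⟩ : Divisor.IsPrincipal
      (Finsupp.mapDomain (placeReductionModL hin)
        (D : Divisor ℚbar (modularFunctionFieldBar N))) := by
    rw [reductionModL_mk hin] at hred
    exact (QuotientAddGroup.eq_zero_iff _).1 hred
  set t := (Igusa.x0GoodReduction hpN hA).φ T with htdef
  have hord : ∀ Q : Place (ResidueField A) (X0Res N A), Q.ord (t / g ^ n) = 0 := fun Q => by
    have h1 := mapDomain_placeReductionModL A hpN hA hin T hne _ hT Q
    rw [Finsupp.mapDomain_smul, Finsupp.smul_apply, smul_eq_mul, hg Q] at h1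
    rw [div_eq_mul_inv, Q.ord_mul hne (inv_ne_zero (pow_ne_zero _ hg0)), Q.ord_inv,
      Fermat.Agent.Curve.ord_pow]
    linarith
  obtain ⟨c₀, hc₀⟩ : ∃ c₀ : ResidueField A, algebraMap _ (X0Res N A) c₀ = t / g ^ n := by
    have hint := (isAlgebraic_of_forall_ord_nonneg (K := ResidueField A)
      (fun Q => (hord Q).ge)).isIntegral
    exact minpoly.natDegree_eq_one_iff.1 (Polynomial.natDegree_eq_of_degree_eq_some
      (IsAlgClosed.degree_eq_one_of_irreducible _ (minpoly.irreducible hint)))
  obtain ⟨r₀, hr₀⟩ := IsAlgClosed.exists_pow_nat_eq c₀ (Nat.pos_of_ne_zero hn0)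
  set g' : X0Res N A := algebraMap _ _ r₀ * g with hg'def
  have hg' : g' ^ n = t := by
    rw [mul_pow, ← map_pow, hr₀, hc₀, div_mul_cancel₀ _ (pow_ne_zero _ hg0)]
  have hg'0 : g' ≠ 0 := fun h0 => hne (by rw [← hg', h0, zero_pow hn0])
  -- correct the pull-back by a lift of `g'`
  set R := x0Reduction hpN A hA with hR
  let h : Fin 2 → X0Res N A := ![g', resPhi (ResidueField A) p N g']
  obtain ⟨z, hz⟩ := R.red_surjective h
  have hh0 : ∀ i, R.red z i ≠ 0 := fun i => by
    rw [hz]
    fin_cases i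
    · exact hg'0
    · exact (map_ne_zero_iff _ (resPhi (ResidueField A) p N).injective).2 hg'0
  obtain ⟨hV0, hφ0⟩ := compPhi_zero_alpha hpN A hA T
  obtain ⟨hV1, hφ1⟩ := compPhi_one_alpha hpN A hA T
  set aT : X0F N p := heckeAlphaBar ℚbar N p (T : modularFunctionFieldBar N) with haT
  have hTmem : aT ∈ R.integers := R.mem_integers.2 (Fin.forall_fin_two.2 ⟨hV0, hV1⟩)
  have hTred : ∀ i, R.red ⟨aT, hTmem⟩ i = h i ^ n := Fin.forall_fin_two.2
    ⟨hφ0.trans hg'.symm, hφ1.trans (by rw [← htdef, ← hg', map_pow]; rfl)⟩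
  have hz0 : (z : X0F N p) ≠ 0 := R.red_ne_zero_of_ne (hh0 0)
  have haT0 : aT ≠ 0 := (map_ne_zero_iff _ (heckeAlphaBar ℚbar N p).injective).2
    (fun h0 => hne (by rw [htdef, show T = 0 from Subtype.ext h0, map_zero]))
  let D' : Divisor ℚbar (X0F N p) := Divisor.pullbackAlong (heckeAlphaBar ℚbar N p)
    (Curve.isIntegral_toRingHom _) (D : Divisor ℚbar (modularFunctionFieldBar N)) -
      divisorOf ℚbar (z : X0F N p)
  have hdeg : Divisor.degree D' = 0 := by
    rw [map_sub, degree_divisorOf, sub_zero]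
    exact Divisor.mem_degZero.1 (Divisor.pullbackAlong_mem_degZero _ _
      (Curve.fundamentalIdentityAlong _ _ (Curve.finiteAlong _)) D.2)
  refine ⟨⟨D', Divisor.mem_degZero.2 hdeg⟩, aT * ((z : X0F N p)⁻¹) ^ n, ?_, hdeg, ?_,
    mul_mem hTmem (pow_mem (R.inv_mem_integers hh0) n), ?_⟩
  · rw [pullAlpha, picPullAlong_mk]
    refine (QuotientAddGroup.eq_iff_sub_mem).2 ?_
    refine ⟨(z : X0F N p)⁻¹, inv_ne_zero hz0, fun w => ?_⟩
    show (D' - Divisor.pullbackAlong (heckeAlphaBar ℚbar N p) (Curve.isIntegral_toRingHom _)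
      (D : Divisor ℚbar (modularFunctionFieldBar N))) w = _
    rw [Place.ord_inv, show D' - _ = -divisorOf ℚbar (z : X0F N p) from sub_sub_cancel_left _ _,
      Finsupp.neg_apply, divisorOf_apply]
  · intro w
    have hα : (Divisor.pullbackAlong (heckeAlphaBar ℚbar N p) (Curve.isIntegral_toRingHom _)
        ((n : ℤ) • (D : Divisor ℚbar (modularFunctionFieldBar N)))) w = w.ord aT := by
      letI := algebraAlong (heckeAlphaBar ℚbar N p)
      haveI := isScalarTower_along (heckeAlphaBar ℚbar N p)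
      haveI := isIntegral_along (heckeAlphaBar ℚbar N p) (Curve.isIntegral_toRingHom _)
      exact Divisor.pullback_apply_eq_ord (F' := X0F N p) hT w
    rw [map_zsmul, Finsupp.smul_apply, smul_eq_mul] at hα
    rw [Finsupp.sub_apply, divisorOf_apply, mul_sub, hα,
      w.ord_mul haT0 (pow_ne_zero _ (inv_ne_zero hz0)), Fermat.Agent.Curve.ord_pow, w.ord_inv]
    ring
  · funext i
    have e : (⟨aT * ((z : X0F N p)⁻¹) ^ n, mul_mem hTmem (pow_mem (R.inv_mem_integers hh0) n)⟩ :
        R.integers) = ⟨aT, hTmem⟩ * ⟨_, R.inv_mem_integers hh0⟩ ^ n := rfl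
    rw [e, map_mul, map_pow, Pi.mul_apply, Pi.pow_apply, hTred, R.red_inv hh0, hz, inv_pow,
      mul_inv_cancel₀ (pow_ne_zero _ (hz ▸ hh0 i)), Pi.one_apply]

include hpN hA in
/-- The good kernel has no trivial constituent. -/
theorem noTriv_goodKernel (hp3 : 3 ≤ p) (K : ℕ) :
    NoTriv p (jAct N A) (goodKernel N p A K) :=
  (noTriv_x0Kernel hpN A hA hp3 K).of_map_le (pullAlpha N p)
    (fun _ hx h => eq_zero_of_pullAlpha_eq_zero N p hpN hx.2 h)
    (fun _ hx => pullAlpha_mem_x0Kernel A hpN hA K hx)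
    fun g x => pullAlpha_galois_smul N p (g : Γℚ) x

include hpN hA in
theorem smul_mem_goodKernel {K : ℕ} {σ : Γℚ} (hσ : σ ∈ A.inertiaSubgroupIn ℚ) {x : JZero N}
    (hx : x ∈ goodKernel N p A K) : σ • x ∈ goodKernel N p A K :=
  ⟨(ES.reductionModL_inertia hp.out hpN hA hσ x).trans hx.1, by
    rw [← ES.galois_smul_nsmul, hx.2, ES.galois_smul_zero]⟩

include hpN hA in
theorem smul_sub_mem_goodKernel {K : ℕ} {σ : Γℚ} (hσ : σ ∈ A.inertiaSubgroupIn ℚ) {x : JZero N}
    (hx : p ^ K • x = 0) : σ • x - x ∈ goodKernel N p A K :=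
  ⟨by rw [map_sub, ES.reductionModL_inertia hp.out hpN hA hσ x, sub_self], by
    rw [nsmul_sub, ← ES.galois_smul_nsmul, hx, ES.galois_smul_zero, sub_zero]⟩

include hpN hA in
/-- The Eichler–Shimura relation holds modulo the good kernel. -/
theorem quadratic_mem_goodKernel {K : ℕ} {σ : Γℚ} (hσ : A.IsFrobeniusAt σ p) {x : JZero N}
    (hx : p ^ K • x = 0) :
    σ • σ • x - heckeOperatorBar N ⟨p, hp.out⟩ (σ • x) + p • x ∈ goodKernel N p A K := by
  refine ⟨ES.reductionModL_frobenius_quadratic hp.out hpN hA hσ x, ?_⟩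
  have h2 : p ^ K • (σ • x) = 0 := by rw [← ES.galois_smul_nsmul, hx, ES.galois_smul_zero]
  rw [nsmul_add, nsmul_sub, ← map_nsmul, ← ES.galois_smul_nsmul, h2, ES.galois_smul_zero,
    map_zero, nsmul_left_comm, hx, nsmul_zero, sub_zero, add_zero]

omit [NeZero N] in
/-- Kernels on the torsion of `J₀(N)` at an odd good prime. -/
theorem hasTorsionKernels_good [NeZero N] (hpN : ¬ p ∣ N) (hp3 : 3 ≤ p) :
    HasTorsionKernels N p := fun P hP K =>
  ⟨goodKernel N p P K, fun _ hσ _ hx => smul_mem_goodKernel P hpN hP hσ hx,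
    fun _ hσ _ hx => smul_sub_mem_goodKernel P hpN hP hσ hx, noTriv_goodKernel P hpN hP hp3 K⟩

/-- Kernels on the torsion of `J₀(N)` at an odd prime whose square does not divide `N`. -/
theorem hasTorsionKernels_of_sq_not_dvd (hp2 : p ≠ 2) (hN2 : ¬ p ^ 2 ∣ N) :
    HasTorsionKernels N p := by
  by_cases h : p ∣ N
  · exact hasTorsionKernels_of_dvd hp2 h hN2
  · exact hasTorsionKernels_good h (by have := hp.out.two_le; omega)

end Fermat.Agent.OrdinaryDatum

end
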