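/-
The order of coordinate functions on the kernel of reduction of `J₀(M p)`, for every prime `p`.
-/
import Fermat.Agent.OrdinaryDatum.KernelX0

set_option autoImplicit false
set_option linter.style.haveILetI false
set_option synthInstance.maxHeartbeats 100000
set_option maxHeartbeats 1000000

noncomputable section

open ModularCurve IsLocalRing AlgebraicCurve
open Fermat.Agent.Curve Fermat.Agent.Bad Fermat.Agent.BadReduction

namespace Fermat.Agent.OrdinaryDatum

local notation "ℚbar" => AlgebraicClosure ℚ

variable {M p : ℕ} [NeZero M] [hp : Fact p.Prime]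

local instance neZero_primeFO : NeZero p := ⟨hp.out.ne_zero⟩

variable (hpM : ¬ p ∣ M) (A : ValuationSubring ℚbar) (hA : A.LiesOverPrime p)

/-- The infinitesimal order of functions on the kernel, with no parity hypothesis. -/
theorem nonempty_funOrder (e : ℕ) :
    Nonempty (FunOrder A (A.inertiaSubgroupIn ℚ) (x0Kernel hpM A hA e)
      (fun g => kerAct (I := x0InertialAction hpM A hA) (p ^ e) g)) := by
  haveI := ES.charP_residueField A hp.out hA
  haveI := finite_x0Kernel hpM A hA e
  obtain ⟨G, hG⟩ := exists_x0Gluing hpM A hA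
  obtain ⟨m, -, hm⟩ := exists_large p e (G := G) hG 0
  obtain ⟨P⟩ := exists_pins (x0Coeffs hpM A hA) (Mazur.rankLeOne_of_liesOverPrime hp.out hA) hG hm
    (by rw [Fintype.card_fin])
  exact ⟨kernelFunOrder (x0Coeffs hpM A hA) P hm⟩

end Fermat.Agent.OrdinaryDatum

end
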